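import Fermat.Prelude.Def_GaloisRep_Adic
import Fermat.Prelude.Def_GaloisRep_DeformationRingData
import Fermat.Prelude.Def_GaloisRep_DeformationCondition

set_option autoImplicit false

open scoped TensorProduct

namespace Fermat.Agent.S53.Schur

section Residual

variable {k : Type} [Field k]

/-- Residual Schur: the centraliser of an absolutely irreducible residual representation
consists of scalars. -/
theorem residual_schur (ρ : ResidualGaloisRep k) (h : ρ.IsAbsolutelyIrreducible)
    (f : Module.End k ρ.V) (hf : ∀ σ, f ∘ₗ ρ.ρ σ = ρ.ρ σ ∘ₗ f) :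
    ∃ c : k, f = c • (1 : Module.End k ρ.V) := by
  classical
  let K := AlgebraicClosure k
  let F : Module.End K (K ⊗[k] ρ.V) := f.baseChange K
  have : Module.Finite K (K ⊗[k] ρ.V) := Module.Finite.base_change k K ρ.V
  have hrank : Module.finrank K (K ⊗[k] ρ.V) = 2 := by
    rw [Module.finrank_baseChange, ρ.finrank_eq]
  have : Nontrivial (K ⊗[k] ρ.V) :=
    Module.nontrivial_of_finrank_pos (R := K) (by rw [hrank]; norm_num)
  obtain ⟨μ, hμ⟩ := Module.End.exists_eigenvalue F
  have hstab : ∀ σ : AlgebraicClosure ℚ ≃ₐ[ℚ] AlgebraicClosure ℚ,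
      ∀ x ∈ F.eigenspace μ, (ρ.baseChange K).ρ σ x ∈ F.eigenspace μ := by
    intro σ x hx
    rw [Module.End.mem_eigenspace_iff] at hx ⊢
    show F ((ρ.ρ σ).baseChange K x) = μ • (ρ.ρ σ).baseChange K x
    have hcomm : F ∘ₗ (ρ.ρ σ).baseChange K = (ρ.ρ σ).baseChange K ∘ₗ F := by
      show f.baseChange K ∘ₗ (ρ.ρ σ).baseChange K = (ρ.ρ σ).baseChange K ∘ₗ f.baseChange K
      rw [← LinearMap.baseChange_comp, ← LinearMap.baseChange_comp, hf σ]
    have := LinearMap.congr_fun hcomm x
    simp only [LinearMap.comp_apply] at this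
    rw [this, hx, map_smul]
  have htop : F.eigenspace μ = ⊤ := by
    rcases h (F.eigenspace μ) hstab with h0 | h1
    · exact absurd h0 (Module.End.hasEigenvalue_iff.mp hμ)
    · exact h1
  have hF : ∀ x, F x = μ • x := fun x =>
    Module.End.mem_eigenspace_iff.mp (htop ▸ Submodule.mem_top)
  let b : Module.Basis (Fin 2) k ρ.V := Module.finBasisOfFinrankEq k ρ.V ρ.finrank_eq
  have hM : (LinearMap.toMatrix (Algebra.TensorProduct.basis K b) (Algebra.TensorProduct.basis K b)) F
      = (LinearMap.toMatrix b b f).map (algebraMap k K) := LinearMap.toMatrix_baseChange K f b b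
  have hM' : (LinearMap.toMatrix (Algebra.TensorProduct.basis K b) (Algebra.TensorProduct.basis K b)) F
      = μ • (1 : Matrix (Fin 2) (Fin 2) K) := by
    have : F = μ • (1 : Module.End K (K ⊗[k] ρ.V)) := LinearMap.ext fun x => by
      rw [hF x]; rfl
    rw [this, map_smul, LinearMap.toMatrix_one]
  rw [hM] at hM'
  refine ⟨LinearMap.toMatrix b b f 0 0, ?_⟩
  apply (LinearMap.toMatrix b b).injective
  rw [map_smul, LinearMap.toMatrix_one]
  have hinj : Function.Injective (algebraMap k K) := (algebraMap k K).injective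
  ext i j
  apply hinj
  have hij := congrFun (congrFun hM' i) j
  have h00 := congrFun (congrFun hM' 0) 0
  simp only [Matrix.map_apply, Matrix.smul_apply, Matrix.one_apply_eq, smul_eq_mul, mul_one] at h00
  simp only [Matrix.map_apply, Matrix.smul_apply, smul_eq_mul] at hij
  rw [hij, Matrix.smul_apply, smul_eq_mul, map_mul, h00]
  by_cases hijeq : i = j
  · subst hijeq; simp
  · simp [Matrix.one_apply_ne hijeq]

end Residual

end Fermat.Agent.S53.Schur
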