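import Fermat.Agent.S53.Defs
import Fermat.Agent.S53.Schur

set_option autoImplicit false

open scoped TensorProduct

namespace Fermat.Agent.S53.ResidualNormal

open Fermat.Agent.S53 Fermat.Agent.S53.Schur

section Field

variable {k : Type} [Field k]

/-- Matrix form of Schur's lemma for an absolutely irreducible residual representation. -/
theorem matrix_schur (ρ : ResidualGaloisRep k) (h : ρ.IsAbsolutelyIrreducible)
    (b : Module.Basis (Fin 2) k ρ.V) (T : Matrix (Fin 2) (Fin 2) k)
    (hT : ∀ σ, T * LinearMap.toMatrix b b (ρ.ρ σ) = LinearMap.toMatrix b b (ρ.ρ σ) * T) :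
    ∃ c : k, T = Matrix.scalar (Fin 2) c := by
  obtain ⟨c, hc⟩ := residual_schur ρ h (Matrix.toLin b b T) (fun σ => by
    apply (LinearMap.toMatrix b b).injective
    rw [LinearMap.toMatrix_comp b b b, LinearMap.toMatrix_comp b b b, LinearMap.toMatrix_toLin]
    exact hT σ)
  refine ⟨c, ?_⟩
  have := congrArg (LinearMap.toMatrix b b) hc
  rw [LinearMap.toMatrix_toLin] at this
  rw [this, map_smul, LinearMap.toMatrix_one]
  ext i j
  by_cases hij : i = j
  · subst hij; simp
  · simp [hij]

/-- An absolutely irreducible residual representation has a non-scalar element in its image. -/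
theorem exists_not_scalar (ρ : ResidualGaloisRep k) (h : ρ.IsAbsolutelyIrreducible)
    (b : Module.Basis (Fin 2) k ρ.V) :
    ∃ g, ∀ c : k, LinearMap.toMatrix b b (ρ.ρ g) ≠ Matrix.scalar (Fin 2) c := by
  by_contra hcon
  push Not at hcon
  choose c hc using hcon
  obtain ⟨d, hd⟩ := matrix_schur ρ h b !![0, 1; 0, 0] (fun σ => by
    rw [hc σ]
    exact (Matrix.scalar_commute (c σ) (fun r' => Commute.all _ _) _).symm.eq)
  have := congrFun (congrFun hd 0) 1
  simp at this

omit [Field k] in
theorem fin2_sum {M : Type} [AddCommMonoid M] (f : Fin 2 → M) : ∑ i, f i = f 0 + f 1 :=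
  Fin.sum_univ_two f

/-- If `T` is not a scalar there is a cyclic vector. -/
theorem exists_cyclic_basis {V : Type} [AddCommGroup V] [Module k V]
    (b : Module.Basis (Fin 2) k V) (T : Module.End k V)
    (hT : ∀ c : k, LinearMap.toMatrix b b T ≠ Matrix.scalar (Fin 2) c) :
    ∃ b' : Module.Basis (Fin 2) k V, b' 1 = T (b' 0) := by
  classical
  set M := LinearMap.toMatrix b b T with hM
  have hTb : ∀ j, T (b j) = M 0 j • b 0 + M 1 j • b 1 := by
    intro j
    have := b.sum_repr (T (b j))
    rw [Fin.sum_univ_two] at this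
    rw [← this, hM, LinearMap.toMatrix_apply, LinearMap.toMatrix_apply]
  -- the determinant of `(v, T v)` in the basis `b`
  have key : ∀ v : V, IsUnit (b.det ![v, T v]) → ∃ b' : Module.Basis (Fin 2) k V, b' 1 = T (b' 0) := by
    intro v hv
    obtain ⟨hli, hsp⟩ := (Module.Basis.is_basis_iff_det b).mpr hv
    refine ⟨Module.Basis.mk hli hsp.ge, ?_⟩
    rw [Module.Basis.coe_mk]
    rfl
  have hdet : ∀ v : V, b.det ![v, T v] =
      b.repr v 0 * b.repr (T v) 1 - b.repr (T v) 0 * b.repr v 1 := by
    intro v
    rw [Module.Basis.det_apply, Matrix.det_fin_two]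
    simp [Module.Basis.toMatrix_apply]
  by_cases h10 : M 1 0 = 0
  · by_cases h01 : M 0 1 = 0
    · by_cases h11 : M 1 1 = M 0 0
      · exfalso
        apply hT (M 0 0)
        ext i j
        fin_cases i <;> fin_cases j <;> simp [h10, h01, h11]
      · apply key (b 0 + b 1)
        have hT2 : T (b 0 + b 1) = M 0 0 • b 0 + M 1 1 • b 1 := by
          rw [map_add, hTb, hTb, h10, h01]
          simp
        rw [hdet, hT2]
        simp only [map_add, map_smul, Module.Basis.repr_self, Finsupp.add_apply,
          Finsupp.smul_apply, Finsupp.single_apply, smul_eq_mul]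
        simp
        intro hh
        apply h11
        linear_combination hh
    · apply key (b 1)
      rw [hdet, hTb]
      simp only [map_add, map_smul, Module.Basis.repr_self, Finsupp.add_apply,
        Finsupp.smul_apply, Finsupp.single_apply, smul_eq_mul]
      simpa using h01
  · apply key (b 0)
    rw [hdet, hTb]
    simp only [map_add, map_smul, Module.Basis.repr_self, Finsupp.add_apply,
      Finsupp.smul_apply, Finsupp.single_apply, smul_eq_mul]
    simpa using h10

end Field

section Datum

variable (𝒪 : Type) [CommRing 𝒪] [IsLocalRing 𝒪]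

open IsLocalRing

/-- Normalisation data exist for every absolutely irreducible residual representation. -/
theorem exists_normDatum (ρbar : ResidualGaloisRep (ResidueField 𝒪))
    (habs : ρbar.IsAbsolutelyIrreducible) : Nonempty (NormDatum 𝒪 ρbar) := by
  classical
  let b₀ : Module.Basis (Fin 2) (ResidueField 𝒪) ρbar.V :=
    Module.finBasisOfFinrankEq _ _ ρbar.finrank_eq
  obtain ⟨g0, hg0⟩ := exists_not_scalar ρbar habs b₀
  obtain ⟨b, hb⟩ := exists_cyclic_basis b₀ (ρbar.ρ g0) hg0
  let rbar : GQ →* M2 (ResidueField 𝒪) :=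
    (LinearMap.toMatrixAlgEquiv b).toAlgHom.toRingHom.toMonoidHom.comp ρbar.ρ
  have rbar_eq : ∀ σ, rbar σ = LinearMap.toMatrix b b (ρbar.ρ σ) := fun σ => rfl
  have h00 : rbar g0 0 0 = 0 := by
    rw [rbar_eq, LinearMap.toMatrix_apply, ← hb, Module.Basis.repr_self]
    simp
  have h10 : rbar g0 1 0 = 1 := by
    rw [rbar_eq, LinearMap.toMatrix_apply, ← hb, Module.Basis.repr_self]
    simp
  have hschur : ∀ T : M2 (ResidueField 𝒪), (∀ σ, T * rbar σ = rbar σ * T) →
      ∃ c : ResidueField 𝒪, T = Matrix.scalar (Fin 2) c :=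
    fun T hT => matrix_schur ρbar habs b T hT
  have hcomm : ∃ g1 i0 j0, (rbar g1 * rbar g0 - rbar g0 * rbar g1) i0 j0 ≠ 0 := by
    by_contra hcon
    push Not at hcon
    obtain ⟨c, hc⟩ := hschur (rbar g0) (fun σ => by
      have : rbar σ * rbar g0 - rbar g0 * rbar σ = 0 := by
        ext i j
        exact hcon σ i j
      exact (sub_eq_zero.mp this).symm)
    have := congrFun (congrFun hc 1) 0
    rw [h10] at this
    simp at this
  obtain ⟨g1, i0, j0, hne⟩ := hcomm
  obtain ⟨c0, hc0⟩ := residue_surjective (rbar g1 i0 j0)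
  exact ⟨{ b := b, rbar := rbar, rbar_eq := rbar_eq, g0 := g0, g1 := g1, i0 := i0, j0 := j0,
           c0 := c0, rbar_g0_00 := h00, rbar_g0_10 := h10, comm_ne := hne, c0_spec := hc0,
           schur := hschur }⟩

end Datum

end Fermat.Agent.S53.ResidualNormal
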