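import Mathlib.RingTheory.AdicCompletion.Basic
import Mathlib.RingTheory.MvPolynomial.Homogeneous
import Mathlib.RingTheory.Polynomial.Basic

set_option autoImplicit false

namespace Fermat.Agent.S53

open MvPolynomial

section Homog

variable {σ A B : Type*} [CommRing A] [CommRing B]

theorem map_homogeneousComponent (f : A →+* B) (n : ℕ) (p : MvPolynomial σ A) :
    MvPolynomial.map f (homogeneousComponent n p) = homogeneousComponent n (MvPolynomial.map f p) := by
  ext d
  rw [coeff_map, coeff_homogeneousComponent, coeff_homogeneousComponent, coeff_map]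
  split_ifs <;> simp

theorem homogeneousComponent_mul_of_isHomogeneous (c p : MvPolynomial σ A) (m n : ℕ)
    (hp : p.IsHomogeneous m) :
    homogeneousComponent n (c * p) =
      if m ≤ n then homogeneousComponent (n - m) c * p else 0 := by
  induction c using MvPolynomial.induction_on' with
  | monomial d r =>
    have h1 : (monomial d r * p).IsHomogeneous (d.degree + m) :=
      (isHomogeneous_monomial r rfl).mul hp
    have h2 : (monomial d r : MvPolynomial σ A).IsHomogeneous d.degree :=
      isHomogeneous_monomial r rfl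
    rw [homogeneousComponent_of_mem ((mem_homogeneousSubmodule _ _).mpr h1)]
    split_ifs with h3 h4 h4
    · rw [homogeneousComponent_of_mem ((mem_homogeneousSubmodule _ _).mpr h2), if_pos (by omega)]
    · omega
    · rw [homogeneousComponent_of_mem ((mem_homogeneousSubmodule _ _).mpr h2), if_neg (by omega),
        zero_mul]
    · rfl
  | add a b ha hb =>
    rw [add_mul, map_add, ha, hb]
    split_ifs
    · rw [map_add, add_mul]
    · rw [add_zero]

end Homog

section Step

variable {R : Type*} [CommRing R] {ι : Type*} (x : ι → R)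

theorem eval_monomial_one_mem_pow (d : ι →₀ ℕ) :
    eval x (monomial d (1 : R)) ∈ Ideal.span (Set.range x) ^ d.degree :=
  (Ideal.mem_span_pow_iff_exists_isHomogeneous x _).mpr
    ⟨monomial d 1, isHomogeneous_monomial _ rfl, rfl⟩

theorem eval_mem_pow_succ_of_coeff_mem {D : MvPolynomial ι R} {n : ℕ} (hD : D.IsHomogeneous n)
    (hc : ∀ d, coeff d D ∈ Ideal.span (Set.range x)) :
    eval x D ∈ Ideal.span (Set.range x) ^ (n + 1) := by
  rw [eval_eq]
  refine Ideal.sum_mem _ fun d hd => ?_
  have hdeg : d.degree = n := by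
    by_contra h
    exact (mem_support_iff.mp hd) (hD.coeff_eq_zero h)
  have h1 := eval_monomial_one_mem_pow x d
  rw [eval_monomial, one_mul, hdeg] at h1
  rw [pow_succ']
  exact Ideal.mul_mem_mul (hc d) h1

/-- The approximation step. -/
theorem approx_step (J : Ideal R) {τ : Type*} [Fintype τ]
    (P : τ → MvPolynomial ι R) (n : τ → ℕ) (hP : ∀ j, (P j).IsHomogeneous (n j))
    (hspan : ∀ (Q : MvPolynomial ι R) (k : ℕ), Q.IsHomogeneous k → eval x Q ∈ J →
      MvPolynomial.map (Ideal.Quotient.mk (Ideal.span (Set.range x))) Q ∈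
        Ideal.span (Set.range fun j =>
          MvPolynomial.map (Ideal.Quotient.mk (Ideal.span (Set.range x))) (P j)))
    (k : ℕ) (g : R) (hgJ : g ∈ J) (hgk : g ∈ Ideal.span (Set.range x) ^ k) :
    ∃ a : τ → R, (∀ j, a j ∈ Ideal.span (Set.range x) ^ (k - n j)) ∧
      g - ∑ j, a j * eval x (P j) ∈ Ideal.span (Set.range x) ^ (k + 1) := by
  classical
  set I := Ideal.span (Set.range x) with hI
  set φ := MvPolynomial.map (σ := ι) (Ideal.Quotient.mk I) with hφ
  obtain ⟨Q, hQ, rfl⟩ := (Ideal.mem_span_pow_iff_exists_isHomogeneous x g).mp hgk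
  have h1 := hspan Q k hQ hgJ
  obtain ⟨c, hc⟩ := (Ideal.mem_span_range_iff_exists_fun).mp h1
  -- take homogeneous components of degree k
  have h2 : φ Q = ∑ j, (if n j ≤ k then homogeneousComponent (k - n j) (c j) * φ (P j) else 0) := by
    have h3 : homogeneousComponent k (φ Q) = φ Q :=
      homogeneousComponent_eq_self ((mem_homogeneousSubmodule _ _).mpr (hQ.map _))
    rw [← h3, ← hc, map_sum]
    refine Finset.sum_congr rfl fun j _ => ?_
    exact homogeneousComponent_mul_of_isHomogeneous (c j) (φ (P j)) (n j) k ((hP j).map _)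
  -- lift the coefficients
  have hsurj : Function.Surjective φ := MvPolynomial.map_surjective _ Ideal.Quotient.mk_surjective
  choose c' hc' using fun j => hsurj (c j)
  set C : τ → MvPolynomial ι R := fun j =>
    if n j ≤ k then homogeneousComponent (k - n j) (c' j) else 0 with hC
  have hCh : ∀ j, (C j * P j).IsHomogeneous k := by
    intro j
    simp only [hC]
    split_ifs with h
    · have := (homogeneousComponent_isHomogeneous (k - n j) (c' j)).mul (hP j)
      rwa [Nat.sub_add_cancel h] at this
    · rw [zero_mul]; exact isHomogeneous_zero _ _ _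
  have hCφ : ∀ j, φ (C j * P j) =
      (if n j ≤ k then homogeneousComponent (k - n j) (c j) * φ (P j) else 0) := by
    intro j
    simp only [hC]
    split_ifs with h
    · rw [map_mul, map_homogeneousComponent, hc']
    · rw [zero_mul, map_zero]
  set D := Q - ∑ j, C j * P j with hD
  have hDh : D.IsHomogeneous k := hQ.sub (IsHomogeneous.sum _ _ _ fun j _ => hCh j)
  have hDφ : φ D = 0 := by
    rw [hD, map_sub, map_sum, h2, sub_eq_zero]
    exact Finset.sum_congr rfl fun j _ => (hCφ j).symm
  have hDc : ∀ d, coeff d D ∈ I := by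
    intro d
    have := congrArg (coeff d) hDφ
    rw [coeff_map, coeff_zero] at this
    exact Ideal.Quotient.eq_zero_iff_mem.mp this
  refine ⟨fun j => eval x (C j), fun j => ?_, ?_⟩
  · simp only [hC]
    split_ifs with h
    · exact (Ideal.mem_span_pow_iff_exists_isHomogeneous x _).mpr
        ⟨_, homogeneousComponent_isHomogeneous _ _, rfl⟩
    · rw [map_zero]; exact Ideal.zero_mem _
  · have := eval_mem_pow_succ_of_coeff_mem x hDh hDc
    rw [hD, map_sub, map_sum] at this
    simpa only [map_mul] using this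

end Step

section Main

variable {R : Type*} [CommRing R]

/-- Successive approximation: if every element of `J ∩ I^k` can be corrected by a combination
`∑ a j * f j` with `a j ∈ I^(k - n j)` into `I^(k+1)`, and `R` is `I`-adically complete,
then `J ≤ span (range f)`. -/
theorem le_span_of_approx (I J : Ideal R) [IsAdicComplete I R] {τ : Type*} [Fintype τ]
    (f : τ → R) (n : τ → ℕ) (hf : ∀ j, f j ∈ J)
    (step : ∀ (k : ℕ) (g : R), g ∈ J → g ∈ I ^ k →
      ∃ a : τ → R, (∀ j, a j ∈ I ^ (k - n j)) ∧ g - ∑ j, a j * f j ∈ I ^ (k + 1)) :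
    J ≤ Ideal.span (Set.range f) := by
  classical
  intro g hg
  -- make the step total
  have step' : ∀ (k : ℕ) (g : R), ∃ a : τ → R, g ∈ J → g ∈ I ^ k →
      (∀ j, a j ∈ I ^ (k - n j)) ∧ g - ∑ j, a j * f j ∈ I ^ (k + 1) := by
    intro k g
    by_cases h : g ∈ J ∧ g ∈ I ^ k
    · obtain ⟨a, ha⟩ := step k g h.1 h.2
      exact ⟨a, fun _ _ => ha⟩
    · exact ⟨0, fun h1 h2 => absurd ⟨h1, h2⟩ h⟩
  choose A hA using step'
  -- the sequence of remainders
  let G : ℕ → R := fun k => Nat.rec g (fun k gk => gk - ∑ j, A k gk j * f j) k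
  have hG0 : G 0 = g := rfl
  have hGs : ∀ k, G (k + 1) = G k - ∑ j, A k (G k) j * f j := fun k => rfl
  have hGmem : ∀ k, G k ∈ J ∧ G k ∈ I ^ k := by
    intro k
    induction k with
    | zero => exact ⟨hg, by simp⟩
    | succ k ih =>
      refine ⟨?_, ?_⟩
      · rw [hGs]
        exact J.sub_mem ih.1 (J.sum_mem fun j _ => J.mul_mem_left _ (hf j))
      · rw [hGs]
        exact (hA k (G k) ih.1 ih.2).2
  have hAmem : ∀ k j, A k (G k) j ∈ I ^ (k - n j) := fun k j =>
    (hA k (G k) (hGmem k).1 (hGmem k).2).1 j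
  -- partial sums
  let B : ℕ → τ → R := fun k j => ∑ i ∈ Finset.range k, A i (G i) j
  have hBs : ∀ k j, B (k + 1) j = B k j + A k (G k) j := fun k j => Finset.sum_range_succ _ _
  have hGB : ∀ k, g - ∑ j, B k j * f j = G k := by
    intro k
    induction k with
    | zero => simp [B, hG0]
    | succ k ih =>
      calc g - ∑ j, B (k + 1) j * f j
          = (g - ∑ j, B k j * f j) - ∑ j, A k (G k) j * f j := by
            simp only [hBs, add_mul, Finset.sum_add_distrib]; ring
        _ = G k - ∑ j, A k (G k) j * f j := by rw [ih]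
        _ = G (k + 1) := (hGs k).symm
  -- Cauchy
  let D : ℕ := Finset.univ.sup n
  have hnD : ∀ j, n j ≤ D := fun j => Finset.le_sup (Finset.mem_univ j)
  have hBdiff : ∀ j m k, m ≤ k → B (k + D) j - B (m + D) j ∈ I ^ m := by
    intro j m k hmk
    induction k, hmk using Nat.le_induction with
    | base => simp
    | succ k hmk ih =>
      have : B (k + 1 + D) j - B (m + D) j =
          (B (k + D) j - B (m + D) j) + A (k + D) (G (k + D)) j := by
        rw [show k + 1 + D = (k + D) + 1 by ring, hBs]; ring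
      rw [this]
      refine Ideal.add_mem _ ih ?_
      refine Ideal.pow_le_pow_right ?_ (hAmem (k + D) j)
      have := hnD j
      omega
  have hlim : ∀ j, ∃ L : R, ∀ m, B (m + D) j ≡ L [SMOD (I ^ m • ⊤ : Submodule R R)] := by
    intro j
    refine IsPrecomplete.prec' (I := I) (fun m => B (m + D) j) ?_
    intro m k hmk
    rw [SModEq.sub_mem, smul_eq_mul, Ideal.mul_top]
    have := hBdiff j m k hmk
    rw [← neg_sub] at this
    simpa using (I ^ m).neg_mem this
  choose a ha using hlim
  have hfinal : g - ∑ j, a j * f j = 0 := by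
    refine IsHausdorff.haus' (I := I) _ fun m => ?_
    rw [SModEq.sub_mem, smul_eq_mul, Ideal.mul_top, sub_zero]
    have h1 : g - ∑ j, a j * f j = G (m + D) + ∑ j, (B (m + D) j - a j) * f j := by
      rw [← hGB]
      simp only [sub_mul, Finset.sum_sub_distrib]
      ring
    rw [h1]
    refine Ideal.add_mem _ (Ideal.pow_le_pow_right (by omega) (hGmem (m + D)).2) ?_
    refine Ideal.sum_mem _ fun j _ => Ideal.mul_mem_right _ _ ?_
    have := ha j m
    rwa [SModEq.sub_mem, smul_eq_mul, Ideal.mul_top] at this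
  rw [sub_eq_zero] at hfinal
  rw [hfinal]
  exact Ideal.sum_mem _ fun j _ => Ideal.mul_mem_left _ _ (Ideal.subset_span ⟨j, rfl⟩)

theorem ideal_fg_of_isAdicComplete_aux {ι : Type*} [Finite ι] (x : ι → R)
    [IsAdicComplete (Ideal.span (Set.range x)) R]
    [IsNoetherianRing (R ⧸ Ideal.span (Set.range x))] (J : Ideal R) : J.FG := by
  classical
  set I := Ideal.span (Set.range x) with hI
  set φ := MvPolynomial.map (σ := ι) (Ideal.Quotient.mk I) with hφ
  let T : Set (MvPolynomial ι (R ⧸ I)) :=
    {q | ∃ (P : MvPolynomial ι R) (n : ℕ), P.IsHomogeneous n ∧ eval x P ∈ J ∧ φ P = q}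
  have hfg : (Ideal.span T).FG :=
    (isNoetherianRing_iff_ideal_fg (MvPolynomial ι (R ⧸ I))).mp inferInstance _
  obtain ⟨s', hs'T, hs'⟩ := (Submodule.fg_span_iff_fg_span_finset_subset T).mp hfg
  choose P n hP hJ hq using fun q : s' => hs'T q.2
  have hJle : J ≤ Ideal.span (Set.range fun j : s' => eval x (P j)) := by
    refine le_span_of_approx I J (fun j : s' => eval x (P j)) n hJ ?_
    intro k g hgJ hgk
    refine approx_step x J P n hP ?_ k g hgJ hgk
    intro Q k hQ hQJ
    have h1 : φ Q ∈ Ideal.span T := Ideal.subset_span ⟨Q, k, hQ, hQJ, rfl⟩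
    have h2 : (Set.range fun j : s' => φ (P j)) = (s' : Set (MvPolynomial ι (R ⧸ I))) := by
      ext q
      constructor
      · rintro ⟨j, rfl⟩
        show φ (P j) ∈ (s' : Set (MvPolynomial ι (R ⧸ I)))
        rw [hq j]; exact j.2
      · intro hq'
        exact ⟨⟨q, hq'⟩, hq ⟨q, hq'⟩⟩
    show φ Q ∈ Ideal.span (Set.range fun j : s' => φ (P j))
    rw [h2]
    have h3 : φ Q ∈ Submodule.span (MvPolynomial ι (R ⧸ I)) T := h1
    rw [hs'] at h3
    exact h3
  have hle : Ideal.span (Set.range fun j : s' => eval x (P j)) ≤ J :=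
    Ideal.span_le.mpr (by rintro _ ⟨j, rfl⟩; exact hJ j)
  rw [le_antisymm hJle hle]
  exact Submodule.fg_span (Set.finite_range _)

theorem isNoetherianRing_of_isAdicComplete (I : Ideal R) [IsAdicComplete I R] (hI : I.FG)
    [IsNoetherianRing (R ⧸ I)] : IsNoetherianRing R := by
  obtain ⟨s, hs⟩ := hI
  have hx : I = Ideal.span (Set.range (Subtype.val : s → R)) := by
    rw [Subtype.range_coe]; exact hs.symm
  subst hx
  exact (isNoetherianRing_iff_ideal_fg R).mpr fun J =>
    ideal_fg_of_isAdicComplete_aux (Subtype.val : s → R) J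

end Main

end Fermat.Agent.S53
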