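import Mathlib
import Fermat.Prelude.Def_GaloisRep_DeformationRingData
import Fermat.Prelude.Def_GaloisRep_DeformationCondition

set_option autoImplicit false

/-!
Core definitions shared by all files of the S53 development
(existence of the universal deformation ring).
-/

namespace Fermat.Agent.S53

open IsLocalRing

set_option linter.unusedSectionVars false

noncomputable section

/-- The absolute Galois group of `ℚ`. -/
abbrev GQ : Type := AlgebraicClosure ℚ ≃ₐ[ℚ] AlgebraicClosure ℚ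

/-- Two by two matrices. -/
abbrev M2 (A : Type) [CommRing A] : Type := Matrix (Fin 2) (Fin 2) A

section Mat

variable {A : Type} [CommRing A] [IsLocalRing A]

/-- Adic continuity of a matrix valued representation. -/
def MatCont (M : GQ →* M2 A) : Prop :=
  ∀ n : ℕ, ∃ L : IntermediateField ℚ (AlgebraicClosure ℚ), FiniteDimensional ℚ L ∧
    ∀ σ : GQ, (∀ x ∈ L, σ x = x) → ∀ i j, (M σ - 1) i j ∈ maximalIdeal A ^ n

/-- Push a matrix representation along a ring hom. -/
def mapMat {B : Type} [CommRing B] (φ : A →+* B) (M : GQ →* M2 A) : GQ →* M2 B :=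
  (φ.mapMatrix : M2 A →+* M2 B).toMonoidHom.comp M

@[simp] lemma mapMat_apply {B : Type} [CommRing B] (φ : A →+* B) (M : GQ →* M2 A) (σ : GQ)
    (i j : Fin 2) : mapMat φ M σ i j = φ (M σ i j) := rfl

lemma mapMat_comp {B C : Type} [CommRing B] [CommRing C] (φ : A →+* B) (ψ : B →+* C)
    (M : GQ →* M2 A) : mapMat ψ (mapMat φ M) = mapMat (ψ.comp φ) M := by
  ext σ i j; rfl

lemma mapMat_id (M : GQ →* M2 A) : mapMat (RingHom.id A) M = M := by
  ext σ i j; rfl

/-- Conjugacy under `GL₂(A)`. -/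
def MatConj (M M' : GQ →* M2 A) : Prop :=
  ∃ U : (M2 A)ˣ, ∀ σ, M' σ = (U : M2 A) * M σ * ((U⁻¹ : (M2 A)ˣ) : M2 A)

lemma mem_smul_top_of_forall_mem {I : Ideal A} (w : Fin 2 → A) (hw : ∀ i, w i ∈ I) :
    w ∈ I • (⊤ : Submodule A (Fin 2 → A)) := by
  have : w = ∑ i, w i • (Pi.single i (1 : A) : Fin 2 → A) := by
    ext j
    simp [Finset.sum_apply, Pi.single_apply]
  rw [this]
  exact Submodule.sum_mem _ fun i _ => Submodule.smul_mem_smul (hw i) Submodule.mem_top

/-- The Galois representation attached to a continuous matrix representation. -/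
def ofMat (M : GQ →* M2 A) (hM : MatCont M) : GaloisRepAdic A where
  V := Fin 2 → A
  finrank_eq := by simp
  ρ :=
    { toFun := fun σ => Matrix.toLin' (M σ)
      map_one' := by rw [map_one, Matrix.toLin'_one]; rfl
      map_mul' := fun σ τ => by rw [map_mul, Matrix.toLin'_mul]; rfl }
  isAdicContinuous := by
    intro n
    obtain ⟨L, hL, h⟩ := hM n
    refine ⟨L, hL, fun σ hσ v => ?_⟩
    apply mem_smul_top_of_forall_mem
    intro i
    have : (Matrix.toLin' (M σ) v - v) i = ∑ j, (M σ - 1) i j * v j := by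
      rw [Pi.sub_apply, Matrix.toLin'_apply, Matrix.mulVec, dotProduct]
      have h1 : v i = ∑ j, (1 : M2 A) i j * v j := by
        simp [Matrix.one_apply]
      conv_lhs => rw [h1]
      rw [← Finset.sum_sub_distrib]
      exact Finset.sum_congr rfl fun j _ => by rw [Matrix.sub_apply, sub_mul]
    show (Matrix.toLin' (M σ) v - v) i ∈ _
    rw [this]
    exact Ideal.sum_mem _ fun j _ => Ideal.mul_mem_right _ _ (h σ hσ i j)

@[simp] lemma ofMat_V (M : GQ →* M2 A) (hM : MatCont M) : (ofMat M hM).V = (Fin 2 → A) := rfl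

lemma ofMat_ρ_apply (M : GQ →* M2 A) (hM : MatCont M) (σ : GQ) (v : Fin 2 → A) :
    (ofMat M hM).ρ σ v = (M σ).mulVec v := rfl

end Mat

section ResAlg

variable (𝒪 : Type) [CommRing 𝒪] [IsLocalRing 𝒪]

/-- A local `𝒪`-algebra whose structure map is local and induces a surjection
(hence a bijection) on residue fields. -/
class IsResAlg (A : Type) [CommRing A] [IsLocalRing A] [Algebra 𝒪 A] : Prop where
  isLocalHom : IsLocalHom (algebraMap 𝒪 A)
  residue_surjective : Function.Surjective (IsLocalRing.residue A ∘ algebraMap 𝒪 A)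

attribute [instance] IsResAlg.isLocalHom

variable (A : Type) [CommRing A] [IsLocalRing A] [Algebra 𝒪 A] [IsResAlg 𝒪 A]

lemma resMap_bijective :
    Function.Bijective (ResidueField.map (algebraMap 𝒪 A)) := by
  refine ⟨(ResidueField.map (algebraMap 𝒪 A)).injective, fun y => ?_⟩
  obtain ⟨x, rfl⟩ := IsResAlg.residue_surjective (𝒪 := 𝒪) (A := A) y
  exact ⟨residue 𝒪 x, rfl⟩

/-- The identification of residue fields. -/
def resEquiv : ResidueField 𝒪 ≃+* ResidueField A :=
  RingEquiv.ofBijective (ResidueField.map (algebraMap 𝒪 A)) (resMap_bijective 𝒪 A)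

/-- The canonical `𝒪`-algebra surjection `A → k` onto the residue field of `𝒪`. -/
def resK : A →ₐ[𝒪] ResidueField 𝒪 where
  toRingHom := ((resEquiv 𝒪 A).symm : ResidueField A →+* ResidueField 𝒪).comp (residue A)
  commutes' := fun x => by
    show (resEquiv 𝒪 A).symm (residue A (algebraMap 𝒪 A x)) = residue 𝒪 x
    rw [RingEquiv.symm_apply_eq]
    rfl

lemma resK_apply (a : A) : resK 𝒪 A a = (resEquiv 𝒪 A).symm (residue A a) := rfl

lemma resEquiv_resK (a : A) : resEquiv 𝒪 A (resK 𝒪 A a) = residue A a := by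
  rw [resK_apply, RingEquiv.apply_symm_apply]

lemma resMap_resK (a : A) :
    ResidueField.map (algebraMap 𝒪 A) (resK 𝒪 A a) = residue A a :=
  resEquiv_resK 𝒪 A a

lemma resK_eq_zero_iff (a : A) : resK 𝒪 A a = 0 ↔ a ∈ maximalIdeal A := by
  rw [resK_apply, map_eq_zero_iff _ (resEquiv 𝒪 A).symm.injective, residue_eq_zero_iff]

lemma resK_surjective : Function.Surjective (resK 𝒪 A) := by
  intro y
  obtain ⟨x, rfl⟩ := residue_surjective (R := 𝒪) y
  exact ⟨algebraMap 𝒪 A x, (resK 𝒪 A).commutes x⟩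

end ResAlg

section Norm

variable (𝒪 : Type) [CommRing 𝒪] [IsLocalRing 𝒪]

/-- Normalisation data attached to an absolutely irreducible residual representation. -/
structure NormDatum (ρbar : ResidualGaloisRep (ResidueField 𝒪)) where
  /-- a basis of the residual representation -/
  b : Module.Basis (Fin 2) (ResidueField 𝒪) ρbar.V
  /-- the residual representation in matrix form -/
  rbar : GQ →* M2 (ResidueField 𝒪)
  rbar_eq : ∀ σ, rbar σ = LinearMap.toMatrix b b (ρbar.ρ σ)
  g0 : GQ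
  g1 : GQ
  i0 : Fin 2
  j0 : Fin 2
  c0 : 𝒪
  rbar_g0_00 : rbar g0 0 0 = 0
  rbar_g0_10 : rbar g0 1 0 = 1
  comm_ne : (rbar g1 * rbar g0 - rbar g0 * rbar g1) i0 j0 ≠ 0
  c0_spec : residue 𝒪 c0 = rbar g1 i0 j0
  schur : ∀ T : M2 (ResidueField 𝒪), (∀ σ, T * rbar σ = rbar σ * T) →
    ∃ c : ResidueField 𝒪, T = Matrix.scalar (Fin 2) c

variable {𝒪}
variable {ρbar : ResidualGaloisRep (ResidueField 𝒪)}

/-- `M` is a normalised lift of `rbar` to `A`. -/
structure IsNormLift (N : NormDatum 𝒪 ρbar) (A : Type) [CommRing A] [IsLocalRing A]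
    [Algebra 𝒪 A] [IsResAlg 𝒪 A] (M : GQ →* M2 A) : Prop where
  cont : MatCont M
  res : ∀ σ i j, resK 𝒪 A (M σ i j) = N.rbar σ i j
  g0_00 : M N.g0 0 0 = 0
  g0_10 : M N.g0 1 0 = 1
  g1_ij : M N.g1 N.i0 N.j0 = algebraMap 𝒪 A N.c0

/-- `M` is a normalised lift of `rbar` to `A` satisfying the deformation condition `𝒟`. -/
def IsNormDLift (N : NormDatum 𝒪 ρbar)
    (𝒟 : ∀ ⦃A : Type⦄ [CommRing A] [IsLocalRing A] [Algebra 𝒪 A], GaloisRepAdic A → Prop)
    (A : Type) [CommRing A] [IsLocalRing A] [Algebra 𝒪 A] [IsResAlg 𝒪 A]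
    (M : GQ →* M2 A) : Prop :=
  ∃ h : IsNormLift N A M, 𝒟 (ofMat M h.cont)

end Norm

end

end Fermat.Agent.S53
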