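import Fermat.Agent.S53.MatrixRep

set_option autoImplicit false

open scoped TensorProduct

namespace Fermat.Agent.S53.ResidualMat

open Fermat.Agent.S53.MatrixRep

section Conj

variable {A : Type} [CommRing A] [IsLocalRing A]

/-- Conjugate a matrix representation by an invertible matrix. -/
noncomputable def conjMat (P : Matrix (Fin 2) (Fin 2) A) (hP : IsUnit P.det)
    (M : GQ →* Matrix (Fin 2) (Fin 2) A) : GQ →* Matrix (Fin 2) (Fin 2) A where
  toFun σ := P * M σ * P⁻¹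
  map_one' := by rw [map_one, mul_one, Matrix.mul_nonsing_inv P hP]
  map_mul' σ τ := by
    rw [map_mul]
    calc P * (M σ * M τ) * P⁻¹ = P * M σ * (1 : Matrix (Fin 2) (Fin 2) A) * M τ * P⁻¹ := by
          rw [mul_one]; simp only [mul_assoc]
      _ = P * M σ * (P⁻¹ * P) * M τ * P⁻¹ := by rw [Matrix.nonsing_inv_mul P hP]
      _ = P * M σ * P⁻¹ * (P * M τ * P⁻¹) := by simp only [mul_assoc]

@[simp] theorem conjMat_apply (P : Matrix (Fin 2) (Fin 2) A) (hP : IsUnit P.det)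
    (M : GQ →* Matrix (Fin 2) (Fin 2) A) (σ : GQ) : conjMat P hP M σ = P * M σ * P⁻¹ := rfl

omit [IsLocalRing A] in
theorem mul_mem_of_forall_mem_left (I : Ideal A) (X Y : Matrix (Fin 2) (Fin 2) A)
    (hX : ∀ i j, X i j ∈ I) (i j : Fin 2) : (X * Y) i j ∈ I := by
  rw [Matrix.mul_apply]
  exact Ideal.sum_mem _ fun l _ => Ideal.mul_mem_right _ _ (hX i l)

omit [IsLocalRing A] in
theorem mul_mem_of_forall_mem_right (I : Ideal A) (X Y : Matrix (Fin 2) (Fin 2) A)
    (hY : ∀ i j, Y i j ∈ I) (i j : Fin 2) : (X * Y) i j ∈ I := by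
  rw [Matrix.mul_apply]
  exact Ideal.sum_mem _ fun l _ => Ideal.mul_mem_left _ _ (hY l j)

theorem conjMat_isAdicContinuous (P : Matrix (Fin 2) (Fin 2) A) (hP : IsUnit P.det)
    {M : GQ →* Matrix (Fin 2) (Fin 2) A} (hM : IsAdicContinuousMat M) :
    IsAdicContinuousMat (conjMat P hP M) := by
  intro n
  obtain ⟨L, hL, h⟩ := hM n
  refine ⟨L, hL, fun σ hσ i j => ?_⟩
  have h1 : conjMat P hP M σ - 1 = P * (M σ - 1) * P⁻¹ := by
    rw [conjMat_apply, mul_sub, sub_mul, mul_one, Matrix.mul_nonsing_inv P hP]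
  rw [h1]
  exact mul_mem_of_forall_mem_left _ _ _
    (fun i j => mul_mem_of_forall_mem_right _ _ _ (h σ hσ) i j) i j

theorem ofMatrix_conjMat_isEquiv (P : Matrix (Fin 2) (Fin 2) A) (hP : IsUnit P.det)
    (M : GQ →* Matrix (Fin 2) (Fin 2) A) (hM : IsAdicContinuousMat M) :
    (ofMatrix M hM).IsEquiv (ofMatrix (conjMat P hP M) (conjMat_isAdicContinuous P hP hM)) := by
  rw [isEquiv_iff_toMatrix _ _ (Pi.basisFun A (Fin 2)) (Pi.basisFun A (Fin 2))]
  refine ⟨P, hP, fun σ => ?_⟩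
  rw [toMatrix_ofMatrix, toMatrix_ofMatrix, conjMat_apply, mul_assoc, mul_assoc,
    Matrix.nonsing_inv_mul P hP, mul_one]

end Conj

section ResidualRep

variable {k : Type} [Field k]

/-- Matrices of a residual representation in a basis. -/
noncomputable def rtoMatrix (ρ : ResidualGaloisRep k) (b : Module.Basis (Fin 2) k ρ.V) :
    GQ →* Matrix (Fin 2) (Fin 2) k :=
  (LinearMap.toMatrixAlgEquiv b).toAlgHom.toRingHom.toMonoidHom.comp ρ.ρ

theorem rtoMatrix_apply (ρ : ResidualGaloisRep k) (b : Module.Basis (Fin 2) k ρ.V) (σ : GQ) :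
    rtoMatrix ρ b σ = LinearMap.toMatrix b b (ρ.ρ σ) := rfl

theorem risEquiv_iff_rtoMatrix (ρ₁ ρ₂ : ResidualGaloisRep k) (b₁ : Module.Basis (Fin 2) k ρ₁.V)
    (b₂ : Module.Basis (Fin 2) k ρ₂.V) :
    ρ₁.IsEquiv ρ₂ ↔ ∃ P : Matrix (Fin 2) (Fin 2) k, IsUnit P.det ∧
      ∀ σ, P * rtoMatrix ρ₁ b₁ σ = rtoMatrix ρ₂ b₂ σ * P := by
  constructor
  · rintro ⟨e⟩
    refine ⟨LinearMap.toMatrix b₁ b₂ e.toLinearEquiv.toLinearMap, ?_, fun σ => ?_⟩
    · rw [← Matrix.isUnit_iff_isUnit_det]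
      refine ⟨⟨LinearMap.toMatrix b₁ b₂ e.toLinearEquiv.toLinearMap,
        LinearMap.toMatrix b₂ b₁ e.toLinearEquiv.symm.toLinearMap, ?_, ?_⟩, rfl⟩
      · rw [← LinearMap.toMatrix_comp]
        simp
      · rw [← LinearMap.toMatrix_comp]
        simp
    · rw [rtoMatrix_apply, rtoMatrix_apply, ← LinearMap.toMatrix_comp, ← LinearMap.toMatrix_comp]
      congr 1
      ext x
      simp only [LinearMap.comp_apply, LinearEquiv.coe_coe]
      exact e.map_apply σ x
  · rintro ⟨P, hP, hcomm⟩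
    have hPu : IsUnit P := (Matrix.isUnit_iff_isUnit_det P).mpr hP
    obtain ⟨u, rfl⟩ := hPu
    let f : ρ₁.V →ₗ[k] ρ₂.V := Matrix.toLin b₁ b₂ (u : Matrix (Fin 2) (Fin 2) k)
    let g : ρ₂.V →ₗ[k] ρ₁.V :=
      Matrix.toLin b₂ b₁ ((u⁻¹ : (Matrix (Fin 2) (Fin 2) k)ˣ) : Matrix (Fin 2) (Fin 2) k)
    have hfg : f ∘ₗ g = LinearMap.id := by
      rw [← Matrix.toLin_mul b₂ b₁ b₂, Units.mul_inv, Matrix.toLin_one]
    have hgf : g ∘ₗ f = LinearMap.id := by
      rw [← Matrix.toLin_mul b₁ b₂ b₁, Units.inv_mul, Matrix.toLin_one]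
    refine ⟨⟨LinearEquiv.ofLinearMap f g hfg hgf, fun σ x => ?_⟩⟩
    show f (ρ₁.ρ σ x) = ρ₂.ρ σ (f x)
    have h1 : f ∘ₗ ρ₁.ρ σ = ρ₂.ρ σ ∘ₗ f := by
      apply (LinearMap.toMatrix b₁ b₂).injective
      rw [LinearMap.toMatrix_comp b₁ b₁ b₂, LinearMap.toMatrix_comp b₁ b₂ b₂,
        LinearMap.toMatrix_toLin]
      exact hcomm σ
    exact LinearMap.congr_fun h1 x

theorem rtoMatrix_baseChangeAlong (ρ : ResidualGaloisRep k) (b : Module.Basis (Fin 2) k ρ.V)
    {k' : Type} [Field k'] (ψ : k →+* k') :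
    letI : Algebra k k' := ψ.toAlgebra
    rtoMatrix (ρ.baseChangeAlong ψ) (Algebra.TensorProduct.basis k' b) =
      mapMat ψ (rtoMatrix ρ b) := by
  letI : Algebra k k' := ψ.toAlgebra
  ext σ : 1
  show LinearMap.toMatrix (Algebra.TensorProduct.basis k' b) (Algebra.TensorProduct.basis k' b)
    ((ρ.ρ σ).baseChange k') = (LinearMap.toMatrix b b (ρ.ρ σ)).map ψ
  exact LinearMap.toMatrix_baseChange k' (ρ.ρ σ) b b

end ResidualRep

section Residual

variable {A : Type} [CommRing A] [IsLocalRing A]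

theorem rtoMatrix_residual (ρ : GaloisRepAdic A) (b : Module.Basis (Fin 2) A ρ.V) :
    rtoMatrix ρ.residual (Algebra.TensorProduct.basis (IsLocalRing.ResidueField A) b) =
      mapMat (IsLocalRing.residue A) (toMatrix ρ b) := by
  ext σ : 1
  show LinearMap.toMatrix (Algebra.TensorProduct.basis (IsLocalRing.ResidueField A) b)
    (Algebra.TensorProduct.basis (IsLocalRing.ResidueField A) b)
    ((ρ.ρ σ).baseChange (IsLocalRing.ResidueField A)) =
      (LinearMap.toMatrix b b (ρ.ρ σ)).map (IsLocalRing.residue A)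
  exact LinearMap.toMatrix_baseChange (IsLocalRing.ResidueField A) (ρ.ρ σ) b b

/-- Matrix form of the residual compatibility condition of a deformation. -/
theorem residual_isEquiv_iff {k : Type} [Field k] (ρ : GaloisRepAdic A)
    (b : Module.Basis (Fin 2) A ρ.V) (ρbar : ResidualGaloisRep k)
    (bbar : Module.Basis (Fin 2) k ρbar.V) (ψ : k →+* IsLocalRing.ResidueField A) :
    ρ.residual.IsEquiv (ρbar.baseChangeAlong ψ) ↔
      ∃ Q : Matrix (Fin 2) (Fin 2) (IsLocalRing.ResidueField A), IsUnit Q.det ∧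
        ∀ σ, Q * (toMatrix ρ b σ).map (IsLocalRing.residue A) =
          (rtoMatrix ρbar bbar σ).map ψ * Q := by
  letI : Algebra k (IsLocalRing.ResidueField A) := ψ.toAlgebra
  rw [risEquiv_iff_rtoMatrix ρ.residual (ρbar.baseChangeAlong ψ)
    (Algebra.TensorProduct.basis (IsLocalRing.ResidueField A) b)
    (Algebra.TensorProduct.basis (IsLocalRing.ResidueField A) bbar),
    rtoMatrix_residual, rtoMatrix_baseChangeAlong]
  rfl

/-- Lift an invertible matrix over the residue field. -/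
theorem exists_lift_of_isUnit_det (Q : Matrix (Fin 2) (Fin 2) (IsLocalRing.ResidueField A))
    (hQ : IsUnit Q.det) :
    ∃ P : Matrix (Fin 2) (Fin 2) A, IsUnit P.det ∧ P.map (IsLocalRing.residue A) = Q := by
  choose f hf using fun i j => IsLocalRing.residue_surjective (Q i j)
  refine ⟨Matrix.of f, ?_, ?_⟩
  · have hmap : (IsLocalRing.residue A) (Matrix.of f).det = Q.det := by
      rw [RingHom.map_det]
      congr 1
      ext i j
      exact hf i j
    have : IsUnit ((IsLocalRing.residue A) (Matrix.of f).det) := hmap ▸ hQ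
    exact (isUnit_map_iff (IsLocalRing.residue A) _).mp this
  · ext i j
    exact hf i j

/-- Strictification: a lift whose reduction is conjugate to `N` can be conjugated to a lift
whose reduction is equal to `N`. -/
theorem exists_conj_strict (M : GQ →* Matrix (Fin 2) (Fin 2) A)
    (N : GQ → Matrix (Fin 2) (Fin 2) (IsLocalRing.ResidueField A))
    (Q : Matrix (Fin 2) (Fin 2) (IsLocalRing.ResidueField A)) (hQ : IsUnit Q.det)
    (h : ∀ σ, Q * (M σ).map (IsLocalRing.residue A) = N σ * Q) :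
    ∃ (P : Matrix (Fin 2) (Fin 2) A) (hP : IsUnit P.det),
      ∀ σ, (conjMat P hP M σ).map (IsLocalRing.residue A) = N σ := by
  obtain ⟨P, hP, hPQ⟩ := exists_lift_of_isUnit_det Q hQ
  refine ⟨P, hP, fun σ => ?_⟩
  have hinv : (P⁻¹).map (IsLocalRing.residue A) = Q⁻¹ := by
    have h1 : P.map (IsLocalRing.residue A) * (P⁻¹).map (IsLocalRing.residue A) = 1 := by
      rw [← Matrix.map_mul, Matrix.mul_nonsing_inv P hP]
      exact Matrix.map_one _ (map_zero _) (map_one _)
    rw [hPQ] at h1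
    exact (Matrix.inv_eq_right_inv h1).symm
  rw [conjMat_apply, Matrix.map_mul, Matrix.map_mul, hPQ, hinv, h σ, mul_assoc,
    Matrix.mul_nonsing_inv Q hQ, mul_one]

end Residual

end Fermat.Agent.S53.ResidualMat
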