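import Fermat.Agent.S53.Defs
import Fermat.Agent.S53.ResidualMat

set_option autoImplicit false

open scoped TensorProduct

namespace Fermat.Agent.S53.DictBridge

open Fermat.Agent.S53 IsLocalRing

section Basic

variable {A : Type} [CommRing A] [IsLocalRing A]

theorem matCont_iff (M : GQ →* M2 A) : MatCont M ↔ MatrixRep.IsAdicContinuousMat M := Iff.rfl

/-- The two constructions of a representation from matrices agree up to isomorphism. -/
theorem ofMat_isEquiv_ofMatrix (M : GQ →* M2 A) (hM : MatCont M) :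
    (ofMat M hM).IsEquiv (MatrixRep.ofMatrix M hM) :=
  ⟨⟨LinearEquiv.refl A (Fin 2 → A), fun _ _ => rfl⟩⟩

theorem isEquiv_symm {ρ₁ ρ₂ : GaloisRepAdic A} (h : ρ₁.IsEquiv ρ₂) : ρ₂.IsEquiv ρ₁ :=
  h.elim fun e => ⟨e.symm⟩

theorem isEquiv_trans {ρ₁ ρ₂ ρ₃ : GaloisRepAdic A} (h : ρ₁.IsEquiv ρ₂) (h' : ρ₂.IsEquiv ρ₃) :
    ρ₁.IsEquiv ρ₃ :=
  h.elim fun e => h'.elim fun e' => ⟨e.trans e'⟩

theorem toMatrix_ofMat (M : GQ →* M2 A) (hM : MatCont M) :
    MatrixRep.toMatrix (ofMat M hM) (Pi.basisFun A (Fin 2)) = M := by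
  ext σ : 1
  show LinearMap.toMatrix (Pi.basisFun A (Fin 2)) (Pi.basisFun A (Fin 2)) (Matrix.toLin' (M σ)) = M σ
  rw [LinearMap.toMatrix_eq_toMatrix', LinearMap.toMatrix'_toLin']

/-- Every representation is isomorphic to one given by matrices. -/
theorem exists_ofMat_isEquiv (ρ : GaloisRepAdic A) (b : Module.Basis (Fin 2) A ρ.V) :
    (ofMat (MatrixRep.toMatrix ρ b) (MatrixRep.toMatrix_isAdicContinuous ρ b)).IsEquiv ρ :=
  isEquiv_trans (ofMat_isEquiv_ofMatrix _ _) (MatrixRep.ofMatrix_toMatrix_isEquiv ρ b)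

/-- Isomorphism of matrix representations is conjugacy. -/
theorem ofMat_isEquiv_iff (M M' : GQ →* M2 A) (hM : MatCont M) (hM' : MatCont M') :
    (ofMat M hM).IsEquiv (ofMat M' hM') ↔ MatConj M M' := by
  rw [MatrixRep.isEquiv_iff_toMatrix _ _ (Pi.basisFun A (Fin 2)) (Pi.basisFun A (Fin 2)),
    toMatrix_ofMat, toMatrix_ofMat]
  constructor
  · rintro ⟨P, hP, h⟩
    obtain ⟨U, rfl⟩ := (Matrix.isUnit_iff_isUnit_det P).mpr hP
    refine ⟨U, fun σ => ?_⟩
    rw [h σ, mul_assoc, Units.mul_inv, mul_one]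
  · rintro ⟨U, h⟩
    refine ⟨U, (Matrix.isUnit_iff_isUnit_det _).mp U.isUnit, fun σ => ?_⟩
    rw [h σ, mul_assoc, Units.inv_mul, mul_one]

theorem matConj_refl (M : GQ →* M2 A) : MatConj M M :=
  ⟨1, fun σ => by simp⟩

end Basic

section BaseChange

variable {A B : Type} [CommRing A] [IsLocalRing A] [CommRing B] [IsLocalRing B]

theorem mapMat_eq (φ : A →+* B) (M : GQ →* M2 A) : mapMat φ M = MatrixRep.mapMat φ M := rfl

theorem matCont_mapMat (φ : A →+* B) (hφ : IsLocalHom φ) {M : GQ →* M2 A} (hM : MatCont M) :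
    MatCont (mapMat φ M) :=
  MatrixRep.mapMat_isAdicContinuous φ hφ hM

/-- Base change of a matrix representation. -/
theorem baseChangeAlong_ofMat_isEquiv (M : GQ →* M2 A) (hM : MatCont M) (φ : A →+* B)
    (hφ : IsLocalHom φ) :
    (ofMat (mapMat φ M) (matCont_mapMat φ hφ hM)).IsEquiv ((ofMat M hM).baseChangeAlong φ hφ) := by
  refine isEquiv_trans (ofMat_isEquiv_ofMatrix _ _) ?_
  refine isEquiv_trans (MatrixRep.baseChangeAlong_ofMatrix_isEquiv M hM φ hφ) ?_
  exact (isEquiv_symm (ofMat_isEquiv_ofMatrix M hM)).elim fun e => ⟨e.baseChangeAlong φ hφ⟩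

/-- Base change respects isomorphism. -/
theorem baseChangeAlong_isEquiv {ρ₁ ρ₂ : GaloisRepAdic A} (h : ρ₁.IsEquiv ρ₂) (φ : A →+* B)
    (hφ : IsLocalHom φ) : (ρ₁.baseChangeAlong φ hφ).IsEquiv (ρ₂.baseChangeAlong φ hφ) :=
  h.elim fun e => ⟨e.baseChangeAlong φ hφ⟩

end BaseChange

section Strict

variable {𝒪 : Type} [CommRing 𝒪] [IsLocalRing 𝒪]
variable {ρbar : ResidualGaloisRep (ResidueField 𝒪)}

/-- Every deformation of `ρbar` to `A` is given, up to isomorphism, by matrices reducing exactly to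
the residual matrices of the normalisation datum. -/
theorem exists_strict_lift (N : NormDatum 𝒪 ρbar) (A : Type) [CommRing A] [IsLocalRing A]
    [Algebra 𝒪 A] [IsResAlg 𝒪 A] (ρ : GaloisRepAdic A)
    (hres : ρ.residual.IsEquiv (ρbar.baseChangeAlong (ResidueField.map (algebraMap 𝒪 A)))) :
    ∃ (M : GQ →* M2 A) (hM : MatCont M), (ofMat M hM).IsEquiv ρ ∧
      ∀ σ i j, resK 𝒪 A (M σ i j) = N.rbar σ i j := by
  classical
  let b : Module.Basis (Fin 2) A ρ.V := Module.finBasisOfFinrankEq A ρ.V ρ.finrank_eq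
  obtain ⟨Q, hQ, hQc⟩ := (ResidualMat.residual_isEquiv_iff ρ b ρbar N.b
    (ResidueField.map (algebraMap 𝒪 A))).mp hres
  obtain ⟨P, hP, hstrict⟩ := ResidualMat.exists_conj_strict (MatrixRep.toMatrix ρ b)
    (fun σ => (ResidualMat.rtoMatrix ρbar N.b σ).map (ResidueField.map (algebraMap 𝒪 A))) Q hQ hQc
  have hcont : MatCont (ResidualMat.conjMat P hP (MatrixRep.toMatrix ρ b)) :=
    ResidualMat.conjMat_isAdicContinuous P hP (MatrixRep.toMatrix_isAdicContinuous ρ b)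
  refine ⟨ResidualMat.conjMat P hP (MatrixRep.toMatrix ρ b), hcont, ?_, fun σ i j => ?_⟩
  · refine isEquiv_trans (ofMat_isEquiv_ofMatrix _ _) ?_
    refine isEquiv_trans (isEquiv_symm (ResidualMat.ofMatrix_conjMat_isEquiv P hP _
      (MatrixRep.toMatrix_isAdicContinuous ρ b))) ?_
    exact MatrixRep.ofMatrix_toMatrix_isEquiv ρ b
  · have h1 := congrFun (congrFun (hstrict σ) i) j
    simp only [Matrix.map_apply] at h1
    rw [resK_apply, h1, RingEquiv.symm_apply_eq, N.rbar_eq]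
    rfl

end Strict

end Fermat.Agent.S53.DictBridge
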