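import Fermat.Agent.S53.Defs
import Fermat.Agent.S53.DictBridge

set_option autoImplicit false

/-!
Dictionary between `GaloisRepAdic A` and matrix representations `GQ →* M2 A`.
(Part 2 is in Dict2.lean.)
-/

namespace Fermat.Agent.S53

open IsLocalRing

set_option linter.unusedSectionVars false

noncomputable section

variable {A : Type} [CommRing A] [IsLocalRing A]

/-! ### Part 1 -/

theorem MatCont.map {B : Type} [CommRing B] [IsLocalRing B] (φ : A →+* B) (hφ : IsLocalHom φ)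
    {M : GQ →* M2 A} (hM : MatCont M) : MatCont (mapMat φ M) :=
  DictBridge.matCont_mapMat φ hφ hM

/-- Every representation is equivalent to a matrix one (choose a basis). -/
theorem exists_ofMat (ρ : GaloisRepAdic A) :
    ∃ (M : GQ →* M2 A) (hM : MatCont M), ρ.IsEquiv (ofMat M hM) := by
  classical
  let b : Module.Basis (Fin 2) A ρ.V := Module.finBasisOfFinrankEq A ρ.V ρ.finrank_eq
  exact ⟨MatrixRep.toMatrix ρ b, MatrixRep.toMatrix_isAdicContinuous ρ b,
    DictBridge.isEquiv_symm (DictBridge.exists_ofMat_isEquiv ρ b)⟩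

theorem ofMat_isEquiv_iff {M M' : GQ →* M2 A} (hM : MatCont M) (hM' : MatCont M') :
    (ofMat M hM).IsEquiv (ofMat M' hM') ↔ MatConj M M' :=
  DictBridge.ofMat_isEquiv_iff M M' hM hM'

theorem ofMat_baseChangeAlong {B : Type} [CommRing B] [IsLocalRing B] (φ : A →+* B)
    (hφ : IsLocalHom φ) {M : GQ →* M2 A} (hM : MatCont M) :
    ((ofMat M hM).baseChangeAlong φ hφ).IsEquiv (ofMat (mapMat φ M) (hM.map φ hφ)) :=
  DictBridge.isEquiv_symm (DictBridge.baseChangeAlong_ofMat_isEquiv M hM φ hφ)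

theorem baseChangeAlong_comp {B C : Type} [CommRing B] [IsLocalRing B] [CommRing C] [IsLocalRing C]
    (ρ : GaloisRepAdic A) (φ : A →+* B) (hφ : IsLocalHom φ) (ψ : B →+* C) (hψ : IsLocalHom ψ)
    (hψφ : IsLocalHom (ψ.comp φ)) :
    ((ρ.baseChangeAlong φ hφ).baseChangeAlong ψ hψ).IsEquiv (ρ.baseChangeAlong (ψ.comp φ) hψφ) := by
  obtain ⟨M, hM, hρ⟩ := exists_ofMat ρ
  -- left side
  have h1 : ((ρ.baseChangeAlong φ hφ).baseChangeAlong ψ hψ).IsEquiv
      (((ofMat M hM).baseChangeAlong φ hφ).baseChangeAlong ψ hψ) :=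
    DictBridge.baseChangeAlong_isEquiv (DictBridge.baseChangeAlong_isEquiv hρ φ hφ) ψ hψ
  have h2 : (((ofMat M hM).baseChangeAlong φ hφ).baseChangeAlong ψ hψ).IsEquiv
      ((ofMat (mapMat φ M) (hM.map φ hφ)).baseChangeAlong ψ hψ) :=
    DictBridge.baseChangeAlong_isEquiv (ofMat_baseChangeAlong φ hφ hM) ψ hψ
  have h3 : ((ofMat (mapMat φ M) (hM.map φ hφ)).baseChangeAlong ψ hψ).IsEquiv
      (ofMat (mapMat ψ (mapMat φ M)) ((hM.map φ hφ).map ψ hψ)) :=
    ofMat_baseChangeAlong ψ hψ (hM.map φ hφ)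
  have h4 : (ofMat (mapMat ψ (mapMat φ M)) ((hM.map φ hφ).map ψ hψ)).IsEquiv
      (ofMat (mapMat (ψ.comp φ) M) (hM.map (ψ.comp φ) hψφ)) := by
    rw [ofMat_isEquiv_iff, mapMat_comp]
    exact DictBridge.matConj_refl _
  have h5 : ((ofMat M hM).baseChangeAlong (ψ.comp φ) hψφ).IsEquiv
      (ofMat (mapMat (ψ.comp φ) M) (hM.map (ψ.comp φ) hψφ)) :=
    ofMat_baseChangeAlong (ψ.comp φ) hψφ hM
  have h6 : (ρ.baseChangeAlong (ψ.comp φ) hψφ).IsEquiv
      ((ofMat M hM).baseChangeAlong (ψ.comp φ) hψφ) :=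
    DictBridge.baseChangeAlong_isEquiv hρ (ψ.comp φ) hψφ
  exact DictBridge.isEquiv_trans h1 (DictBridge.isEquiv_trans h2 (DictBridge.isEquiv_trans h3
    (DictBridge.isEquiv_trans h4 (DictBridge.isEquiv_trans (DictBridge.isEquiv_symm h5)
      (DictBridge.isEquiv_symm h6)))))

end

end Fermat.Agent.S53
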