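import Fermat.Agent.S53.Defs
import Fermat.Agent.S53.DictBridge

set_option autoImplicit false

/-!
Dictionary, part 2: residual representations.
-/

namespace Fermat.Agent.S53

open IsLocalRing

set_option linter.unusedSectionVars false

noncomputable section

variable {A : Type} [CommRing A] [IsLocalRing A]

/-! ### Part 2 -/

theorem IsEquiv.baseChangeAlong' {B : Type} [CommRing B] [IsLocalRing B] (φ : A →+* B)
    (hφ : IsLocalHom φ) {ρ ρ' : GaloisRepAdic A} (h : ρ.IsEquiv ρ') :
    (ρ.baseChangeAlong φ hφ).IsEquiv (ρ'.baseChangeAlong φ hφ) :=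
  h.elim fun e => ⟨e.baseChangeAlong φ hφ⟩

theorem IsEquiv.residual' {ρ ρ' : GaloisRepAdic A} (h : ρ.IsEquiv ρ') :
    ρ.residual.IsEquiv ρ'.residual :=
  h.elim fun e => ⟨e.residual⟩

variable {𝒪 : Type} [CommRing 𝒪] [IsLocalRing 𝒪]
  {ρbar : ResidualGaloisRep (ResidueField 𝒪)} (N : NormDatum 𝒪 ρbar)

/-- The residual matrix representation is continuous (it factors through a finite level). -/
theorem matCont_rbar : MatCont N.rbar := by
  intro n
  obtain ⟨L, hL, h1⟩ := ρbar.factorsThroughFiniteLevel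
  refine ⟨L, hL, fun σ hσ i j => ?_⟩
  have h2 : N.rbar σ = 1 := by
    rw [N.rbar_eq, h1 σ hσ]
    exact LinearMap.toMatrix_one N.b
  rw [h2, sub_self]
  exact Ideal.zero_mem _

/-- `ρbar`, seen as a `GaloisRepAdic` over the residue field, is its matrix form. -/
theorem ofResidual_isEquiv_ofMat :
    (GaloisRepAdic.ofResidualGaloisRep ρbar).IsEquiv (ofMat N.rbar (matCont_rbar N)) := by
  refine ⟨⟨N.b.equivFun, fun σ x => ?_⟩⟩
  show N.b.equivFun (ρbar.ρ σ x) = (N.rbar σ).mulVec (N.b.equivFun x)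
  rw [N.rbar_eq]
  exact (LinearMap.toMatrix_mulVec_repr N.b N.b (ρbar.ρ σ) x).symm

/-- Auxiliary: conjugacy statement transported along the residue field identification. -/
theorem matConj_rbar_iff [Algebra 𝒪 A] [IsResAlg 𝒪 A] (M : GQ →* M2 A) :
    (∃ Q : Matrix (Fin 2) (Fin 2) (ResidueField A), IsUnit Q.det ∧
        ∀ σ, Q * (M σ).map (residue A) =
          (N.rbar σ).map (ResidueField.map (algebraMap 𝒪 A)) * Q) ↔
      MatConj N.rbar (mapMat (resK 𝒪 A).toRingHom M) := by
  set e : ResidueField 𝒪 ≃+* ResidueField A := resEquiv 𝒪 A with he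
  have hres : ∀ σ, (M σ).map (residue A) = (mapMat (resK 𝒪 A).toRingHom M σ).map e := by
    intro σ
    ext i j
    simp only [Matrix.map_apply, mapMat_apply]
    exact (resEquiv_resK 𝒪 A (M σ i j)).symm
  have hmapeq : ∀ σ, (N.rbar σ).map (ResidueField.map (algebraMap 𝒪 A)) = (N.rbar σ).map e := by
    intro σ; rfl
  constructor
  · rintro ⟨Q, hQ, h⟩
    -- pull `Q` back along `e`
    let Q' : M2 (ResidueField 𝒪) := Q.map e.symm
    have hQ'det : IsUnit Q'.det := by
      have : Q'.det = e.symm Q.det :=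
        (RingHom.map_det (e.symm : ResidueField A →+* ResidueField 𝒪) Q).symm
      rw [this]
      exact hQ.map e.symm
    have hQQ' : Q = Q'.map e := by
      ext i j
      simp [Q']
    obtain ⟨U, hU⟩ := (Matrix.isUnit_iff_isUnit_det Q').mpr hQ'det
    have key : ∀ σ, Q' * mapMat (resK 𝒪 A).toRingHom M σ = N.rbar σ * Q' := by
      intro σ
      have h1 := h σ
      rw [hres, hmapeq, hQQ'] at h1
      have h2 : (Q' * mapMat (resK 𝒪 A).toRingHom M σ).map e = (N.rbar σ * Q').map e := by
        have e1 : (Q' * mapMat (resK 𝒪 A).toRingHom M σ).map e =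
            Q'.map e * (mapMat (resK 𝒪 A).toRingHom M σ).map e :=
          Matrix.map_mul (f := (e : ResidueField 𝒪 →+* ResidueField A))
        have e2 : (N.rbar σ * Q').map e = (N.rbar σ).map e * Q'.map e :=
          Matrix.map_mul (f := (e : ResidueField 𝒪 →+* ResidueField A))
        rw [e1, e2]
        exact h1
      exact Matrix.map_injective e.injective h2
    refine ⟨U⁻¹, fun σ => ?_⟩
    rw [inv_inv]
    have key' := key σ
    rw [← hU] at key'
    calc mapMat (resK 𝒪 A).toRingHom M σ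
        = ((U⁻¹ : (M2 (ResidueField 𝒪))ˣ) : M2 (ResidueField 𝒪)) *
            ((U : M2 (ResidueField 𝒪)) * mapMat (resK 𝒪 A).toRingHom M σ) := by
          rw [← mul_assoc, Units.inv_mul, one_mul]
      _ = ((U⁻¹ : (M2 (ResidueField 𝒪))ˣ) : M2 (ResidueField 𝒪)) * (N.rbar σ * U) := by
          rw [key']
      _ = _ := by rw [mul_assoc]
  · rintro ⟨U, hU⟩
    refine ⟨(((U⁻¹ : (M2 (ResidueField 𝒪))ˣ) : M2 (ResidueField 𝒪))).map e, ?_, fun σ => ?_⟩
    · have : ((((U⁻¹ : (M2 (ResidueField 𝒪))ˣ) : M2 (ResidueField 𝒪))).map e).det =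
          e (((U⁻¹ : (M2 (ResidueField 𝒪))ˣ) : M2 (ResidueField 𝒪))).det :=
        (RingHom.map_det (e : ResidueField 𝒪 →+* ResidueField A) _).symm
      rw [this]
      exact ((Matrix.isUnit_iff_isUnit_det _).mp (U⁻¹).isUnit).map e
    · rw [hres, hmapeq, hU σ]
      have e1 : ∀ X Y : M2 (ResidueField 𝒪), (X * Y).map e = X.map e * Y.map e := fun X Y =>
        Matrix.map_mul (f := (e : ResidueField 𝒪 →+* ResidueField A))
      rw [← e1, ← e1]
      congr 1
      rw [← mul_assoc, ← mul_assoc, Units.inv_mul, one_mul]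

/-- Residual condition in matrix terms. -/
theorem ofMat_residual_isEquiv_iff [Algebra 𝒪 A] [IsResAlg 𝒪 A] {M : GQ →* M2 A}
    (hM : MatCont M) :
    (ofMat M hM).residual.IsEquiv
        (ρbar.baseChangeAlong (IsLocalRing.ResidueField.map (algebraMap 𝒪 A))) ↔
      MatConj N.rbar (mapMat (resK 𝒪 A).toRingHom M) := by
  rw [ResidualMat.residual_isEquiv_iff (ofMat M hM) (Pi.basisFun A (Fin 2)) ρbar N.b
    (ResidueField.map (algebraMap 𝒪 A)), DictBridge.toMatrix_ofMat, ← matConj_rbar_iff N M]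
  have : ∀ σ, ResidualMat.rtoMatrix ρbar N.b σ = N.rbar σ := fun σ => (N.rbar_eq σ).symm
  simp only [this]

/-- Transport of `ResidualGaloisRep.baseChangeAlong` along an equality of ring homs
(useful for `TangentFinite`, whose algebra structure is `RingHom.toAlgebra` of a composite). -/
theorem baseChangeAlong_congr {k k' : Type} [Field k] [Field k'] {φ ψ : k →+* k'} (h : φ = ψ)
    (ρ : ResidualGaloisRep k) : ρ.baseChangeAlong φ = ρ.baseChangeAlong ψ := by
  subst h; rfl

end

end Fermat.Agent.S53
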