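import Mathlib
import Fermat.Prelude.Def_GaloisRep_Adic

set_option autoImplicit false

namespace Fermat.Agent.S53.Dict

open IsLocalRing TensorProduct

abbrev GQ : Type := AlgebraicClosure ℚ ≃ₐ[ℚ] AlgebraicClosure ℚ

section Basics

variable {A : Type} [CommRing A]

theorem mem_smul_top_iff_repr {V : Type} [AddCommGroup V] [Module A V] {ι : Type} [Fintype ι]
    (b : Module.Basis ι A V) (I : Ideal A) (x : V) :
    x ∈ I • (⊤ : Submodule A V) ↔ ∀ i, b.repr x i ∈ I := by
  constructor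
  · intro hx
    refine Submodule.smul_induction_on hx ?_ ?_
    · intro a ha v _ i
      rw [map_smul, Finsupp.smul_apply, smul_eq_mul]
      exact I.mul_mem_right _ ha
    · intro x y hx hy i
      rw [map_add, Finsupp.add_apply]
      exact I.add_mem (hx i) (hy i)
  · intro h
    rw [← b.sum_repr x]
    refine Submodule.sum_mem _ fun i _ => ?_
    exact Submodule.smul_mem_smul (h i) Submodule.mem_top

theorem mem_smul_top_pi_iff {ι : Type} [Fintype ι] [DecidableEq ι] (I : Ideal A) (x : ι → A) :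
    x ∈ I • (⊤ : Submodule A (ι → A)) ↔ ∀ i, x i ∈ I := by
  rw [mem_smul_top_iff_repr (Pi.basisFun A ι) I x]
  simp

end Basics

section OfMat

variable {A : Type} [CommRing A] [IsLocalRing A]

def MatAdicCont (M : GQ →* Matrix (Fin 2) (Fin 2) A) : Prop :=
  ∀ n : ℕ, ∃ L : IntermediateField ℚ (AlgebraicClosure ℚ), FiniteDimensional ℚ L ∧
    ∀ σ : GQ, (∀ x ∈ L, σ x = x) → ∀ i j, (M σ - 1) i j ∈ maximalIdeal A ^ n

noncomputable def matRho (M : GQ →* Matrix (Fin 2) (Fin 2) A) :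
    GQ →* Module.End A (Fin 2 → A) where
  toFun σ := Matrix.toLin' (M σ)
  map_one' := by rw [map_one, Matrix.toLin'_one]; rfl
  map_mul' σ τ := by rw [map_mul, Matrix.toLin'_mul]; rfl

omit [IsLocalRing A] in
@[simp] theorem matRho_apply (M : GQ →* Matrix (Fin 2) (Fin 2) A) (σ : GQ) (v : Fin 2 → A) :
    matRho M σ v = (M σ).mulVec v := rfl

theorem matRho_isAdicContinuous (M : GQ →* Matrix (Fin 2) (Fin 2) A) (hM : MatAdicCont M) :
    GaloisActionIsAdicContinuous A (matRho M) := by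
  intro n
  obtain ⟨L, hL, h⟩ := hM n
  refine ⟨L, hL, fun σ hσ v => ?_⟩
  rw [mem_smul_top_pi_iff]
  intro i
  have : (matRho M σ v - v) i = ∑ j, (M σ - 1) i j * v j := by
    have h1 : matRho M σ v - v = (M σ - 1).mulVec v := by
      rw [Matrix.sub_mulVec, Matrix.one_mulVec]; rfl
    rw [h1]; rfl
  rw [this]
  exact Ideal.sum_mem _ fun j _ => Ideal.mul_mem_right _ _ (h σ hσ i j)

noncomputable def ofMat (M : GQ →* Matrix (Fin 2) (Fin 2) A) (hM : MatAdicCont M) :
    GaloisRepAdic A where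
  V := Fin 2 → A
  finrank_eq := by simp
  ρ := matRho M
  isAdicContinuous := matRho_isAdicContinuous M hM

end OfMat

section ToMat

variable {A : Type} [CommRing A] [IsLocalRing A]

noncomputable def toMat (ρ : GaloisRepAdic A) (b : Module.Basis (Fin 2) A ρ.V) :
    GQ →* Matrix (Fin 2) (Fin 2) A where
  toFun σ := LinearMap.toMatrix b b (ρ.ρ σ)
  map_one' := by rw [map_one]; exact LinearMap.toMatrix_one b
  map_mul' σ τ := by rw [map_mul]; exact LinearMap.toMatrix_mul b _ _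

theorem toMat_apply (ρ : GaloisRepAdic A) (b : Module.Basis (Fin 2) A ρ.V) (σ : GQ) :
    toMat ρ b σ = LinearMap.toMatrix b b (ρ.ρ σ) := rfl

theorem toMat_cont (ρ : GaloisRepAdic A) (b : Module.Basis (Fin 2) A ρ.V) :
    MatAdicCont (toMat ρ b) := by
  intro n
  obtain ⟨L, hL, h⟩ := ρ.isAdicContinuous n
  refine ⟨L, hL, fun σ hσ i j => ?_⟩
  have h1 := (mem_smul_top_iff_repr b (maximalIdeal A ^ n) _).mp (h σ hσ (b j)) i
  have h2 : (toMat ρ b σ - 1) i j = b.repr (ρ.ρ σ (b j) - b j) i := by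
    rw [Matrix.sub_apply, toMat_apply, LinearMap.toMatrix_apply, map_sub, Finsupp.sub_apply,
      Module.Basis.repr_self, Matrix.one_apply, Finsupp.single_apply]
    congr 1
    by_cases hij : i = j
    · simp [hij]
    · simp [hij, Ne.symm hij]
  rw [h2]; exact h1

noncomputable def ofMatToMatEquiv (ρ : GaloisRepAdic A) (b : Module.Basis (Fin 2) A ρ.V) :
    GaloisRepAdic.Equiv (ofMat (toMat ρ b) (toMat_cont ρ b)) ρ where
  toLinearEquiv := b.equivFun.symm
  map_apply := fun σ (x : Fin 2 → A) => by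
    show b.equivFun.symm ((toMat ρ b σ).mulVec x) = ρ.ρ σ (b.equivFun.symm x)
    apply b.equivFun.injective
    rw [LinearEquiv.apply_symm_apply]
    have h := LinearMap.toMatrix_mulVec_repr b b (ρ.ρ σ) (b.equivFun.symm x)
    have hx : ⇑(b.repr (b.equivFun.symm x)) = x := by
      have := b.equivFun.apply_symm_apply x
      simpa using this
    rw [hx] at h
    rw [toMat_apply, h]
    rfl

theorem exists_ofMat_isEquiv (ρ : GaloisRepAdic A) :
    ∃ (M : GQ →* Matrix (Fin 2) (Fin 2) A) (hM : MatAdicCont M), (ofMat M hM).IsEquiv ρ :=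
  let b := Module.finBasisOfFinrankEq A ρ.V ρ.finrank_eq
  ⟨toMat ρ b, toMat_cont ρ b, ⟨ofMatToMatEquiv ρ b⟩⟩

end ToMat

section Conj

variable {A : Type} [CommRing A] [IsLocalRing A]

theorem ofMat_isEquiv_iff (M M' : GQ →* Matrix (Fin 2) (Fin 2) A) (hM : MatAdicCont M)
    (hM' : MatAdicCont M') :
    (ofMat M hM).IsEquiv (ofMat M' hM') ↔
      ∃ P : Matrix (Fin 2) (Fin 2) A, IsUnit P.det ∧ ∀ σ, P * M σ = M' σ * P := by
  constructor
  · rintro ⟨e⟩
    let e' : (Fin 2 → A) ≃ₗ[A] (Fin 2 → A) := e.toLinearEquiv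
    refine ⟨LinearMap.toMatrix' e'.toLinearMap, ?_, fun σ => ?_⟩
    · rw [LinearMap.det_toMatrix']
      exact LinearEquiv.isUnit_det' e'
    · apply Matrix.toLin'.injective
      rw [Matrix.toLin'_mul, Matrix.toLin'_mul, Matrix.toLin'_toMatrix']
      refine LinearMap.ext fun x => ?_
      exact e.map_apply σ x
  · rintro ⟨P, hP, h⟩
    let _ := Matrix.invertibleOfIsUnitDet P hP
    refine ⟨⟨Matrix.toLinearEquiv' P inferInstance, fun σ (x : Fin 2 → A) => ?_⟩⟩
    show Matrix.toLin' P (Matrix.toLin' (M σ) x) = Matrix.toLin' (M' σ) (Matrix.toLin' P x)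
    rw [← LinearMap.comp_apply, ← LinearMap.comp_apply, ← Matrix.toLin'_mul, ← Matrix.toLin'_mul,
      h σ]

end Conj

section BaseChange

variable {A B : Type} [CommRing A] [IsLocalRing A] [CommRing B] [IsLocalRing B]

noncomputable def mapMat {A B : Type} [CommRing A] [CommRing B] (φ : A →+* B)
    (M : GQ →* Matrix (Fin 2) (Fin 2) A) : GQ →* Matrix (Fin 2) (Fin 2) B :=
  (φ.mapMatrix : Matrix (Fin 2) (Fin 2) A →+* Matrix (Fin 2) (Fin 2) B).toMonoidHom.comp M

@[simp] theorem mapMat_apply {A B : Type} [CommRing A] [CommRing B] (φ : A →+* B)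
    (M : GQ →* Matrix (Fin 2) (Fin 2) A) (σ : GQ) : mapMat φ M σ = (M σ).map φ := rfl

theorem mapMat_comp {A B C : Type} [CommRing A] [CommRing B] [CommRing C] (φ : A →+* B)
    (ψ : B →+* C) (M : GQ →* Matrix (Fin 2) (Fin 2) A) :
    mapMat ψ (mapMat φ M) = mapMat (ψ.comp φ) M := by
  ext σ i j; simp

theorem mapMat_id {A : Type} [CommRing A] (M : GQ →* Matrix (Fin 2) (Fin 2) A) :
    mapMat (RingHom.id A) M = M := by
  ext σ i j; simp

theorem map_maximalIdeal_pow_le (φ : A →+* B) (hφ : IsLocalHom φ) (n : ℕ) :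
    (maximalIdeal A ^ n).map φ ≤ maximalIdeal B ^ n := by
  rw [Ideal.map_pow]
  exact Ideal.pow_right_mono (Ideal.map_le_iff_le_comap.mpr fun a ha =>
    Ideal.mem_comap.mpr (map_nonunit φ a ha)) n

theorem MatAdicCont.map {M : GQ →* Matrix (Fin 2) (Fin 2) A} (hM : MatAdicCont M)
    (φ : A →+* B) (hφ : IsLocalHom φ) : MatAdicCont (mapMat φ M) := by
  intro n
  obtain ⟨L, hL, h⟩ := hM n
  refine ⟨L, hL, fun σ hσ i j => ?_⟩
  have h1 : (mapMat φ M σ - 1) i j = φ ((M σ - 1) i j) := by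
    simp only [mapMat_apply, Matrix.sub_apply, Matrix.map_apply, Matrix.one_apply, map_sub]
    split_ifs <;> simp
  rw [h1]
  exact map_maximalIdeal_pow_le φ hφ n (Ideal.mem_map_of_mem φ (h σ hσ i j))

theorem toMat_baseChangeAlong (ρ : GaloisRepAdic A) (b : Module.Basis (Fin 2) A ρ.V)
    (φ : A →+* B) (hφ : IsLocalHom φ) :
    letI : Algebra A B := φ.toAlgebra
    toMat (ρ.baseChangeAlong φ hφ) (Algebra.TensorProduct.basis B b) = mapMat φ (toMat ρ b) := by
  let _ : Algebra A B := φ.toAlgebra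
  ext σ : 1
  show LinearMap.toMatrix (Algebra.TensorProduct.basis B b) (Algebra.TensorProduct.basis B b)
    ((ρ.ρ σ).baseChange B) = (LinearMap.toMatrix b b (ρ.ρ σ)).map φ
  exact LinearMap.toMatrix_baseChange B (ρ.ρ σ) b b

theorem toMat_ofMat (M : GQ →* Matrix (Fin 2) (Fin 2) A) (hM : MatAdicCont M) :
    toMat (ofMat M hM) (Pi.basisFun A (Fin 2)) = M := by
  ext σ : 1
  show LinearMap.toMatrix (Pi.basisFun A (Fin 2)) (Pi.basisFun A (Fin 2)) (Matrix.toLin' (M σ)) = M σ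
  rw [LinearMap.toMatrix_eq_toMatrix', LinearMap.toMatrix'_toLin']

theorem ofMat_congr {M M' : GQ →* Matrix (Fin 2) (Fin 2) A} (h : M = M') (hM : MatAdicCont M) :
    (ofMat M hM).IsEquiv (ofMat M' (h ▸ hM)) := by
  subst h; exact ⟨GaloisRepAdic.Equiv.refl _⟩

theorem baseChangeAlong_isEquiv_ofMat (ρ : GaloisRepAdic A) (b : Module.Basis (Fin 2) A ρ.V)
    (φ : A →+* B) (hφ : IsLocalHom φ) :
    (ρ.baseChangeAlong φ hφ).IsEquiv (ofMat (mapMat φ (toMat ρ b)) ((toMat_cont ρ b).map φ hφ)) := by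
  let _ : Algebra A B := φ.toAlgebra
  have e := ofMatToMatEquiv (ρ.baseChangeAlong φ hφ) (Algebra.TensorProduct.basis B b)
  have h := toMat_baseChangeAlong ρ b φ hφ
  exact ⟨(e.symm).trans (Classical.choice (ofMat_congr h _))⟩

theorem ofMat_baseChangeAlong (M : GQ →* Matrix (Fin 2) (Fin 2) A) (hM : MatAdicCont M)
    (φ : A →+* B) (hφ : IsLocalHom φ) :
    ((ofMat M hM).baseChangeAlong φ hφ).IsEquiv (ofMat (mapMat φ M) (hM.map φ hφ)) := by
  obtain ⟨e⟩ := baseChangeAlong_isEquiv_ofMat (ofMat M hM) (Pi.basisFun A (Fin 2)) φ hφ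
  have h : mapMat φ (toMat (ofMat M hM) (Pi.basisFun A (Fin 2))) = mapMat φ M := by
    rw [toMat_ofMat]
  exact ⟨e.trans (Classical.choice (ofMat_congr h _))⟩

end BaseChange

section Residual

variable {k : Type} [Field k]

theorem matRho_eq_one_iff {A : Type} [CommRing A] (M : GQ →* Matrix (Fin 2) (Fin 2) A) (σ : GQ) :
    matRho M σ = 1 ↔ M σ = 1 := by
  constructor
  · intro h
    apply Matrix.toLin'.injective
    rw [Matrix.toLin'_one]
    exact h
  · intro h
    show Matrix.toLin' (M σ) = 1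
    rw [h, Matrix.toLin'_one]; rfl

theorem factors_matRho_iff {A : Type} [CommRing A] (M : GQ →* Matrix (Fin 2) (Fin 2) A) :
    GaloisFactorsThroughFiniteLevel (matRho M) ↔ GaloisFactorsThroughFiniteLevel M := by
  constructor
  · rintro ⟨L, hL, h⟩
    exact ⟨L, hL, fun σ hσ => (matRho_eq_one_iff M σ).mp (h σ hσ)⟩
  · rintro ⟨L, hL, h⟩
    exact ⟨L, hL, fun σ hσ => (matRho_eq_one_iff M σ).mpr (h σ hσ)⟩

noncomputable def resOfMat (Mb : GQ →* Matrix (Fin 2) (Fin 2) k)
    (h : GaloisFactorsThroughFiniteLevel Mb) : ResidualGaloisRep k where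
  V := Fin 2 → k
  finrank_eq := by simp
  ρ := matRho Mb
  factorsThroughFiniteLevel := (factors_matRho_iff Mb).mpr h

noncomputable def resToMat (ρ : ResidualGaloisRep k) (b : Module.Basis (Fin 2) k ρ.V) :
    GQ →* Matrix (Fin 2) (Fin 2) k where
  toFun σ := LinearMap.toMatrix b b (ρ.ρ σ)
  map_one' := by rw [map_one]; exact LinearMap.toMatrix_one b
  map_mul' σ τ := by rw [map_mul]; exact LinearMap.toMatrix_mul b _ _

theorem resToMat_apply (ρ : ResidualGaloisRep k) (b : Module.Basis (Fin 2) k ρ.V) (σ : GQ) :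
    resToMat ρ b σ = LinearMap.toMatrix b b (ρ.ρ σ) := rfl

theorem resToMat_factors (ρ : ResidualGaloisRep k) (b : Module.Basis (Fin 2) k ρ.V) :
    GaloisFactorsThroughFiniteLevel (resToMat ρ b) := by
  obtain ⟨L, hL, h⟩ := ρ.factorsThroughFiniteLevel
  refine ⟨L, hL, fun σ hσ => ?_⟩
  rw [resToMat_apply, h σ hσ]
  exact LinearMap.toMatrix_one b

noncomputable def resOfMatToMatEquiv (ρ : ResidualGaloisRep k) (b : Module.Basis (Fin 2) k ρ.V) :
    ResidualGaloisRep.Equiv (resOfMat (resToMat ρ b) (resToMat_factors ρ b)) ρ where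
  toLinearEquiv := b.equivFun.symm
  map_apply := fun σ (x : Fin 2 → k) => by
    show b.equivFun.symm ((resToMat ρ b σ).mulVec x) = ρ.ρ σ (b.equivFun.symm x)
    apply b.equivFun.injective
    rw [LinearEquiv.apply_symm_apply]
    have h := LinearMap.toMatrix_mulVec_repr b b (ρ.ρ σ) (b.equivFun.symm x)
    have hx : ⇑(b.repr (b.equivFun.symm x)) = x := by
      have := b.equivFun.apply_symm_apply x
      simpa using this
    rw [hx] at h
    rw [resToMat_apply, h]
    rfl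

theorem exists_resOfMat_isEquiv (ρ : ResidualGaloisRep k) :
    ∃ (Mb : GQ →* Matrix (Fin 2) (Fin 2) k) (h : GaloisFactorsThroughFiniteLevel Mb),
      (resOfMat Mb h).IsEquiv ρ :=
  let b := Module.finBasisOfFinrankEq k ρ.V ρ.finrank_eq
  ⟨resToMat ρ b, resToMat_factors ρ b, ⟨resOfMatToMatEquiv ρ b⟩⟩

theorem resOfMat_isEquiv_iff (M M' : GQ →* Matrix (Fin 2) (Fin 2) k)
    (hM : GaloisFactorsThroughFiniteLevel M) (hM' : GaloisFactorsThroughFiniteLevel M') :
    (resOfMat M hM).IsEquiv (resOfMat M' hM') ↔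
      ∃ P : Matrix (Fin 2) (Fin 2) k, IsUnit P.det ∧ ∀ σ, P * M σ = M' σ * P := by
  constructor
  · rintro ⟨e⟩
    let e' : (Fin 2 → k) ≃ₗ[k] (Fin 2 → k) := e.toLinearEquiv
    refine ⟨LinearMap.toMatrix' e'.toLinearMap, ?_, fun σ => ?_⟩
    · rw [LinearMap.det_toMatrix']
      exact LinearEquiv.isUnit_det' e'
    · apply Matrix.toLin'.injective
      rw [Matrix.toLin'_mul, Matrix.toLin'_mul, Matrix.toLin'_toMatrix']
      refine LinearMap.ext fun x => ?_
      exact e.map_apply σ x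
  · rintro ⟨P, hP, h⟩
    let _ := Matrix.invertibleOfIsUnitDet P hP
    refine ⟨⟨Matrix.toLinearEquiv' P inferInstance, fun σ (x : Fin 2 → k) => ?_⟩⟩
    show Matrix.toLin' P (Matrix.toLin' (M σ) x) = Matrix.toLin' (M' σ) (Matrix.toLin' P x)
    rw [← LinearMap.comp_apply, ← LinearMap.comp_apply, ← Matrix.toLin'_mul, ← Matrix.toLin'_mul,
      h σ]

theorem resOfMat_congr {M M' : GQ →* Matrix (Fin 2) (Fin 2) k} (h : M = M')
    (hM : GaloisFactorsThroughFiniteLevel M) :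
    (resOfMat M hM).IsEquiv (resOfMat M' (h ▸ hM)) := by
  subst h; exact ⟨ResidualGaloisRep.Equiv.refl _⟩

theorem resToMat_resOfMat (M : GQ →* Matrix (Fin 2) (Fin 2) k)
    (hM : GaloisFactorsThroughFiniteLevel M) :
    resToMat (resOfMat M hM) (Pi.basisFun k (Fin 2)) = M := by
  ext σ : 1
  show LinearMap.toMatrix (Pi.basisFun k (Fin 2)) (Pi.basisFun k (Fin 2)) (Matrix.toLin' (M σ)) = M σ
  rw [LinearMap.toMatrix_eq_toMatrix', LinearMap.toMatrix'_toLin']

theorem factors_mapMat {A B : Type} [CommRing A] [CommRing B] (φ : A →+* B)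
    {M : GQ →* Matrix (Fin 2) (Fin 2) A} (hM : GaloisFactorsThroughFiniteLevel M) :
    GaloisFactorsThroughFiniteLevel (mapMat φ M) := by
  obtain ⟨L, hL, h⟩ := hM
  refine ⟨L, hL, fun σ hσ => ?_⟩
  rw [mapMat_apply, h σ hσ]
  exact (φ.mapMatrix : Matrix (Fin 2) (Fin 2) A →+* Matrix (Fin 2) (Fin 2) B).map_one

variable {k' : Type} [Field k']

theorem resToMat_baseChangeAlong (ρ : ResidualGaloisRep k) (b : Module.Basis (Fin 2) k ρ.V)
    (ψ : k →+* k') :
    letI : Algebra k k' := ψ.toAlgebra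
    resToMat (ρ.baseChangeAlong ψ) (Algebra.TensorProduct.basis k' b) = mapMat ψ (resToMat ρ b) := by
  let _ : Algebra k k' := ψ.toAlgebra
  ext σ : 1
  show LinearMap.toMatrix (Algebra.TensorProduct.basis k' b) (Algebra.TensorProduct.basis k' b)
    ((ρ.ρ σ).baseChange k') = (LinearMap.toMatrix b b (ρ.ρ σ)).map ψ
  exact LinearMap.toMatrix_baseChange k' (ρ.ρ σ) b b

theorem res_baseChangeAlong_isEquiv_resOfMat (ρ : ResidualGaloisRep k)
    (b : Module.Basis (Fin 2) k ρ.V) (ψ : k →+* k') :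
    (ρ.baseChangeAlong ψ).IsEquiv
      (resOfMat (mapMat ψ (resToMat ρ b)) (factors_mapMat ψ (resToMat_factors ρ b))) := by
  let _ : Algebra k k' := ψ.toAlgebra
  have e := resOfMatToMatEquiv (ρ.baseChangeAlong ψ) (Algebra.TensorProduct.basis k' b)
  have h := resToMat_baseChangeAlong ρ b ψ
  exact ⟨(e.symm).trans (Classical.choice (resOfMat_congr h _))⟩

theorem resOfMat_baseChangeAlong (M : GQ →* Matrix (Fin 2) (Fin 2) k)
    (hM : GaloisFactorsThroughFiniteLevel M) (ψ : k →+* k') :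
    ((resOfMat M hM).baseChangeAlong ψ).IsEquiv (resOfMat (mapMat ψ M) (factors_mapMat ψ hM)) := by
  obtain ⟨e⟩ := res_baseChangeAlong_isEquiv_resOfMat (resOfMat M hM) (Pi.basisFun k (Fin 2)) ψ
  have h : mapMat ψ (resToMat (resOfMat M hM) (Pi.basisFun k (Fin 2))) = mapMat ψ M := by
    rw [resToMat_resOfMat]
  exact ⟨e.trans (Classical.choice (resOfMat_congr h _))⟩

end Residual

section ResidualOfAdic

variable {A : Type} [CommRing A] [IsLocalRing A]

theorem MatAdicCont.factors_residue {M : GQ →* Matrix (Fin 2) (Fin 2) A} (hM : MatAdicCont M) :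
    GaloisFactorsThroughFiniteLevel (mapMat (residue A) M) := by
  obtain ⟨L, hL, h⟩ := hM 1
  refine ⟨L, hL, fun σ hσ => ?_⟩
  ext i j
  have h1 := h σ hσ i j
  rw [pow_one, ← residue_eq_zero_iff, Matrix.sub_apply, map_sub, sub_eq_zero] at h1
  rw [mapMat_apply, Matrix.map_apply, h1, Matrix.one_apply, Matrix.one_apply]
  split_ifs <;> simp

theorem resToMat_residual (ρ : GaloisRepAdic A) (b : Module.Basis (Fin 2) A ρ.V) :
    resToMat ρ.residual (Algebra.TensorProduct.basis (ResidueField A) b) =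
      mapMat (residue A) (toMat ρ b) := by
  ext σ : 1
  show LinearMap.toMatrix (Algebra.TensorProduct.basis (ResidueField A) b)
    (Algebra.TensorProduct.basis (ResidueField A) b)
    ((ρ.ρ σ).baseChange (ResidueField A)) = (LinearMap.toMatrix b b (ρ.ρ σ)).map (residue A)
  exact LinearMap.toMatrix_baseChange (ResidueField A) (ρ.ρ σ) b b

theorem residual_isEquiv_resOfMat (ρ : GaloisRepAdic A) (b : Module.Basis (Fin 2) A ρ.V) :
    ρ.residual.IsEquiv
      (resOfMat (mapMat (residue A) (toMat ρ b)) (toMat_cont ρ b).factors_residue) := by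
  have e := resOfMatToMatEquiv ρ.residual (Algebra.TensorProduct.basis (ResidueField A) b)
  have h := resToMat_residual ρ b
  exact ⟨(e.symm).trans (Classical.choice (resOfMat_congr h _))⟩

theorem ofMat_residual (M : GQ →* Matrix (Fin 2) (Fin 2) A) (hM : MatAdicCont M) :
    (ofMat M hM).residual.IsEquiv (resOfMat (mapMat (residue A) M) hM.factors_residue) := by
  obtain ⟨e⟩ := residual_isEquiv_resOfMat (ofMat M hM) (Pi.basisFun A (Fin 2))
  have h : mapMat (residue A) (toMat (ofMat M hM) (Pi.basisFun A (Fin 2))) =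
      mapMat (residue A) M := by
    rw [toMat_ofMat]
  exact ⟨e.trans (Classical.choice (resOfMat_congr h _))⟩

end ResidualOfAdic

section Conjugation

variable {A : Type} [CommRing A]

theorem mul_entries_mem_left (I : Ideal A) (P N : Matrix (Fin 2) (Fin 2) A)
    (hN : ∀ i j, N i j ∈ I) : ∀ i j, (P * N) i j ∈ I := by
  intro i j
  rw [Matrix.mul_apply]
  exact Ideal.sum_mem _ fun a _ => Ideal.mul_mem_left _ _ (hN a j)

theorem mul_entries_mem_right (I : Ideal A) (N Q : Matrix (Fin 2) (Fin 2) A)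
    (hN : ∀ i j, N i j ∈ I) : ∀ i j, (N * Q) i j ∈ I := by
  intro i j
  rw [Matrix.mul_apply]
  exact Ideal.sum_mem _ fun a _ => Ideal.mul_mem_right _ _ (hN i a)

noncomputable def conjMat (P : (Matrix (Fin 2) (Fin 2) A)ˣ) (M : GQ →* Matrix (Fin 2) (Fin 2) A) :
    GQ →* Matrix (Fin 2) (Fin 2) A where
  toFun σ := (P : Matrix (Fin 2) (Fin 2) A) * M σ * ((P⁻¹ : (Matrix (Fin 2) (Fin 2) A)ˣ) :
    Matrix (Fin 2) (Fin 2) A)
  map_one' := by rw [map_one, mul_one, Units.mul_inv]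
  map_mul' σ τ := by
    rw [map_mul]
    have h : ((P⁻¹ : (Matrix (Fin 2) (Fin 2) A)ˣ) : Matrix (Fin 2) (Fin 2) A) *
        (P : Matrix (Fin 2) (Fin 2) A) = 1 := Units.inv_mul P
    calc (P : Matrix (Fin 2) (Fin 2) A) * (M σ * M τ) * ↑P⁻¹
        = ↑P * M σ * (1 : Matrix (Fin 2) (Fin 2) A) * M τ * ↑P⁻¹ := by
          rw [mul_one]; simp only [mul_assoc]
      _ = ↑P * M σ * ↑P⁻¹ * (↑P * M τ * ↑P⁻¹) := by
          rw [← h]; simp only [mul_assoc]

theorem conjMat_apply (P : (Matrix (Fin 2) (Fin 2) A)ˣ) (M : GQ →* Matrix (Fin 2) (Fin 2) A)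
    (σ : GQ) : conjMat P M σ = (P : Matrix (Fin 2) (Fin 2) A) * M σ *
      ((P⁻¹ : (Matrix (Fin 2) (Fin 2) A)ˣ) : Matrix (Fin 2) (Fin 2) A) := rfl

theorem conjMat_sub_one (P : (Matrix (Fin 2) (Fin 2) A)ˣ) (M : GQ →* Matrix (Fin 2) (Fin 2) A)
    (σ : GQ) : conjMat P M σ - 1 = (P : Matrix (Fin 2) (Fin 2) A) * (M σ - 1) *
      ((P⁻¹ : (Matrix (Fin 2) (Fin 2) A)ˣ) : Matrix (Fin 2) (Fin 2) A) := by
  rw [conjMat_apply, mul_sub, sub_mul, mul_one, Units.mul_inv]

theorem MatAdicCont.conj [IsLocalRing A] {M : GQ →* Matrix (Fin 2) (Fin 2) A} (hM : MatAdicCont M)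
    (P : (Matrix (Fin 2) (Fin 2) A)ˣ) : MatAdicCont (conjMat P M) := by
  intro n
  obtain ⟨L, hL, h⟩ := hM n
  refine ⟨L, hL, fun σ hσ => ?_⟩
  rw [conjMat_sub_one]
  exact mul_entries_mem_right _ _ _ (mul_entries_mem_left _ _ _ (h σ hσ))

theorem ofMat_conjMat_isEquiv [IsLocalRing A] {M : GQ →* Matrix (Fin 2) (Fin 2) A}
    (hM : MatAdicCont M) (P : (Matrix (Fin 2) (Fin 2) A)ˣ) :
    (ofMat (conjMat P M) (hM.conj P)).IsEquiv (ofMat M hM) := by
  rw [ofMat_isEquiv_iff]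
  refine ⟨((P⁻¹ : (Matrix (Fin 2) (Fin 2) A)ˣ) : Matrix (Fin 2) (Fin 2) A), ?_, fun σ => ?_⟩
  · exact (Matrix.isUnit_iff_isUnit_det _).mp (P⁻¹).isUnit
  · rw [conjMat_apply, ← mul_assoc, ← mul_assoc, Units.inv_mul, one_mul]

theorem mapMat_conjMat {B : Type} [CommRing B] (φ : A →+* B) (P : (Matrix (Fin 2) (Fin 2) A)ˣ)
    (M : GQ →* Matrix (Fin 2) (Fin 2) A) :
    mapMat φ (conjMat P M) = conjMat (Units.map
      (φ.mapMatrix : Matrix (Fin 2) (Fin 2) A →+* Matrix (Fin 2) (Fin 2) B).toMonoidHom P)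
      (mapMat φ M) := by
  ext σ : 1
  rw [mapMat_apply, conjMat_apply, conjMat_apply, mapMat_apply]
  have h1 : ∀ N : Matrix (Fin 2) (Fin 2) A, N.map φ = φ.mapMatrix N := fun _ => rfl
  rw [h1, map_mul, map_mul]
  rfl

end Conjugation

section Lift

variable {A : Type} [CommRing A] [IsLocalRing A]

theorem exists_matrix_lift (Pb : Matrix (Fin 2) (Fin 2) (ResidueField A)) :
    ∃ P : Matrix (Fin 2) (Fin 2) A, P.map (residue A) = Pb := by
  refine ⟨fun i j => Classical.choose (residue_surjective (Pb i j)), ?_⟩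
  ext i j
  exact Classical.choose_spec (residue_surjective (Pb i j))

theorem isUnit_det_of_map_residue (P : Matrix (Fin 2) (Fin 2) A)
    (h : IsUnit (P.map (residue A)).det) : IsUnit P.det := by
  have h1 : (P.map (residue A)).det = residue A P.det := by
    rw [RingHom.map_det]; rfl
  rw [h1] at h
  exact isUnit_of_map_unit (residue A) _ h

theorem exists_ofMat_lift {k : Type} [Field k] (Mb : GQ →* Matrix (Fin 2) (Fin 2) k)
    (hMb : GaloisFactorsThroughFiniteLevel Mb) (ι : k →+* ResidueField A) (ρA : GaloisRepAdic A)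
    (h : ρA.residual.IsEquiv ((resOfMat Mb hMb).baseChangeAlong ι)) :
    ∃ (M : GQ →* Matrix (Fin 2) (Fin 2) A) (hM : MatAdicCont M),
      (ofMat M hM).IsEquiv ρA ∧ mapMat (residue A) M = mapMat ι Mb := by
  let b0 := Module.finBasisOfFinrankEq A ρA.V ρA.finrank_eq
  obtain ⟨e1⟩ := residual_isEquiv_resOfMat ρA b0
  obtain ⟨e2⟩ := resOfMat_baseChangeAlong Mb hMb ι
  obtain ⟨e⟩ := h
  have h3 : (resOfMat (mapMat (residue A) (toMat ρA b0)) (toMat_cont ρA b0).factors_residue).IsEquiv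
      (resOfMat (mapMat ι Mb) (factors_mapMat ι hMb)) := ⟨(e1.symm.trans e).trans e2⟩
  rw [resOfMat_isEquiv_iff] at h3
  obtain ⟨Pb, hPb, hconj⟩ := h3
  obtain ⟨P, hP⟩ := exists_matrix_lift (A := A) Pb
  have hPdet : IsUnit P.det := isUnit_det_of_map_residue P (hP ▸ hPb)
  let Pu : (Matrix (Fin 2) (Fin 2) A)ˣ := Matrix.nonsingInvUnit P hPdet
  refine ⟨conjMat Pu (toMat ρA b0), (toMat_cont ρA b0).conj Pu, ?_, ?_⟩
  · obtain ⟨f1⟩ := ofMat_conjMat_isEquiv (toMat_cont ρA b0) Pu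
    exact ⟨f1.trans (ofMatToMatEquiv ρA b0)⟩
  · rw [mapMat_conjMat]
    ext σ : 1
    rw [conjMat_apply]
    have hu : ((Units.map ((residue A).mapMatrix : Matrix (Fin 2) (Fin 2) A →+*
        Matrix (Fin 2) (Fin 2) (ResidueField A)).toMonoidHom Pu :
        (Matrix (Fin 2) (Fin 2) (ResidueField A))ˣ) : Matrix (Fin 2) (Fin 2) (ResidueField A)) =
        Pb := hP
    rw [hu, hconj σ, mul_assoc, ← hu, Units.mul_inv, mul_one]

end Lift

end Fermat.Agent.S53.Dict
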