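import Mathlib.RingTheory.Henselian
import Mathlib.LinearAlgebra.Matrix.Notation
import Mathlib.Data.Matrix.Mul
import Mathlib.Tactic.Ring
import Mathlib.Tactic.LinearCombination
import Mathlib.Tactic.FinCases

set_option autoImplicit false

namespace Fermat.Agent.S53.NFCore

open IsLocalRing Matrix Polynomial

section Hensel

variable (A : Type*) [CommRing A] [IsLocalRing A]

/-- The only consequence of henselianity used for normal forms: a quadratic with unit linear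
coefficient and constant coefficient in the maximal ideal has a root in the maximal ideal. -/
def QuadHensel : Prop :=
  ∀ q₂ q₁ q₀ : A, IsUnit q₁ → q₀ ∈ maximalIdeal A →
    ∃ β ∈ maximalIdeal A, q₂ * β ^ 2 + q₁ * β + q₀ = 0

variable {A}

theorem quadHensel_of_henselianRing [HenselianRing A (maximalIdeal A)] : QuadHensel A := by
  intro q₂ q₁ q₀ hq₁ hq₀
  -- monic auxiliary polynomial `Y^2 - q₁ Y + q₀ q₂` with simple root near `q₁`
  set f : A[X] := X ^ 2 - C q₁ * X + C (q₀ * q₂) with hf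
  have hmonic : f.Monic := by
    have h1 : f = X ^ 2 + (C (-q₁) * X + C (q₀ * q₂)) := by
      rw [hf]; simp only [map_neg, neg_mul]; ring
    rw [h1]
    apply Polynomial.monic_X_pow_add
    refine lt_of_le_of_lt (Polynomial.degree_add_le _ _) ?_
    refine max_lt ?_ ?_
    · refine lt_of_le_of_lt (Polynomial.degree_C_mul_X_le _) (by norm_num)
    · refine lt_of_le_of_lt Polynomial.degree_C_le (by norm_num)
  have heval : ∀ y : A, f.eval y = y ^ 2 - q₁ * y + q₀ * q₂ := by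
    intro y; simp [hf]
  have hderiv : ∀ y : A, f.derivative.eval y = 2 * y - q₁ := by
    intro y
    simp [hf]
    ring
  have h1 : f.eval q₁ ∈ maximalIdeal A := by
    rw [heval]
    have : q₁ ^ 2 - q₁ * q₁ + q₀ * q₂ = q₀ * q₂ := by ring
    rw [this]
    exact Ideal.mul_mem_right _ _ hq₀
  have h2 : IsUnit (Ideal.Quotient.mk (maximalIdeal A) (f.derivative.eval q₁)) := by
    rw [hderiv]
    have : 2 * q₁ - q₁ = q₁ := by ring
    rw [this]
    exact hq₁.map _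
  obtain ⟨y, hy, hyq⟩ := HenselianRing.is_henselian f hmonic q₁ h1 h2
  have hyunit : IsUnit y := by
    by_contra hnu
    have hym : y ∈ maximalIdeal A := (mem_maximalIdeal y).mpr hnu
    have : q₁ ∈ maximalIdeal A := by
      have h3 := Ideal.sub_mem _ hym hyq
      simpa using h3
    exact ((mem_maximalIdeal q₁).mp this) hq₁
  obtain ⟨u, rfl⟩ := hyunit
  have hroot : (u : A) ^ 2 - q₁ * u + q₀ * q₂ = 0 := by
    have := hy
    rw [Polynomial.IsRoot.def, heval] at this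
    exact this
  refine ⟨-(q₀ * ((u⁻¹ : Aˣ) : A)), ?_, ?_⟩
  · exact Ideal.neg_mem_iff _ |>.mpr (Ideal.mul_mem_right _ _ hq₀)
  · have hu : ((u⁻¹ : Aˣ) : A) * u = 1 := Units.inv_mul u
    have hu' : (u : A) * ((u⁻¹ : Aˣ) : A) = 1 := Units.mul_inv u
    set v : A := ((u⁻¹ : Aˣ) : A) with hv
    -- q₂ q₀² v² - q₁ q₀ v + q₀ = q₀ v² (q₂ q₀ - q₁ u + u²)
    linear_combination (q₀ * v ^ 2) * hroot + (q₀ * q₁ * v - q₀ * (1 + u * v)) * hu'

theorem quadHensel_of_isAdicComplete [IsAdicComplete (maximalIdeal A) A] : QuadHensel A :=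
  quadHensel_of_henselianRing

/-- A ring is adically complete for a nilpotent ideal. -/
theorem isAdicComplete_of_pow_eq_bot {R : Type*} [CommRing R] (I : Ideal R) (n : ℕ)
    (hn : I ^ n = ⊥) : IsAdicComplete I R where
  haus' := by
    intro x hx
    have := hx n
    rw [hn, Submodule.bot_smul, SModEq.zero, Submodule.mem_bot] at this
    exact this
  prec' := by
    intro f hf
    refine ⟨f n, fun m => ?_⟩
    rcases le_total m n with hmn | hnm
    · exact hf hmn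
    · have := hf hnm
      rw [hn, Submodule.bot_smul, SModEq.bot] at this
      rw [this]

theorem quadHensel_of_isNilpotent (h : IsNilpotent (maximalIdeal A)) : QuadHensel A := by
  obtain ⟨n, hn⟩ := h
  have := isAdicComplete_of_pow_eq_bot (maximalIdeal A) n hn
  exact quadHensel_of_isAdicComplete

end Hensel


section Entries

variable {A : Type*} [CommRing A]

/-- All entries of a `2 × 2` matrix lie in the ideal `I`. -/
def EntriesIn (I : Ideal A) (X : Matrix (Fin 2) (Fin 2) A) : Prop := ∀ i j, X i j ∈ I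

variable {I : Ideal A} {X Y : Matrix (Fin 2) (Fin 2) A}

theorem EntriesIn.zero : EntriesIn I (0 : Matrix (Fin 2) (Fin 2) A) := fun _ _ => I.zero_mem

theorem EntriesIn.add (hX : EntriesIn I X) (hY : EntriesIn I Y) : EntriesIn I (X + Y) :=
  fun i j => I.add_mem (hX i j) (hY i j)

theorem EntriesIn.sub (hX : EntriesIn I X) (hY : EntriesIn I Y) : EntriesIn I (X - Y) :=
  fun i j => I.sub_mem (hX i j) (hY i j)

theorem EntriesIn.neg (hX : EntriesIn I X) : EntriesIn I (-X) :=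
  fun i j => I.neg_mem (hX i j)

theorem EntriesIn.smul (a : A) (hX : EntriesIn I X) : EntriesIn I (a • X) :=
  fun i j => I.mul_mem_left a (hX i j)

theorem EntriesIn.mul_left (Z : Matrix (Fin 2) (Fin 2) A) (hX : EntriesIn I X) :
    EntriesIn I (Z * X) := fun i j => by
  rw [Matrix.mul_apply]
  exact I.sum_mem fun k _ => I.mul_mem_left _ (hX k j)

theorem EntriesIn.mul_right (Z : Matrix (Fin 2) (Fin 2) A) (hX : EntriesIn I X) :
    EntriesIn I (X * Z) := fun i j => by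
  rw [Matrix.mul_apply]
  exact I.sum_mem fun k _ => I.mul_mem_right _ (hX i k)

/-- Conjugating by matrices congruent to `1` changes a matrix by something with entries in `I`. -/
theorem EntriesIn.conj_sub {P Q : Matrix (Fin 2) (Fin 2) A} (hP : EntriesIn I (P - 1))
    (hQ : EntriesIn I (Q - 1)) (Z : Matrix (Fin 2) (Fin 2) A) :
    EntriesIn I (Q * Z * P - Z) := by
  have h : Q * Z * P - Z = (Q - 1) * Z * P + Z * (P - 1) := by
    rw [Matrix.sub_mul, Matrix.sub_mul, Matrix.mul_sub, Matrix.one_mul, Matrix.mul_one]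
    abel
  rw [h]
  exact ((hQ.mul_right Z).mul_right P).add (hP.mul_left Z)

end Entries


section Companion

variable {A : Type*} [CommRing A]

theorem mul_apply2 (X Y : Matrix (Fin 2) (Fin 2) A) (i j : Fin 2) :
    (X * Y) i j = X i 0 * Y 0 j + X i 1 * Y 1 j := by
  rw [Matrix.mul_apply, Fin.sum_univ_two]

omit [CommRing A] in
theorem mat2_ext {X Y : Matrix (Fin 2) (Fin 2) A} (h00 : X 0 0 = Y 0 0) (h01 : X 0 1 = Y 0 1)
    (h10 : X 1 0 = Y 1 0) (h11 : X 1 1 = Y 1 1) : X = Y := by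
  ext i j; fin_cases i <;> fin_cases j <;> assumption

theorem entriesIn_iff {I : Ideal A} {X : Matrix (Fin 2) (Fin 2) A} :
    EntriesIn I X ↔ X 0 0 ∈ I ∧ X 0 1 ∈ I ∧ X 1 0 ∈ I ∧ X 1 1 ∈ I := by
  constructor
  · intro h; exact ⟨h 0 0, h 0 1, h 1 0, h 1 1⟩
  · rintro ⟨h00, h01, h10, h11⟩ i j
    fin_cases i <;> fin_cases j <;> assumption

variable [IsLocalRing A]

theorem isUnit_of_sub_mem {x y : A} (hx : IsUnit x) (h : y - x ∈ maximalIdeal A) : IsUnit y := by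
  by_contra hy
  have hym : y ∈ maximalIdeal A := (mem_maximalIdeal y).mpr hy
  have : x ∈ maximalIdeal A := by
    have h3 := Ideal.sub_mem _ hym h
    simpa using h3
  exact ((mem_maximalIdeal x).mp this) hx

/-- Step 1: conjugate so that the first column of `M₀` becomes `(0, 1)`. -/
theorem exists_conj_companion (M₀ : Matrix (Fin 2) (Fin 2) A)
    (h00 : M₀ 0 0 ∈ maximalIdeal A) (h10 : M₀ 1 0 - 1 ∈ maximalIdeal A) :
    ∃ P Q : Matrix (Fin 2) (Fin 2) A, P * Q = 1 ∧ Q * P = 1 ∧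
      EntriesIn (maximalIdeal A) (P - 1) ∧ EntriesIn (maximalIdeal A) (Q - 1) ∧
      (Q * M₀ * P) 0 0 = 0 ∧ (Q * M₀ * P) 1 0 = 1 := by
  have hu : IsUnit (M₀ 1 0) := isUnit_of_sub_mem isUnit_one h10
  obtain ⟨u, hu⟩ := hu
  set v : A := ((u⁻¹ : Aˣ) : A) with hv
  have huv : M₀ 1 0 * v = 1 := by rw [← hu]; exact Units.mul_inv u
  have hvm : v - 1 ∈ maximalIdeal A := by
    have : v - 1 = -(v * (M₀ 1 0 - 1)) := by linear_combination huv
    rw [this]
    exact Ideal.neg_mem_iff _ |>.mpr (Ideal.mul_mem_left _ _ h10)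
  refine ⟨!![1, M₀ 0 0; 0, M₀ 1 0], !![1, -(M₀ 0 0 * v); 0, v], ?_, ?_, ?_, ?_, ?_, ?_⟩
  · apply mat2_ext <;> simp only [mul_apply2] <;> simp
    exact huv
  · apply mat2_ext <;> simp only [mul_apply2] <;> simp
    · linear_combination (-(M₀ 0 0)) * huv
    · linear_combination huv
  · rw [entriesIn_iff]
    have e00 : (!![1, M₀ 0 0; 0, M₀ 1 0] - 1 : Matrix (Fin 2) (Fin 2) A) 0 0 = 0 := by simp
    have e01 : (!![1, M₀ 0 0; 0, M₀ 1 0] - 1 : Matrix (Fin 2) (Fin 2) A) 0 1 = M₀ 0 0 := by simp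
    have e10 : (!![1, M₀ 0 0; 0, M₀ 1 0] - 1 : Matrix (Fin 2) (Fin 2) A) 1 0 = 0 := by simp
    have e11 : (!![1, M₀ 0 0; 0, M₀ 1 0] - 1 : Matrix (Fin 2) (Fin 2) A) 1 1 = M₀ 1 0 - 1 := by
      simp
    rw [e00, e01, e10, e11]
    exact ⟨Ideal.zero_mem _, h00, Ideal.zero_mem _, h10⟩
  · rw [entriesIn_iff]
    have e00 : (!![1, -(M₀ 0 0 * v); 0, v] - 1 : Matrix (Fin 2) (Fin 2) A) 0 0 = 0 := by simp
    have e01 : (!![1, -(M₀ 0 0 * v); 0, v] - 1 : Matrix (Fin 2) (Fin 2) A) 0 1 = -(M₀ 0 0 * v) := by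
      simp
    have e10 : (!![1, -(M₀ 0 0 * v); 0, v] - 1 : Matrix (Fin 2) (Fin 2) A) 1 0 = 0 := by simp
    have e11 : (!![1, -(M₀ 0 0 * v); 0, v] - 1 : Matrix (Fin 2) (Fin 2) A) 1 1 = v - 1 := by simp
    rw [e00, e01, e10, e11]
    exact ⟨Ideal.zero_mem _, Ideal.neg_mem_iff _ |>.mpr (Ideal.mul_mem_right _ _ h00),
      Ideal.zero_mem _, hvm⟩
  · simp only [mul_apply2]
    simp
    linear_combination (-(M₀ 0 0)) * huv
  · simp only [mul_apply2]
    simp
    linear_combination huv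


/-- Step 2: for `C` in companion form, conjugate by `1 + β C` to pin the `(i₀, j₀)`-entry
of `M₁` to the prescribed value `c₀`. -/
theorem exists_conj_pin (hA : QuadHensel A) (C M₁ : Matrix (Fin 2) (Fin 2) A)
    (hC00 : C 0 0 = 0) (hC10 : C 1 0 = 1) (i₀ j₀ : Fin 2) (c₀ : A)
    (hcomm : IsUnit ((M₁ * C - C * M₁) i₀ j₀)) (hc : M₁ i₀ j₀ - c₀ ∈ maximalIdeal A) :
    ∃ P Q : Matrix (Fin 2) (Fin 2) A, P * Q = 1 ∧ Q * P = 1 ∧
      EntriesIn (maximalIdeal A) (P - 1) ∧ EntriesIn (maximalIdeal A) (Q - 1) ∧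
      Q * C * P = C ∧ (Q * M₁ * P) i₀ j₀ = c₀ := by
  set t : A := C 1 1 with ht
  set d : A := -C 0 1 with hd
  have hCeq : C = !![0, -d; 1, t] := by
    rw [Matrix.eta_fin_two C, hC00, hC10, hd, neg_neg]
  set K : Matrix (Fin 2) (Fin 2) A := (t • (1 : Matrix (Fin 2) (Fin 2) A) - C) * M₁ * C with hK
  set q₀ : A := M₁ i₀ j₀ - c₀ with hq₀
  set q₁ : A := (M₁ * C - C * M₁) i₀ j₀ + t * (M₁ i₀ j₀ - c₀) with hq₁
  set q₂ : A := K i₀ j₀ - c₀ * d with hq₂
  have hq₁u : IsUnit q₁ := by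
    refine isUnit_of_sub_mem hcomm ?_
    have : q₁ - (M₁ * C - C * M₁) i₀ j₀ = t * (M₁ i₀ j₀ - c₀) := by rw [hq₁]; ring
    rw [this]
    exact Ideal.mul_mem_left _ _ hc
  obtain ⟨β, hβ, hroot⟩ := hA q₂ q₁ q₀ hq₁u hc
  set D : A := 1 + β * t + β ^ 2 * d with hD
  have hDu : IsUnit D := by
    refine isUnit_of_sub_mem isUnit_one ?_
    have : D - 1 = β * (t + β * d) := by rw [hD]; ring
    rw [this]
    exact Ideal.mul_mem_right _ _ hβ
  obtain ⟨u, hu⟩ := hDu
  set w : A := ((u⁻¹ : Aˣ) : A) with hw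
  have hwD : w * D = 1 := by rw [← hu]; exact Units.inv_mul u
  set P : Matrix (Fin 2) (Fin 2) A := 1 + β • C with hP
  set adjP : Matrix (Fin 2) (Fin 2) A := (1 + β * t) • (1 : Matrix (Fin 2) (Fin 2) A) - β • C
    with hadjP
  have I1 : P * adjP = D • (1 : Matrix (Fin 2) (Fin 2) A) := by
    rw [hP, hadjP, hCeq, hD]
    apply mat2_ext <;> simp only [mul_apply2] <;> simp <;> ring
  have I2 : adjP * P = D • (1 : Matrix (Fin 2) (Fin 2) A) := by
    rw [hP, hadjP, hCeq, hD]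
    apply mat2_ext <;> simp only [mul_apply2] <;> simp <;> ring
  have I3 : adjP * C * P = D • C := by
    rw [hP, hadjP, hCeq, hD]
    apply mat2_ext <;> simp only [mul_apply2] <;> simp <;> ring
  have I4 : adjP * M₁ * P = M₁ + β • (t • M₁ + (M₁ * C - C * M₁)) + β ^ 2 • K := by
    rw [hP, hadjP, hK, hCeq]
    apply mat2_ext <;>
      simp only [mul_apply2, Matrix.add_apply, Matrix.sub_apply, Matrix.smul_apply, smul_eq_mul] <;>
      simp <;> ring
  refine ⟨P, w • adjP, ?_, ?_, ?_, ?_, ?_, ?_⟩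
  · rw [Matrix.mul_smul, I1, smul_smul, hwD, one_smul]
  · rw [Matrix.smul_mul, I2, smul_smul, hwD, one_smul]
  · have : P - 1 = β • C := by rw [hP]; abel
    rw [this]
    intro i j
    rw [Matrix.smul_apply, smul_eq_mul]
    exact Ideal.mul_mem_right _ _ hβ
  · have : w • adjP - 1 = (w * β) • (-(β * d) • (1 : Matrix (Fin 2) (Fin 2) A) - C) := by
      have h1 : (1 : Matrix (Fin 2) (Fin 2) A) = (w * D) • (1 : Matrix (Fin 2) (Fin 2) A) := by
        rw [hwD, one_smul]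
      conv_lhs => rw [h1]
      rw [hadjP, hD]
      apply mat2_ext <;> simp <;> ring
    rw [this]
    intro i j
    rw [Matrix.smul_apply, smul_eq_mul]
    exact Ideal.mul_mem_right _ _ (Ideal.mul_mem_left _ _ hβ)
  · rw [Matrix.smul_mul, Matrix.smul_mul, I3, smul_smul, hwD, one_smul]
  · rw [Matrix.smul_mul, Matrix.smul_mul, I4]
    simp only [Matrix.smul_apply, Matrix.add_apply, smul_eq_mul]
    have hroot' : q₂ * β ^ 2 + q₁ * β + q₀ = 0 := hroot
    rw [hq₂, hq₁, hq₀] at hroot'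
    simp only [Matrix.sub_apply] at hroot' ⊢
    linear_combination w * hroot' + c₀ * hwD


/-- Existence of the normalizing conjugation for a pair of matrices. -/
theorem exists_normalizing_conj (hA : QuadHensel A) (M₀ M₁ : Matrix (Fin 2) (Fin 2) A)
    (h00 : M₀ 0 0 ∈ maximalIdeal A) (h10 : M₀ 1 0 - 1 ∈ maximalIdeal A) (i₀ j₀ : Fin 2) (c₀ : A)
    (hcomm : IsUnit ((M₁ * M₀ - M₀ * M₁) i₀ j₀)) (hc : M₁ i₀ j₀ - c₀ ∈ maximalIdeal A) :
    ∃ P Q : Matrix (Fin 2) (Fin 2) A, P * Q = 1 ∧ Q * P = 1 ∧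
      EntriesIn (maximalIdeal A) (P - 1) ∧ EntriesIn (maximalIdeal A) (Q - 1) ∧
      (Q * M₀ * P) 0 0 = 0 ∧ (Q * M₀ * P) 1 0 = 1 ∧ (Q * M₁ * P) i₀ j₀ = c₀ := by
  obtain ⟨P₁, Q₁, hPQ₁, hQP₁, hP₁, hQ₁, hC00, hC10⟩ := exists_conj_companion M₀ h00 h10
  set C := Q₁ * M₀ * P₁ with hC
  set M₁' := Q₁ * M₁ * P₁ with hM₁'
  have hcomm' : M₁' * C - C * M₁' = Q₁ * (M₁ * M₀ - M₀ * M₁) * P₁ := by
    rw [hC, hM₁']
    have e1 : Q₁ * M₁ * P₁ * (Q₁ * M₀ * P₁) = Q₁ * (M₁ * M₀) * P₁ := by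
      calc Q₁ * M₁ * P₁ * (Q₁ * M₀ * P₁) = Q₁ * M₁ * (P₁ * Q₁) * M₀ * P₁ := by
            simp only [Matrix.mul_assoc]
        _ = Q₁ * (M₁ * M₀) * P₁ := by rw [hPQ₁, Matrix.mul_one]; simp only [Matrix.mul_assoc]
    have e2 : Q₁ * M₀ * P₁ * (Q₁ * M₁ * P₁) = Q₁ * (M₀ * M₁) * P₁ := by
      calc Q₁ * M₀ * P₁ * (Q₁ * M₁ * P₁) = Q₁ * M₀ * (P₁ * Q₁) * M₁ * P₁ := by
            simp only [Matrix.mul_assoc]
        _ = Q₁ * (M₀ * M₁) * P₁ := by rw [hPQ₁, Matrix.mul_one]; simp only [Matrix.mul_assoc]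
    rw [e1, e2, Matrix.mul_sub, Matrix.sub_mul]
  have hcu : IsUnit ((M₁' * C - C * M₁') i₀ j₀) := by
    refine isUnit_of_sub_mem hcomm ?_
    rw [hcomm', ← Matrix.sub_apply]
    exact EntriesIn.conj_sub hP₁ hQ₁ _ i₀ j₀
  have hc' : M₁' i₀ j₀ - c₀ ∈ maximalIdeal A := by
    have : M₁' i₀ j₀ - c₀ = (Q₁ * M₁ * P₁ - M₁) i₀ j₀ + (M₁ i₀ j₀ - c₀) := by
      rw [Matrix.sub_apply]; ring
    rw [this]
    exact Ideal.add_mem _ (EntriesIn.conj_sub hP₁ hQ₁ _ i₀ j₀) hc
  obtain ⟨P₂, Q₂, hPQ₂, hQP₂, hP₂, hQ₂, hCC, hpin⟩ :=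
    exists_conj_pin hA C M₁' hC00 hC10 i₀ j₀ c₀ hcu hc'
  have hA0 : Q₂ * Q₁ * M₀ * (P₁ * P₂) = C := by
    calc Q₂ * Q₁ * M₀ * (P₁ * P₂) = Q₂ * (Q₁ * M₀ * P₁) * P₂ := by simp only [Matrix.mul_assoc]
      _ = C := hCC
  have hA1 : Q₂ * Q₁ * M₁ * (P₁ * P₂) = Q₂ * M₁' * P₂ := by
    simp only [hM₁', Matrix.mul_assoc]
  refine ⟨P₁ * P₂, Q₂ * Q₁, ?_, ?_, ?_, ?_, ?_, ?_, ?_⟩
  · calc P₁ * P₂ * (Q₂ * Q₁) = P₁ * (P₂ * Q₂) * Q₁ := by simp only [Matrix.mul_assoc]
      _ = 1 := by rw [hPQ₂, Matrix.mul_one, hPQ₁]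
  · calc Q₂ * Q₁ * (P₁ * P₂) = Q₂ * (Q₁ * P₁) * P₂ := by simp only [Matrix.mul_assoc]
      _ = 1 := by rw [hQP₁, Matrix.mul_one, hQP₂]
  · have : P₁ * P₂ - 1 = (P₁ - 1) * P₂ + (P₂ - 1) := by
      rw [Matrix.sub_mul, Matrix.one_mul]; abel
    rw [this]
    exact (hP₁.mul_right P₂).add hP₂
  · have : Q₂ * Q₁ - 1 = (Q₂ - 1) * Q₁ + (Q₁ - 1) := by
      rw [Matrix.sub_mul, Matrix.one_mul]; abel
    rw [this]
    exact (hQ₂.mul_right Q₁).add hQ₁
  · rw [hA0]; exact hC00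
  · rw [hA0]; exact hC10
  · rw [hA1]; exact hpin

/-- Uniqueness of the normal form: two normalized families which are intertwined by a matrix
that is a unit scalar modulo the maximal ideal are equal. -/
theorem eq_of_intertwined_of_normalized {Γ : Type*} (M M' : Γ → Matrix (Fin 2) (Fin 2) A)
    (g₀ g₁ : Γ) (i₀ j₀ : Fin 2) (c₀ : A)
    (hM00 : M g₀ 0 0 = 0) (hM10 : M g₀ 1 0 = 1) (hM1 : M g₁ i₀ j₀ = c₀)
    (hM'00 : M' g₀ 0 0 = 0) (hM'10 : M' g₀ 1 0 = 1) (hM'1 : M' g₁ i₀ j₀ = c₀)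
    (hcomm : IsUnit ((M g₁ * M g₀ - M g₀ * M g₁) i₀ j₀))
    (P : Matrix (Fin 2) (Fin 2) A) (hP : ∀ g, P * M' g = M g * P)
    (a' : A) (ha' : IsUnit a') (hPa : EntriesIn (maximalIdeal A) (P - a' • 1)) :
    M' = M := by
  set a : A := P 0 0 with ha
  set b : A := P 1 0 with hb
  have hbm : b ∈ maximalIdeal A := by
    have := hPa 1 0
    simpa [Matrix.sub_apply, Matrix.smul_apply] using this
  have hau : IsUnit a := by
    refine isUnit_of_sub_mem ha' ?_
    have := hPa 0 0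
    simpa [Matrix.sub_apply, Matrix.smul_apply] using this
  -- `P = a + b C`
  have hPeq : P = a • (1 : Matrix (Fin 2) (Fin 2) A) + b • M g₀ := by
    have h0 := hP g₀
    have h00 := congrFun (congrFun h0 0) 0
    have h10 := congrFun (congrFun h0 1) 0
    simp only [mul_apply2, hM'00, hM'10, hM00, hM10] at h00 h10
    apply mat2_ext
    · simp [Matrix.add_apply, Matrix.smul_apply, hM00, ha]
    · simp only [Matrix.add_apply, Matrix.smul_apply, smul_eq_mul]
      simp only [Matrix.one_apply_ne (show (0 : Fin 2) ≠ 1 by decide)]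
      linear_combination h00
    · simp [Matrix.add_apply, Matrix.smul_apply, hM10, hb]
    · simp only [Matrix.add_apply, Matrix.smul_apply, smul_eq_mul, Matrix.one_apply_eq]
      linear_combination h10
  -- the difference at `g₁`
  set E : Matrix (Fin 2) (Fin 2) A := M' g₁ - M g₁ with hE
  set comm : Matrix (Fin 2) (Fin 2) A := M g₁ * M g₀ - M g₀ * M g₁ with hcommdef
  have hkey : a • E = b • (comm - M g₀ * E) := by
    have h1 := hP g₁
    rw [hPeq] at h1
    have h2 : a • M' g₁ + b • (M g₀ * M' g₁) = a • M g₁ + b • (M g₁ * M g₀) := by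
      simpa [Matrix.add_mul, Matrix.mul_add, Matrix.smul_mul, Matrix.mul_smul] using h1
    rw [hE, hcommdef]
    rw [smul_sub, smul_sub, Matrix.mul_sub, smul_sub, smul_sub]
    have h3 : a • M' g₁ - a • M g₁ = b • (M g₁ * M g₀) - b • (M g₀ * M' g₁) := by
      rw [sub_eq_sub_iff_add_eq_add, h2, add_comm]
    rw [h3]
    abel
  obtain ⟨ua, hua⟩ := hau
  set ainv : A := ((ua⁻¹ : Aˣ) : A) with hainv
  have hainv' : ainv * a = 1 := by rw [← hua]; exact Units.inv_mul ua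
  have hEm : EntriesIn (maximalIdeal A) E := by
    have : E = (ainv * b) • (comm - M g₀ * E) := by
      calc E = (ainv * a) • E := by rw [hainv', one_smul]
        _ = ainv • (a • E) := by rw [smul_smul]
        _ = (ainv * b) • (comm - M g₀ * E) := by rw [hkey, smul_smul]
    rw [this]
    intro i j
    rw [Matrix.smul_apply, smul_eq_mul]
    exact Ideal.mul_mem_right _ _ (Ideal.mul_mem_left _ _ hbm)
  have hE0 : E i₀ j₀ = 0 := by rw [hE, Matrix.sub_apply, hM'1, hM1, sub_self]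
  have hb0 : b = 0 := by
    have h1 := congrFun (congrFun hkey i₀) j₀
    simp only [Matrix.smul_apply, smul_eq_mul, hE0, mul_zero] at h1
    have hu : IsUnit ((comm - M g₀ * E) i₀ j₀) := by
      refine isUnit_of_sub_mem hcomm ?_
      have : (comm - M g₀ * E) i₀ j₀ - comm i₀ j₀ = -((M g₀ * E) i₀ j₀) := by
        rw [Matrix.sub_apply]; ring
      rw [this]
      exact Ideal.neg_mem_iff _ |>.mpr (hEm.mul_left _ i₀ j₀)
    exact (hu.mul_left_eq_zero).mp h1.symm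
  funext g
  have h1 := hP g
  rw [hPeq, hb0, zero_smul, add_zero] at h1
  have h2 : a • M' g = a • M g := by
    simpa [Matrix.smul_mul, Matrix.mul_smul] using h1
  calc M' g = (ainv * a) • M' g := by rw [hainv', one_smul]
    _ = ainv • (a • M' g) := by rw [smul_smul]
    _ = ainv • (a • M g) := by rw [h2]
    _ = M g := by rw [smul_smul, hainv', one_smul]

end Companion

end Fermat.Agent.S53.NFCore
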