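import Fermat.Agent.S53.Defs
import Fermat.Agent.S53.NFCore

set_option autoImplicit false

/-!
Normal forms of lifts (pure matrix algebra): conjugacy API, uniqueness and existence of the
normalised representative in a strict conjugacy class.  Thin layer over `NFCore`.
-/

namespace Fermat.Agent.S53

open IsLocalRing

set_option linter.unusedSectionVars false

noncomputable section

section Conj

variable {A : Type} [CommRing A] [IsLocalRing A]

/-- Conjugate of a matrix representation by an invertible matrix. -/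
def nfConj (U : (M2 A)ˣ) (M : GQ →* M2 A) : GQ →* M2 A where
  toFun σ := (U : M2 A) * M σ * ((U⁻¹ : (M2 A)ˣ) : M2 A)
  map_one' := by simp
  map_mul' σ τ := by
    simp only [map_mul]
    simp [mul_assoc]

lemma nfConj_apply (U : (M2 A)ˣ) (M : GQ →* M2 A) (σ : GQ) :
    nfConj U M σ = (U : M2 A) * M σ * ((U⁻¹ : (M2 A)ˣ) : M2 A) := rfl

theorem matConj_nfConj (U : (M2 A)ˣ) (M : GQ →* M2 A) : MatConj M (nfConj U M) :=
  ⟨U, fun _ => rfl⟩

theorem MatConj.refl (M : GQ →* M2 A) : MatConj M M :=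
  ⟨1, fun σ => by simp⟩

theorem MatConj.symm {M M' : GQ →* M2 A} (h : MatConj M M') : MatConj M' M := by
  obtain ⟨U, hU⟩ := h
  refine ⟨U⁻¹, fun σ => ?_⟩
  rw [hU σ, inv_inv]
  simp [mul_assoc]

theorem MatConj.trans {M M' M'' : GQ →* M2 A} (h : MatConj M M') (h' : MatConj M' M'') :
    MatConj M M'' := by
  obtain ⟨U, hU⟩ := h
  obtain ⟨U', hU'⟩ := h'
  refine ⟨U' * U, fun σ => ?_⟩
  rw [hU' σ, hU σ, mul_inv_rev, Units.val_mul, Units.val_mul]
  simp only [mul_assoc]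

theorem MatConj.map {B : Type} [CommRing B] [IsLocalRing B] (φ : A →+* B) {M M' : GQ →* M2 A}
    (h : MatConj M M') : MatConj (mapMat φ M) (mapMat φ M') := by
  obtain ⟨U, hU⟩ := h
  refine ⟨Units.map (φ.mapMatrix : M2 A →+* M2 B).toMonoidHom U, fun σ => ?_⟩
  show (φ.mapMatrix : M2 A →+* M2 B) (M' σ) = _
  rw [hU σ, map_mul, map_mul, ← map_inv]
  rfl

theorem MatCont.of_matConj {M M' : GQ →* M2 A} (hM : MatCont M) (h : MatConj M M') :
    MatCont M' := by
  obtain ⟨U, hU⟩ := h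
  intro n
  obtain ⟨L, hL, hn⟩ := hM n
  refine ⟨L, hL, fun σ hσ => ?_⟩
  have e : M' σ - 1 = (U : M2 A) * (M σ - 1) * ((U⁻¹ : (M2 A)ˣ) : M2 A) := by
    rw [hU σ, mul_sub, sub_mul, mul_one, Units.mul_inv]
  rw [e]
  have h1 : NFCore.EntriesIn (maximalIdeal A ^ n) (M σ - 1) := hn σ hσ
  exact (h1.mul_left _).mul_right _

end Conj

variable {𝒪 : Type} [CommRing 𝒪] [IsLocalRing 𝒪]
  {ρbar : ResidualGaloisRep (ResidueField 𝒪)} (N : NormDatum 𝒪 ρbar)
  {A : Type} [CommRing A] [IsLocalRing A] [Algebra 𝒪 A] [IsResAlg 𝒪 A]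

section Red

variable (𝒪 A)

/-- Reduction of matrices to the residue field of `𝒪`. -/
def redMat : M2 A →+* M2 (ResidueField 𝒪) := (resK 𝒪 A).toRingHom.mapMatrix

variable {𝒪 A}

lemma redMat_apply (X : M2 A) (i j : Fin 2) : redMat 𝒪 A X i j = resK 𝒪 A (X i j) := rfl

lemma redMat_eq_zero_iff (X : M2 A) :
    redMat 𝒪 A X = 0 ↔ NFCore.EntriesIn (maximalIdeal A) X := by
  constructor
  · intro h i j
    rw [← resK_eq_zero_iff 𝒪 A, ← redMat_apply, h]; rfl
  · intro h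
    ext i j
    rw [redMat_apply, (resK_eq_zero_iff 𝒪 A _).2 (h i j)]; rfl

lemma isUnit_of_resK_ne_zero {a : A} (h : resK 𝒪 A a ≠ 0) : IsUnit a := by
  by_contra hu
  exact h ((resK_eq_zero_iff 𝒪 A a).2 ((IsLocalRing.mem_maximalIdeal a).2 hu))

lemma redMat_of_isNormLift {M : GQ →* M2 A} (h : IsNormLift N A M) (σ : GQ) :
    redMat 𝒪 A (M σ) = N.rbar σ := by
  ext i j
  exact h.res σ i j

/-- The commutator entry used for the normalisation is a unit for every lift of `rbar`. -/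
lemma isUnit_comm_of_red {X0 X1 : M2 A} (h0 : redMat 𝒪 A X0 = N.rbar N.g0)
    (h1 : redMat 𝒪 A X1 = N.rbar N.g1) :
    IsUnit ((X1 * X0 - X0 * X1) N.i0 N.j0) := by
  apply isUnit_of_resK_ne_zero (𝒪 := 𝒪)
  rw [← redMat_apply, map_sub, map_mul, map_mul, h0, h1]
  exact N.comm_ne

end Red

/-- Uniqueness of the normal form: two normalised lifts that are conjugate under `GL₂(A)` are
equal.  (Schur: the conjugating matrix is scalar mod `m`; `g0`-normalisation forces it into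
`A[M g0]`; the `g1`-entry kills the remaining parameter.)  Valid for every local `A`. -/
theorem normLift_unique {M M' : GQ →* M2 A} (h : IsNormLift N A M) (h' : IsNormLift N A M')
    (hc : MatConj M M') : M = M' := by
  obtain ⟨U, hU⟩ := hc
  -- the intertwiner
  set P : M2 A := ((U⁻¹ : (M2 A)ˣ) : M2 A) with hP
  have hint : ∀ g, P * M' g = M g * P := by
    intro g
    rw [hU g, hP]
    simp [mul_assoc]
  -- its reduction commutes with rbar, hence is a scalar
  have hcommute : ∀ σ, redMat 𝒪 A P * N.rbar σ = N.rbar σ * redMat 𝒪 A P := by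
    intro σ
    rw [← redMat_of_isNormLift N h' σ, ← map_mul, hint σ, map_mul, redMat_of_isNormLift N h σ,
      redMat_of_isNormLift N h' σ]
  obtain ⟨c, hcs⟩ := N.schur _ hcommute
  have hc0 : c ≠ 0 := by
    intro hc0
    have h1 : redMat 𝒪 A P * redMat 𝒪 A (U : M2 A) = 1 := by
      rw [← map_mul, hP, Units.inv_mul, map_one]
    rw [hcs, hc0, map_zero, zero_mul] at h1
    exact zero_ne_one h1
  obtain ⟨a', ha'⟩ := resK_surjective 𝒪 A c
  have hau : IsUnit a' := isUnit_of_resK_ne_zero (𝒪 := 𝒪) (by rw [ha']; exact hc0)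
  have hPa : NFCore.EntriesIn (maximalIdeal A) (P - a' • (1 : M2 A)) := by
    rw [← redMat_eq_zero_iff (𝒪 := 𝒪)]
    ext i j
    rw [map_sub, hcs, Matrix.sub_apply, redMat_apply, Matrix.smul_apply, smul_eq_mul, map_mul, ha',
      Matrix.scalar_apply, Matrix.diagonal_apply, Matrix.one_apply]
    by_cases hij : i = j
    · simp [hij]
    · simp [hij]
  have hfun : (fun g => M' g) = fun g => M g :=
    NFCore.eq_of_intertwined_of_normalized (fun g => M g) (fun g => M' g) N.g0 N.g1 N.i0 N.j0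
      (algebraMap 𝒪 A N.c0) h.g0_00 h.g0_10 h.g1_ij h'.g0_00 h'.g0_10 h'.g1_ij
      (isUnit_comm_of_red N (redMat_of_isNormLift N h N.g0) (redMat_of_isNormLift N h N.g1))
      P hint a' hau hPa
  ext σ i j
  exact (congrFun (congrFun (congrFun hfun σ) i) j).symm

/-- Existence of the normal form over a complete (e.g. Artinian) local ring. -/
theorem exists_normLift [IsAdicComplete (maximalIdeal A) A] {M : GQ →* M2 A} (hM : MatCont M)
    (hres : MatConj N.rbar (mapMat (resK 𝒪 A).toRingHom M)) :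
    ∃ M' : GQ →* M2 A, MatConj M M' ∧ IsNormLift N A M' := by
  obtain ⟨Ubar, hUbar⟩ := hres
  have hUbar' : ∀ σ, redMat 𝒪 A (M σ) = (Ubar : M2 (ResidueField 𝒪)) * N.rbar σ *
      ((Ubar⁻¹ : (M2 (ResidueField 𝒪))ˣ) : M2 (ResidueField 𝒪)) := hUbar
  -- Step 1: lift the inverse of the residual conjugator.
  have hlift : ∃ V : M2 A, redMat 𝒪 A V = ((Ubar⁻¹ : (M2 (ResidueField 𝒪))ˣ) : M2 _) := by
    choose f hf using fun i j => resK_surjective 𝒪 A
      (((Ubar⁻¹ : (M2 (ResidueField 𝒪))ˣ) : M2 (ResidueField 𝒪)) i j)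
    exact ⟨Matrix.of f, by ext i j; exact hf i j⟩
  obtain ⟨V, hV⟩ := hlift
  have hVu : IsUnit V := by
    rw [Matrix.isUnit_iff_isUnit_det]
    apply isUnit_of_resK_ne_zero (𝒪 := 𝒪)
    have : resK 𝒪 A V.det = (redMat 𝒪 A V).det := by
      rw [redMat, ← RingHom.map_det]; rfl
    rw [this, hV]
    exact ((Matrix.isUnit_iff_isUnit_det _).1 (Ubar⁻¹).isUnit).ne_zero
  obtain ⟨Vu, hVu'⟩ := hVu
  have hVinv : redMat 𝒪 A ((Vu⁻¹ : (M2 A)ˣ) : M2 A) = (Ubar : M2 (ResidueField 𝒪)) := by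
    have e : Units.map (redMat 𝒪 A).toMonoidHom Vu = Ubar⁻¹ := by
      ext1
      show redMat 𝒪 A (Vu : M2 A) = _
      rw [hVu', hV]
    have e2 : Units.map (redMat 𝒪 A).toMonoidHom Vu⁻¹ = Ubar := by
      rw [map_inv, e, inv_inv]
    exact congrArg Units.val e2
  set M1 : GQ →* M2 A := nfConj Vu M with hM1
  have hM1red : ∀ σ, redMat 𝒪 A (M1 σ) = N.rbar σ := by
    intro σ
    rw [hM1, nfConj_apply, map_mul, map_mul, hVinv, hVu', hV, hUbar' σ]
    simp [mul_assoc]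
  -- Step 2: normalise.
  have hq : NFCore.QuadHensel A := NFCore.quadHensel_of_isAdicComplete
  have h00 : M1 N.g0 0 0 ∈ maximalIdeal A := by
    rw [← resK_eq_zero_iff 𝒪 A, ← redMat_apply, hM1red, N.rbar_g0_00]
  have h10 : M1 N.g0 1 0 - 1 ∈ maximalIdeal A := by
    rw [← resK_eq_zero_iff 𝒪 A, map_sub, ← redMat_apply, hM1red, N.rbar_g0_10, map_one, sub_self]
  have hc : M1 N.g1 N.i0 N.j0 - algebraMap 𝒪 A N.c0 ∈ maximalIdeal A := by
    rw [← resK_eq_zero_iff 𝒪 A, map_sub, ← redMat_apply, hM1red, AlgHom.commutes, ← N.c0_spec]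
    exact sub_self _
  obtain ⟨P, Q, hPQ, hQP, hP1, hQ1, hn00, hn10, hn1⟩ :=
    NFCore.exists_normalizing_conj hq (M1 N.g0) (M1 N.g1) h00 h10 N.i0 N.j0
      (algebraMap 𝒪 A N.c0) (isUnit_comm_of_red N (hM1red N.g0) (hM1red N.g1)) hc
  let W : (M2 A)ˣ := ⟨Q, P, hQP, hPQ⟩
  have hredQ : redMat 𝒪 A Q = 1 := by
    have := (redMat_eq_zero_iff (𝒪 := 𝒪) (Q - 1)).2 hQ1
    rwa [map_sub, map_one, sub_eq_zero] at this
  have hredP : redMat 𝒪 A P = 1 := by
    have := (redMat_eq_zero_iff (𝒪 := 𝒪) (P - 1)).2 hP1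
    rwa [map_sub, map_one, sub_eq_zero] at this
  refine ⟨nfConj W M1, (matConj_nfConj Vu M).trans (matConj_nfConj W M1), ?_⟩
  have happ : ∀ σ, nfConj W M1 σ = Q * M1 σ * P := fun σ => rfl
  refine ⟨(hM.of_matConj (matConj_nfConj Vu M)).of_matConj (matConj_nfConj W M1), ?_, ?_, ?_, ?_⟩
  · intro σ i j
    rw [← redMat_apply, happ, map_mul, map_mul, hredQ, hredP, one_mul, mul_one, hM1red]
  · rw [happ]; exact hn00
  · rw [happ]; exact hn10
  · rw [happ]; exact hn1

end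

end Fermat.Agent.S53
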