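import Fermat.Agent.S53.Defs

set_option autoImplicit false

/-!
Toolkit for local `𝒪`-algebras with residue field `k = ResidueField 𝒪` (`IsResAlg`), in particular
Artinian ones ("test algebras").  OWNER: helper15.  (Quot, Dual are in TestAlg2.lean, owner helper16.)
-/

namespace Fermat.Agent.S53

open IsLocalRing

set_option linter.unusedSectionVars false

noncomputable section

variable (𝒪 : Type) [CommRing 𝒪] [IsLocalRing 𝒪]

/-! ### Basic (helper15) -/
section Basic

variable {𝒪}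
variable {A B : Type} [CommRing A] [IsLocalRing A] [Algebra 𝒪 A] [IsResAlg 𝒪 A]
  [CommRing B] [IsLocalRing B] [Algebra 𝒪 B] [IsResAlg 𝒪 B]

/-- Every element is congruent to a constant modulo the maximal ideal. -/
theorem exists_algebraMap_sub_mem (a : A) : ∃ x : 𝒪, a - algebraMap 𝒪 A x ∈ maximalIdeal A := by
  obtain ⟨x, hx⟩ := IsResAlg.residue_surjective (𝒪 := 𝒪) (A := A) (residue A a)
  refine ⟨x, ?_⟩
  rw [← residue_eq_zero_iff, map_sub, sub_eq_zero]
  exact hx.symm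

omit [IsResAlg 𝒪 B] in
theorem isUnit_of_isUnit_algebraMap {x : 𝒪} (h : IsUnit (algebraMap 𝒪 A x)) : IsUnit x :=
  isUnit_of_map_unit (algebraMap 𝒪 A) x h

/-- Every `𝒪`-algebra hom between such algebras is local. -/
theorem algHom_isLocalHom (φ : A →ₐ[𝒪] B) : IsLocalHom φ.toRingHom := by
  refine ⟨fun a ha => ?_⟩
  by_contra hna
  have ham : a ∈ maximalIdeal A := hna
  obtain ⟨x, hx⟩ := exists_algebraMap_sub_mem (𝒪 := 𝒪) (φ a)
  have hxu : IsUnit x := by
    apply isUnit_of_isUnit_algebraMap (𝒪 := 𝒪) (A := B)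
    by_contra hnu
    have h1 : algebraMap 𝒪 B x ∈ maximalIdeal B := hnu
    have h2 : φ a ∈ maximalIdeal B := by
      have := (maximalIdeal B).add_mem hx h1
      simpa using this
    exact h2 ha
  have h3 : IsUnit (a - algebraMap 𝒪 A x) := by
    by_contra hnu
    have h4 : a - algebraMap 𝒪 A x ∈ maximalIdeal A := hnu
    have h5 : algebraMap 𝒪 A x ∈ maximalIdeal A := by
      have := (maximalIdeal A).sub_mem ham h4
      simpa using this
    exact h5 (hxu.map (algebraMap 𝒪 A))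
  have h6 : IsUnit (φ (a - algebraMap 𝒪 A x)) := h3.map φ
  rw [map_sub, AlgHom.commutes] at h6
  exact hx h6

theorem algHom_map_maximalIdeal (φ : A →ₐ[𝒪] B) {a : A} (ha : a ∈ maximalIdeal A) :
    φ a ∈ maximalIdeal B := by
  have := algHom_isLocalHom φ
  exact map_nonunit φ.toRingHom a ha

theorem resK_comp (φ : A →ₐ[𝒪] B) (a : A) : resK 𝒪 B (φ a) = resK 𝒪 A a := by
  obtain ⟨x, hx⟩ := exists_algebraMap_sub_mem (𝒪 := 𝒪) a
  have h1 : resK 𝒪 A (a - algebraMap 𝒪 A x) = 0 := (resK_eq_zero_iff 𝒪 A _).mpr hx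
  have h2 : resK 𝒪 B (φ (a - algebraMap 𝒪 A x)) = 0 :=
    (resK_eq_zero_iff 𝒪 B _).mpr (algHom_map_maximalIdeal φ hx)
  rw [map_sub, AlgHom.commutes, sub_eq_zero] at h1
  rw [map_sub, map_sub, AlgHom.commutes, AlgHom.commutes, sub_eq_zero] at h2
  rw [h1, h2]

variable (𝒪 A)

theorem isArtinianTestAlgebra_of [IsArtinianRing A] : GaloisRep.IsArtinianTestAlgebra 𝒪 A :=
  ⟨IsResAlg.isLocalHom, IsResAlg.residue_surjective, inferInstance⟩

omit [IsResAlg 𝒪 A] in
theorem isResAlg_of_isArtinianTestAlgebra (h : GaloisRep.IsArtinianTestAlgebra 𝒪 A) :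
    IsResAlg 𝒪 A :=
  ⟨h.isLocalHom, h.residue_surjective⟩

theorem finite_residueField [Finite (ResidueField 𝒪)] : Finite (ResidueField A) :=
  Finite.of_equiv _ (resEquiv 𝒪 A).toEquiv

/-- Artinian test algebras are finite sets when `k` is finite. -/
theorem finite_of_isArtinianRing [Finite (ResidueField 𝒪)] [IsArtinianRing A] : Finite A := by
  have : Finite (A ⧸ maximalIdeal A) := finite_residueField 𝒪 A
  obtain ⟨n, hn⟩ := IsArtinianRing.isNilpotent_jacobson_bot (R := A)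
  rw [jacobson_eq_maximalIdeal ⊥ bot_ne_top] at hn
  have hfg : (maximalIdeal A).FG := IsNoetherian.noetherian _
  have : Finite (A ⧸ maximalIdeal A ^ n) := Ideal.finite_quotient_pow hfg n
  rw [Ideal.zero_eq_bot] at hn
  rw [hn] at this
  exact Finite.of_equiv _ (RingEquiv.quotientBot A).toEquiv

/-- For an Artinian local ring continuity means factoring through a finite level. -/
theorem matCont_iff_of_isArtinianRing [IsArtinianRing A] (M : GQ →* M2 A) :
    MatCont M ↔ ∃ L : IntermediateField ℚ (AlgebraicClosure ℚ), FiniteDimensional ℚ L ∧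
      ∀ σ : GQ, (∀ x ∈ L, σ x = x) → M σ = 1 := by
  constructor
  · intro hM
    obtain ⟨n, hn⟩ := IsArtinianRing.isNilpotent_jacobson_bot (R := A)
    rw [jacobson_eq_maximalIdeal ⊥ bot_ne_top, Ideal.zero_eq_bot] at hn
    obtain ⟨L, hL, h⟩ := hM n
    refine ⟨L, hL, fun σ hσ => ?_⟩
    ext i j
    have := h σ hσ i j
    rw [hn, Ideal.mem_bot, Matrix.sub_apply, sub_eq_zero] at this
    exact this
  · rintro ⟨L, hL, h⟩ n
    refine ⟨L, hL, fun σ hσ i j => ?_⟩
    rw [h σ hσ, sub_self]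
    exact Ideal.zero_mem _

instance : IsResAlg 𝒪 (ResidueField 𝒪) where
  isLocalHom := by
    show IsLocalHom (residue 𝒪)
    infer_instance
  residue_surjective := by
    intro y
    obtain ⟨z, rfl⟩ := residue_surjective y
    obtain ⟨x, rfl⟩ := residue_surjective z
    exact ⟨x, rfl⟩

theorem resK_residueField (x : ResidueField 𝒪) : resK 𝒪 (ResidueField 𝒪) x = x := by
  obtain ⟨y, rfl⟩ := residue_surjective x
  exact (resK 𝒪 (ResidueField 𝒪)).commutes y

end Basic

/-! ### Subalgebras of Artinian test algebras (helper15) -/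
section Sub

variable {𝒪}
variable [Finite (ResidueField 𝒪)] {A : Type} [CommRing A] [IsLocalRing A] [Algebra 𝒪 A]
  [IsResAlg 𝒪 A] [IsArtinianRing A] (B : Subalgebra 𝒪 A)

/-- In a finite ring, a subalgebra element which is a unit in the big ring is a unit in the
subalgebra. -/
theorem sub_isUnit_iff (b : B) : IsUnit b ↔ IsUnit (b : A) := by
  constructor
  · intro h
    exact h.map B.val
  · intro h
    have hfin : Finite A := finite_of_isArtinianRing 𝒪 A
    obtain ⟨u, hu⟩ := h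
    have hord : 0 < orderOf u := orderOf_pos u
    have hpow : u ^ orderOf u = 1 := pow_orderOf_eq_one u
    have h1 : (b : A) ^ orderOf u = 1 := by
      rw [← hu, ← Units.val_pow_eq_pow_val, hpow, Units.val_one]
    refine IsUnit.of_mul_eq_one (b ^ (orderOf u - 1)) ?_
    apply Subtype.ext
    rw [Subalgebra.coe_mul, Subalgebra.coe_pow, Subalgebra.coe_one, ← pow_succ',
      Nat.sub_add_cancel hord, h1]

theorem sub_isLocalRing : IsLocalRing B := by
  have : Nontrivial B := inferInstance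
  refine IsLocalRing.of_nonunits_add fun a b ha hb => ?_
  rw [mem_nonunits_iff, sub_isUnit_iff] at ha hb ⊢
  have ha' : (a : A) ∈ maximalIdeal A := ha
  have hb' : (b : A) ∈ maximalIdeal A := hb
  have := (maximalIdeal A).add_mem ha' hb'
  exact this

theorem sub_isResAlg : @IsResAlg 𝒪 _ B _ (sub_isLocalRing B) _ := by
  let _ := sub_isLocalRing B
  refine ⟨⟨fun x hx => ?_⟩, fun y => ?_⟩
  · have h1 : IsUnit ((algebraMap 𝒪 B x : B) : A) := (sub_isUnit_iff B _).mp hx
    exact isUnit_of_map_unit (algebraMap 𝒪 A) x h1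
  · obtain ⟨b, rfl⟩ := residue_surjective y
    obtain ⟨x, hx⟩ := exists_algebraMap_sub_mem (𝒪 := 𝒪) (b : A)
    refine ⟨x, ?_⟩
    show residue B (algebraMap 𝒪 B x) = residue B b
    rw [eq_comm, ← sub_eq_zero, ← map_sub, residue_eq_zero_iff]
    show b - algebraMap 𝒪 B x ∈ nonunits B
    rw [mem_nonunits_iff, sub_isUnit_iff]
    exact hx

theorem sub_isArtinianRing : IsArtinianRing B := by
  have hfin : Finite A := finite_of_isArtinianRing 𝒪 A
  have : Finite B := Finite.of_injective (fun b : B => (b : A)) Subtype.val_injective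
  infer_instance

end Sub

/-! ### Fibre products over `k` (helper15) -/
section FibProd

variable (A B : Type) [CommRing A] [IsLocalRing A] [Algebra 𝒪 A] [IsResAlg 𝒪 A]
  [CommRing B] [IsLocalRing B] [Algebra 𝒪 B] [IsResAlg 𝒪 B]

/-- The fibre product `A ×ₖ B`. -/
def fibProd : Subalgebra 𝒪 (A × B) :=
  AlgHom.equalizer ((resK 𝒪 A).comp (AlgHom.fst 𝒪 A B)) ((resK 𝒪 B).comp (AlgHom.snd 𝒪 A B))

variable {𝒪 A B}

theorem mem_fibProd {x : A × B} : x ∈ fibProd 𝒪 A B ↔ resK 𝒪 A x.1 = resK 𝒪 B x.2 :=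
  Iff.rfl

theorem isUnit_iff_resK_ne_zero (a : A) : IsUnit a ↔ resK 𝒪 A a ≠ 0 := by
  rw [Ne, resK_eq_zero_iff, mem_maximalIdeal, mem_nonunits_iff, not_not]

theorem fibProd_isUnit_iff (x : fibProd 𝒪 A B) : IsUnit x ↔ IsUnit (x : A × B).1 := by
  constructor
  · intro h
    exact h.map ((AlgHom.fst 𝒪 A B).comp (fibProd 𝒪 A B).val)
  · intro h
    have hx : resK 𝒪 A (x : A × B).1 = resK 𝒪 B (x : A × B).2 := x.2
    have h2 : IsUnit (x : A × B).2 := by
      rw [isUnit_iff_resK_ne_zero (𝒪 := 𝒪), ← hx, ← isUnit_iff_resK_ne_zero]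
      exact h
    obtain ⟨u, hu⟩ := h
    obtain ⟨v, hv⟩ := h2
    have hmem : ((↑u⁻¹ : A), (↑v⁻¹ : B)) ∈ fibProd 𝒪 A B := by
      rw [mem_fibProd]
      show resK 𝒪 A ↑u⁻¹ = resK 𝒪 B ↑v⁻¹
      have h3 : resK 𝒪 A (u : A) * resK 𝒪 A ↑u⁻¹ = 1 := by
        rw [← map_mul, Units.mul_inv, map_one]
      have h4 : resK 𝒪 B (v : B) * resK 𝒪 B ↑v⁻¹ = 1 := by
        rw [← map_mul, Units.mul_inv, map_one]
      rw [hu, hx, ← hv] at h3
      have h5 : resK 𝒪 B (v : B) ≠ 0 := left_ne_zero_of_mul_eq_one h4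
      exact mul_left_cancel₀ h5 (h3.trans h4.symm)
    refine IsUnit.of_mul_eq_one ⟨_, hmem⟩ ?_
    apply Subtype.ext
    apply Prod.ext
    · show (x : A × B).1 * ↑u⁻¹ = 1
      rw [← hu, Units.mul_inv]
    · show (x : A × B).2 * ↑v⁻¹ = 1
      rw [← hv, Units.mul_inv]

instance fibProd_nontrivial : Nontrivial (fibProd 𝒪 A B) :=
  ⟨⟨0, 1, fun h => by
    have := congrArg (fun x : fibProd 𝒪 A B => (x : A × B).1) h
    exact zero_ne_one this⟩⟩

instance fibProd_isLocalRing : IsLocalRing (fibProd 𝒪 A B) := by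
  refine IsLocalRing.of_nonunits_add fun a b ha hb => ?_
  rw [mem_nonunits_iff, fibProd_isUnit_iff] at ha hb ⊢
  have ha' : (a : A × B).1 ∈ maximalIdeal A := ha
  have hb' : (b : A × B).1 ∈ maximalIdeal A := hb
  have := (maximalIdeal A).add_mem ha' hb'
  exact this

instance fibProd_isResAlg : IsResAlg 𝒪 (fibProd 𝒪 A B) := by
  refine ⟨⟨fun x hx => ?_⟩, fun y => ?_⟩
  · have h1 : IsUnit ((algebraMap 𝒪 (fibProd 𝒪 A B) x : fibProd 𝒪 A B) : A × B).1 :=
      (fibProd_isUnit_iff _).mp hx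
    exact isUnit_of_map_unit (algebraMap 𝒪 A) x h1
  · obtain ⟨b, rfl⟩ := residue_surjective y
    obtain ⟨x, hx⟩ := exists_algebraMap_sub_mem (𝒪 := 𝒪) (b : A × B).1
    refine ⟨x, ?_⟩
    show residue _ (algebraMap 𝒪 (fibProd 𝒪 A B) x) = residue _ b
    rw [eq_comm, ← sub_eq_zero, ← map_sub, residue_eq_zero_iff]
    show b - algebraMap 𝒪 (fibProd 𝒪 A B) x ∈ nonunits _
    rw [mem_nonunits_iff, fibProd_isUnit_iff]
    exact hx

theorem fibProd_isArtinianRing [Finite (ResidueField 𝒪)] [IsArtinianRing A] [IsArtinianRing B] :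
    IsArtinianRing (fibProd 𝒪 A B) := by
  have hA : Finite A := finite_of_isArtinianRing 𝒪 A
  have hB : Finite B := finite_of_isArtinianRing 𝒪 B
  have : Finite (fibProd 𝒪 A B) :=
    Finite.of_injective (fun b : fibProd 𝒪 A B => (b : A × B)) Subtype.val_injective
  infer_instance

variable (𝒪 A B)

/-- First projection. -/
def fibFst : fibProd 𝒪 A B →ₐ[𝒪] A := (AlgHom.fst 𝒪 A B).comp (fibProd 𝒪 A B).val

/-- Second projection. -/
def fibSnd : fibProd 𝒪 A B →ₐ[𝒪] B := (AlgHom.snd 𝒪 A B).comp (fibProd 𝒪 A B).val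

variable {𝒪 A B}

@[simp] theorem fibFst_apply (x : fibProd 𝒪 A B) : fibFst 𝒪 A B x = (x : A × B).1 := rfl

@[simp] theorem fibSnd_apply (x : fibProd 𝒪 A B) : fibSnd 𝒪 A B x = (x : A × B).2 := rfl

theorem fibProd_ext {x y : fibProd 𝒪 A B} (h1 : fibFst 𝒪 A B x = fibFst 𝒪 A B y)
    (h2 : fibSnd 𝒪 A B x = fibSnd 𝒪 A B y) : x = y :=
  Subtype.ext (Prod.ext h1 h2)

theorem fibProd_pair_injective :
    Function.Injective (fun x : fibProd 𝒪 A B => (fibFst 𝒪 A B x, fibSnd 𝒪 A B x)) :=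
  fun _ _ h => fibProd_ext (congrArg Prod.fst h) (congrArg Prod.snd h)

theorem resK_fibFst_eq_resK_fibSnd :
    (resK 𝒪 A).comp (fibFst 𝒪 A B) = (resK 𝒪 B).comp (fibSnd 𝒪 A B) :=
  AlgHom.ext fun x => x.2

theorem exists_fibProd_of_resK_eq (a : A) (b : B) (h : resK 𝒪 A a = resK 𝒪 B b) :
    ∃ x : fibProd 𝒪 A B, fibFst 𝒪 A B x = a ∧ fibSnd 𝒪 A B x = b :=
  ⟨⟨(a, b), h⟩, rfl, rfl⟩

end FibProd

end

end Fermat.Agent.S53
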