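import Fermat.Agent.S53.Defs

set_option autoImplicit false

/-!
Toolkit part 2: quotients and dual numbers.  OWNER: helper16.
-/

namespace Fermat.Agent.S53

open IsLocalRing

set_option linter.unusedSectionVars false

noncomputable section

variable (𝒪 : Type) [CommRing 𝒪] [IsLocalRing 𝒪]

/-! ### Quotients (helper16) -/
section Quot

variable {𝒪}
variable (A : Type) [CommRing A] [IsLocalRing A] [Algebra 𝒪 A] [IsResAlg 𝒪 A]

/-- General proper quotients. -/
theorem quot_isLocalRing (I : Ideal A) (hI : I ≠ ⊤) : IsLocalRing (A ⧸ I) := by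
  have : Nontrivial (A ⧸ I) := Ideal.Quotient.nontrivial_iff.mpr hI
  exact IsLocalRing.of_surjective' (Ideal.Quotient.mk I) Ideal.Quotient.mk_surjective

theorem quot_mk_isLocalHom (I : Ideal A) (hI : I ≠ ⊤) :
    IsLocalHom (Ideal.Quotient.mk I) := by
  have : Nontrivial (A ⧸ I) := Ideal.Quotient.nontrivial_iff.mpr hI
  exact IsLocalHom.of_surjective (Ideal.Quotient.mk I) Ideal.Quotient.mk_surjective

theorem quot_map_maximalIdeal (I : Ideal A) (hI : I ≠ ⊤) :
    letI := quot_isLocalRing A I hI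
    (maximalIdeal A).map (Ideal.Quotient.mk I) = maximalIdeal (A ⧸ I) := by
  letI := quot_isLocalRing A I hI
  have := quot_mk_isLocalHom A I hI
  ext x
  obtain ⟨x, rfl⟩ := Ideal.Quotient.mk_surjective x
  simp [sup_eq_left.mpr (le_maximalIdeal hI)]

theorem quot_isResAlg (I : Ideal A) (hI : I ≠ ⊤) :
    @IsResAlg 𝒪 _ (A ⧸ I) _ (quot_isLocalRing A I hI) _ := by
  letI := quot_isLocalRing A I hI
  have hloc := quot_mk_isLocalHom A I hI
  refine @IsResAlg.mk 𝒪 _ (A ⧸ I) _ _ _ ?_ ?_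
  · have h : algebraMap 𝒪 (A ⧸ I) = (Ideal.Quotient.mk I).comp (algebraMap 𝒪 A) := rfl
    rw [h]
    exact RingHom.isLocalHom_comp _ _
  · intro y
    obtain ⟨y, rfl⟩ := residue_surjective y
    obtain ⟨a, rfl⟩ := Ideal.Quotient.mk_surjective y
    obtain ⟨x, hx⟩ := IsResAlg.residue_surjective (𝒪 := 𝒪) (A := A) (residue A a)
    refine ⟨x, ?_⟩
    have hx' : algebraMap 𝒪 A x - a ∈ maximalIdeal A := by
      rw [← residue_eq_zero_iff, map_sub, sub_eq_zero]; exact hx
    show residue (A ⧸ I) (Ideal.Quotient.mk I (algebraMap 𝒪 A x)) = residue (A ⧸ I) (Ideal.Quotient.mk I a)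
    rw [← sub_eq_zero, ← map_sub, ← map_sub, residue_eq_zero_iff, ← quot_map_maximalIdeal A I hI]
    exact Ideal.mem_map_of_mem _ hx'

theorem ta2_maximalIdeal_pow_succ_ne_top (n : ℕ) : maximalIdeal A ^ (n + 1) ≠ ⊤ := by
  intro h
  have h1 : maximalIdeal A ^ (n + 1) ≤ maximalIdeal A := Ideal.pow_le_self (Nat.succ_ne_zero n)
  rw [h] at h1
  exact (maximalIdeal.isMaximal A).ne_top (top_le_iff.mp h1)

instance quotPow_isLocalRing (n : ℕ) : IsLocalRing (A ⧸ maximalIdeal A ^ (n + 1)) :=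
  quot_isLocalRing A _ (ta2_maximalIdeal_pow_succ_ne_top A n)

instance quotPow_isResAlg (n : ℕ) : IsResAlg 𝒪 (A ⧸ maximalIdeal A ^ (n + 1)) :=
  quot_isResAlg A _ (ta2_maximalIdeal_pow_succ_ne_top A n)

instance quotPow_mk_isLocalHom (n : ℕ) :
    IsLocalHom (Ideal.Quotient.mk (maximalIdeal A ^ (n + 1))) :=
  quot_mk_isLocalHom A _ (ta2_maximalIdeal_pow_succ_ne_top A n)

theorem quotPow_maximalIdeal_pow (n : ℕ) :
    maximalIdeal (A ⧸ maximalIdeal A ^ (n + 1)) ^ (n + 1) = ⊥ := by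
  have h := quot_map_maximalIdeal A _ (ta2_maximalIdeal_pow_succ_ne_top A n)
  rw [← h, ← Ideal.map_pow, Ideal.map_quotient_self]

instance quotPow_isArtinianRing [IsNoetherianRing A] (n : ℕ) :
    IsArtinianRing (A ⧸ maximalIdeal A ^ (n + 1)) := by
  rw [isArtinianRing_iff_isNilpotent_maximalIdeal]
  exact ⟨n + 1, quotPow_maximalIdeal_pow A n⟩

/-- An Artinian local ring has nilpotent maximal ideal; a local hom from `A` to an Artinian local
ring kills a power of the maximal ideal. -/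
theorem exists_pow_le_ker {B : Type} [CommRing B] [IsLocalRing B] [IsArtinianRing B]
    (φ : A →+* B) [IsLocalHom φ] : ∃ n : ℕ, maximalIdeal A ^ (n + 1) ≤ RingHom.ker φ := by
  obtain ⟨n, hn⟩ := IsArtinianRing.isNilpotent_jacobson_bot (R := B)
  rw [jacobson_eq_maximalIdeal _ bot_ne_top, Ideal.zero_eq_bot] at hn
  refine ⟨n, fun a ha => ?_⟩
  have hmap : (maximalIdeal A).map φ ≤ maximalIdeal B :=
    ((local_hom_TFAE φ).out 0 2).mp ‹_›
  have h1 : φ a ∈ (maximalIdeal A ^ (n + 1)).map φ := Ideal.mem_map_of_mem φ ha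
  rw [Ideal.map_pow] at h1
  have h2 : φ a ∈ maximalIdeal B ^ (n + 1) := Ideal.pow_right_mono hmap _ h1
  rw [pow_succ, hn, Ideal.bot_mul] at h2
  exact h2

end Quot

/-! ### Dual numbers (helper16) -/
section Dual

/-- The `𝒪`-algebra structure on `k[ε]` used in `GaloisRep.TangentFinite` (same term). -/
@[reducible] def dualAlgebra : Algebra 𝒪 (DualNumber (ResidueField 𝒪)) :=
  ((algebraMap (ResidueField 𝒪) (DualNumber (ResidueField 𝒪))).comp
      (algebraMap 𝒪 (ResidueField 𝒪))).toAlgebra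

theorem dualAlgebra_algebraMap_apply (x : 𝒪) :
    letI := dualAlgebra 𝒪
    algebraMap 𝒪 (DualNumber (ResidueField 𝒪)) x = TrivSqZeroExt.inl (residue 𝒪 x) := rfl

theorem mem_maximalIdeal_dual {k : Type} [Field k] (x : DualNumber k) :
    x ∈ maximalIdeal (DualNumber k) ↔ x.fst = 0 := by
  rw [mem_maximalIdeal, mem_nonunits_iff, TrivSqZeroExt.isUnit_iff_isUnit_fst,
    isUnit_iff_ne_zero, not_not]

theorem dual_isResAlg : @IsResAlg 𝒪 _ (DualNumber (ResidueField 𝒪)) _ _ (dualAlgebra 𝒪) := by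
  letI := dualAlgebra 𝒪
  refine @IsResAlg.mk 𝒪 _ (DualNumber (ResidueField 𝒪)) _ _ _ ?_ ?_
  · constructor
    intro a ha
    rw [dualAlgebra_algebraMap_apply, TrivSqZeroExt.isUnit_iff_isUnit_fst,
      TrivSqZeroExt.fst_inl] at ha
    exact (isUnit_map_iff (residue 𝒪) a).mp ha
  · intro y
    obtain ⟨z, rfl⟩ := IsLocalRing.residue_surjective y
    obtain ⟨x, hx⟩ := IsLocalRing.residue_surjective (R := 𝒪) z.fst
    refine ⟨x, ?_⟩
    show residue _ (algebraMap 𝒪 (DualNumber (ResidueField 𝒪)) x) = residue _ z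
    rw [← sub_eq_zero, ← map_sub, residue_eq_zero_iff, mem_maximalIdeal_dual,
      dualAlgebra_algebraMap_apply, TrivSqZeroExt.fst_sub, TrivSqZeroExt.fst_inl, hx, sub_self]

theorem dual_isArtinianRing : IsArtinianRing (DualNumber (ResidueField 𝒪)) := by
  have : Module.Finite (ResidueField 𝒪) (DualNumber (ResidueField 𝒪)) :=
    inferInstanceAs (Module.Finite (ResidueField 𝒪) (ResidueField 𝒪 × ResidueField 𝒪))
  exact IsArtinianRing.of_finite (ResidueField 𝒪) _

/-- The inclusion `k → k[ε]` as an `𝒪`-algebra hom. -/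
def dualIncl : letI := dualAlgebra 𝒪
    ResidueField 𝒪 →ₐ[𝒪] DualNumber (ResidueField 𝒪) :=
  letI := dualAlgebra 𝒪
  { (algebraMap (ResidueField 𝒪) (DualNumber (ResidueField 𝒪))) with
    commutes' := fun _ => rfl }

variable {𝒪}
variable {A : Type} [CommRing A] [IsLocalRing A] [Algebra 𝒪 A] [IsResAlg 𝒪 A]

theorem ta2_exists_sub_mem (a : A) : ∃ x : 𝒪, a - algebraMap 𝒪 A x ∈ maximalIdeal A := by
  obtain ⟨x, hx⟩ := IsResAlg.residue_surjective (𝒪 := 𝒪) (A := A) (residue A a)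
  refine ⟨x, ?_⟩
  rw [← residue_eq_zero_iff, map_sub, sub_eq_zero]
  exact hx.symm

theorem ta2_algebraMap_mem {x : 𝒪} (hx : x ∈ maximalIdeal 𝒪) :
    algebraMap 𝒪 A x ∈ maximalIdeal A := by
  rw [mem_maximalIdeal, mem_nonunits_iff] at hx ⊢
  intro h
  exact hx (IsLocalHom.map_nonunit (f := algebraMap 𝒪 A) x h)

/-- Approximation step. -/
theorem ta2_approx (B : Subalgebra 𝒪 A)
    (H : ∀ a ∈ maximalIdeal A, ∃ b ∈ B, a - b ∈ maximalIdeal A ^ 2) :
    ∀ n : ℕ, ∀ c ∈ maximalIdeal A ^ (n + 1),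
      ∃ b ∈ B, b ∈ maximalIdeal A ^ (n + 1) ∧ c - b ∈ maximalIdeal A ^ (n + 2) := by
  intro n
  induction n with
  | zero =>
    intro c hc
    rw [zero_add, pow_one] at hc
    obtain ⟨b, hb, hcb⟩ := H c hc
    refine ⟨b, hb, ?_, hcb⟩
    rw [zero_add, pow_one]
    have : b = c - (c - b) := by ring
    rw [this]
    exact Ideal.sub_mem _ hc (Ideal.pow_le_self two_ne_zero hcb)
  | succ n ih =>
    intro c hc
    rw [pow_succ] at hc
    refine Submodule.mul_induction_on hc ?_ ?_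
    · intro x hx y hy
      obtain ⟨bx, hbx, hbxm, hxb⟩ := ih x hx
      obtain ⟨by', hby, hyb⟩ := H y hy
      have hbym : by' ∈ maximalIdeal A := by
        have : by' = y - (y - by') := by ring
        rw [this]
        exact Ideal.sub_mem _ hy (Ideal.pow_le_self two_ne_zero hyb)
      refine ⟨bx * by', B.mul_mem hbx hby, ?_, ?_⟩
      · rw [pow_succ]; exact Ideal.mul_mem_mul hbxm hbym
      · have e : x * y - bx * by' = (x - bx) * y + bx * (y - by') := by ring
        rw [e]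
        refine Ideal.add_mem _ ?_ ?_
        · have : maximalIdeal A ^ (n + 1 + 2) = maximalIdeal A ^ (n + 2) * maximalIdeal A := by
            rw [← pow_succ]
          rw [this]; exact Ideal.mul_mem_mul hxb hy
        · have : maximalIdeal A ^ (n + 1 + 2) = maximalIdeal A ^ (n + 1) * maximalIdeal A ^ 2 := by
            rw [← pow_add]
          rw [this]; exact Ideal.mul_mem_mul hbxm hyb
    · rintro x y ⟨bx, hbx, hbxm, hxb⟩ ⟨by', hby, hbym, hyb⟩
      refine ⟨bx + by', B.add_mem hbx hby, Ideal.add_mem _ hbxm hbym, ?_⟩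
      have e : x + y - (bx + by') = (x - bx) + (y - by') := by ring
      rw [e]; exact Ideal.add_mem _ hxb hyb

/-- If `B + m² ⊇ m` then `B = ⊤` (Artinian case). -/
theorem ta2_eq_top_of_approx [IsArtinianRing A] (B : Subalgebra 𝒪 A)
    (H : ∀ a ∈ maximalIdeal A, ∃ b ∈ B, a - b ∈ maximalIdeal A ^ 2) : B = ⊤ := by
  obtain ⟨N, hN⟩ := IsArtinianRing.isNilpotent_jacobson_bot (R := A)
  rw [jacobson_eq_maximalIdeal _ bot_ne_top, Ideal.zero_eq_bot] at hN
  have happ := ta2_approx B H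
  -- downward induction: `m^(n+1) ⊆ B`
  have key : ∀ d n : ℕ, n + d = N → ∀ c ∈ maximalIdeal A ^ (n + 1), c ∈ B := by
    intro d
    induction d with
    | zero =>
      intro n hn c hc
      have : maximalIdeal A ^ (n + 1) = ⊥ := by
        rw [add_zero] at hn
        rw [pow_succ, hn, hN, Ideal.bot_mul]
      rw [this, Ideal.mem_bot] at hc
      rw [hc]; exact B.zero_mem
    | succ d ih =>
      intro n hn c hc
      obtain ⟨b, hb, -, hcb⟩ := happ n c hc
      have h2 : c - b ∈ B := ih (n + 1) (by omega) (c - b) hcb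
      have : c = (c - b) + b := by ring
      rw [this]; exact B.add_mem h2 hb
  have hm : ∀ c ∈ maximalIdeal A, c ∈ B := by
    intro c hc
    exact key N 0 (by omega) c (by rwa [zero_add, pow_one])
  rw [eq_top_iff]
  intro a _
  obtain ⟨x, hx⟩ := ta2_exists_sub_mem (𝒪 := 𝒪) a
  have : a = (a - algebraMap 𝒪 A x) + algebraMap 𝒪 A x := by ring
  rw [this]
  exact B.add_mem (hm _ hx) (B.algebraMap_mem x)

/-- Key lemma: a proper subalgebra of an Artinian test algebra is detected by a tangent vector: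
there is an `𝒪`-algebra hom to `k[ε]` mapping `B` into `k` but not all of `A`. -/
theorem exists_algHom_dual_of_ne_top [IsArtinianRing A] (B : Subalgebra 𝒪 A) (hB : B ≠ ⊤) :
    letI := dualAlgebra 𝒪
    ∃ φ : A →ₐ[𝒪] DualNumber (ResidueField 𝒪),
      (∀ b ∈ B, φ b ∈ (algebraMap (ResidueField 𝒪) (DualNumber (ResidueField 𝒪))).range) ∧
      ∃ a : A, φ a ∉ (algebraMap (ResidueField 𝒪) (DualNumber (ResidueField 𝒪))).range := by
  classical
  letI := dualAlgebra 𝒪
  have hH : ¬ ∀ a ∈ maximalIdeal A, ∃ b ∈ B, a - b ∈ maximalIdeal A ^ 2 :=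
    fun H => hB (ta2_eq_top_of_approx B H)
  push Not at hH
  obtain ⟨a₀, ha₀m, ha₀⟩ := hH
  let U : Submodule 𝒪 A := Subalgebra.toSubmodule B ⊔ ((maximalIdeal A ^ 2).restrictScalars 𝒪)
  have hBU : ∀ b ∈ B, b ∈ U := fun b hb => Submodule.mem_sup_left hb
  have hm2U : ∀ c ∈ maximalIdeal A ^ 2, c ∈ U := fun c hc => Submodule.mem_sup_right hc
  have ha₀U : a₀ ∉ U := by
    intro h
    obtain ⟨b, hb, c, hc, hbc⟩ := Submodule.mem_sup.mp h
    apply ha₀ b hb
    have : a₀ - b = c := by rw [← hbc]; ring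
    rw [this]; exact hc
  -- elements `s(x) * a` with `x ∈ m_𝒪` lie in `U`
  have hsmulU : ∀ x ∈ maximalIdeal 𝒪, ∀ a : A, x • a ∈ U := by
    intro x hx a
    obtain ⟨y, hy⟩ := ta2_exists_sub_mem (𝒪 := 𝒪) a
    have e : x • a = algebraMap 𝒪 A (x * y) + algebraMap 𝒪 A x * (a - algebraMap 𝒪 A y) := by
      rw [Algebra.smul_def, map_mul]; ring
    rw [e]
    refine U.add_mem (hBU _ (B.algebraMap_mem _)) (hm2U _ ?_)
    rw [pow_two]
    exact Ideal.mul_mem_mul (ta2_algebraMap_mem hx) hy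
  have htors : Module.IsTorsionBySet 𝒪 (A ⧸ U) (maximalIdeal 𝒪 : Set 𝒪) := by
    intro q x
    obtain ⟨a, rfl⟩ := Submodule.Quotient.mk_surjective U q
    rw [← Submodule.Quotient.mk_smul, Submodule.Quotient.mk_eq_zero]
    exact hsmulU x.1 x.2 a
  letI : Module (ResidueField 𝒪) (A ⧸ U) := htors.module
  have hne : (Submodule.Quotient.mk a₀ : A ⧸ U) ≠ 0 := by
    rw [ne_eq, Submodule.Quotient.mk_eq_zero]; exact ha₀U
  obtain ⟨f, hf⟩ := Module.Projective.exists_dual_ne_zero (ResidueField 𝒪) hne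
  let lam : A → ResidueField 𝒪 := fun a => f (Submodule.Quotient.mk a)
  have lam_add : ∀ a b, lam (a + b) = lam a + lam b := fun a b => by
    simp only [lam, Submodule.Quotient.mk_add, map_add]
  have lam_U : ∀ u ∈ U, lam u = 0 := fun u hu => by
    simp only [lam, (Submodule.Quotient.mk_eq_zero U).mpr hu, map_zero]
  have lam_smul : ∀ (x : 𝒪) (a : A), lam (algebraMap 𝒪 A x * a) = residue 𝒪 x * lam a := by
    intro x a
    have h1 : (Submodule.Quotient.mk (algebraMap 𝒪 A x * a) : A ⧸ U)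
        = (residue 𝒪 x) • (Submodule.Quotient.mk a : A ⧸ U) := by
      rw [← Algebra.smul_def, Submodule.Quotient.mk_smul]
      rfl
    simp only [lam, h1, map_smul, smul_eq_mul]
  have lam_sub : ∀ a b, lam (a - b) = lam a - lam b := fun a b => by
    have := lam_add (a - b) b
    rw [sub_add_cancel] at this
    rw [this]; ring
  have resK_alg : ∀ x : 𝒪, resK 𝒪 A (algebraMap 𝒪 A x) = residue 𝒪 x := fun x =>
    (resK 𝒪 A).commutes x
  have lam_alg : ∀ x : 𝒪, lam (algebraMap 𝒪 A x) = 0 := fun x =>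
    lam_U _ (hBU _ (B.algebraMap_mem x))
  -- derivation property
  have lam_mul : ∀ a b, lam (a * b) = resK 𝒪 A a * lam b + resK 𝒪 A b * lam a := by
    intro a b
    obtain ⟨x, hx⟩ := ta2_exists_sub_mem (𝒪 := 𝒪) a
    obtain ⟨y, hy⟩ := ta2_exists_sub_mem (𝒪 := 𝒪) b
    set a' := a - algebraMap 𝒪 A x with ha'
    set b' := b - algebraMap 𝒪 A y with hb'
    have ea : a = algebraMap 𝒪 A x + a' := by rw [ha']; ring
    have eb : b = algebraMap 𝒪 A y + b' := by rw [hb']; ring
    have hra : resK 𝒪 A a = residue 𝒪 x := by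
      rw [ea, map_add, resK_alg, (resK_eq_zero_iff 𝒪 A a').mpr hx, add_zero]
    have hrb : resK 𝒪 A b = residue 𝒪 y := by
      rw [eb, map_add, resK_alg, (resK_eq_zero_iff 𝒪 A b').mpr hy, add_zero]
    have hla : lam a = lam a' := by rw [ea, lam_add, lam_alg, zero_add]
    have hlb : lam b = lam b' := by rw [eb, lam_add, lam_alg, zero_add]
    have e : a * b = algebraMap 𝒪 A (x * y) + algebraMap 𝒪 A x * b' + algebraMap 𝒪 A y * a'
        + a' * b' := by
      rw [ea, eb, map_mul]; ring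
    have h4 : lam (a' * b') = 0 :=
      lam_U _ (hm2U _ (by rw [pow_two]; exact Ideal.mul_mem_mul hx hy))
    rw [e, lam_add, lam_add, lam_add, lam_alg, lam_smul, lam_smul, h4, hra, hrb, hla, hlb]
    ring
  let φ : A →ₐ[𝒪] DualNumber (ResidueField 𝒪) :=
    { toFun := fun a => TrivSqZeroExt.inl (resK 𝒪 A a) + TrivSqZeroExt.inr (lam a)
      map_one' := by
        have : lam 1 = 0 := lam_U _ (hBU _ B.one_mem)
        rw [this, map_one, TrivSqZeroExt.inr_zero, add_zero, TrivSqZeroExt.inl_one]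
      map_mul' := fun a b => by
        apply TrivSqZeroExt.ext <;> simp [lam_mul, mul_comm]
      map_zero' := by
        have : lam 0 = 0 := lam_U _ U.zero_mem
        rw [this, map_zero, TrivSqZeroExt.inr_zero, add_zero, TrivSqZeroExt.inl_zero]
      map_add' := fun a b => by
        rw [lam_add, map_add, TrivSqZeroExt.inl_add, TrivSqZeroExt.inr_add]; abel
      commutes' := fun x => by
        rw [lam_alg, resK_alg, TrivSqZeroExt.inr_zero, add_zero]
        rfl }
  have hφ : ∀ a, φ a = TrivSqZeroExt.inl (resK 𝒪 A a) + TrivSqZeroExt.inr (lam a) := fun _ => rfl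
  have hrange : ∀ a, φ a ∈ (algebraMap (ResidueField 𝒪) (DualNumber (ResidueField 𝒪))).range ↔
      lam a = 0 := by
    intro a
    constructor
    · rintro ⟨c, hc⟩
      have h1 := congrArg TrivSqZeroExt.snd hc
      have h2 : (algebraMap (ResidueField 𝒪) (DualNumber (ResidueField 𝒪)) c).snd = 0 := rfl
      rw [hφ, h2] at h1
      simpa using h1.symm
    · intro h
      refine ⟨resK 𝒪 A a, ?_⟩
      rw [hφ, h, TrivSqZeroExt.inr_zero, add_zero]
      rfl
  refine ⟨φ, fun b hb => (hrange b).mpr (lam_U _ (hBU b hb)), a₀, fun h => hf ((hrange a₀).mp h)⟩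


end Dual

end

end Fermat.Agent.S53
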