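import Fermat.Agent.S53.Defs
import Fermat.Agent.S53.Dict
import Fermat.Agent.S53.Dict2
import Fermat.Agent.S53.TestAlg
import Fermat.Agent.S53.TestAlg2
import Fermat.Agent.S53.NormalForm

set_option autoImplicit false

/-!
Functoriality of normalised `𝒟`-lifts, from the axioms `IsDeformationCondition`.  OWNER: helper19.
-/

namespace Fermat.Agent.S53

open IsLocalRing

set_option linter.unusedSectionVars false

noncomputable section

section Aux

theorem ofMat_congr {R : Type} [CommRing R] [IsLocalRing R] {M M' : GQ →* M2 R} (h : M = M')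
    (hM : MatCont M) (hM' : MatCont M') : ofMat M hM = ofMat M' hM' := by
  subst h
  rfl

theorem isEquiv_symm {R : Type} [CommRing R] [IsLocalRing R] {ρ ρ' : GaloisRepAdic R}
    (h : ρ.IsEquiv ρ') : ρ'.IsEquiv ρ := by
  obtain ⟨e⟩ := h
  exact ⟨e.symm⟩

theorem isEquiv_trans {R : Type} [CommRing R] [IsLocalRing R] {ρ ρ' ρ'' : GaloisRepAdic R}
    (h : ρ.IsEquiv ρ') (h' : ρ'.IsEquiv ρ'') : ρ.IsEquiv ρ'' := by
  obtain ⟨e⟩ := h
  obtain ⟨e'⟩ := h'
  exact ⟨e.trans e'⟩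

end Aux

variable {𝒪 : Type} [CommRing 𝒪] [IsLocalRing 𝒪]
  {ρbar : ResidualGaloisRep (ResidueField 𝒪)} (N : NormDatum 𝒪 ρbar)
  {𝒟 : ∀ ⦃A : Type⦄ [CommRing A] [IsLocalRing A] [Algebra 𝒪 A], GaloisRepAdic A → Prop}

section Lift

variable {A B : Type} [CommRing A] [IsLocalRing A] [Algebra 𝒪 A] [IsResAlg 𝒪 A]
  [CommRing B] [IsLocalRing B] [Algebra 𝒪 B] [IsResAlg 𝒪 B]

theorem IsNormLift.map (φ : A →ₐ[𝒪] B) {M : GQ →* M2 A} (h : IsNormLift N A M) :
    IsNormLift N B (mapMat φ.toRingHom M) where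
  cont := h.cont.map φ.toRingHom (algHom_isLocalHom φ)
  res σ i j := by
    rw [mapMat_apply]
    exact (resK_comp φ (M σ i j)).trans (h.res σ i j)
  g0_00 := by
    rw [mapMat_apply, h.g0_00]
    exact map_zero φ
  g0_10 := by
    rw [mapMat_apply, h.g0_10]
    exact map_one φ
  g1_ij := by
    rw [mapMat_apply, h.g1_ij]
    exact φ.commutes N.c0

/-- For an injective hom between Artinian algebras, normalisedness descends. -/
theorem IsNormLift.of_injective [IsArtinianRing A] [IsArtinianRing B] (φ : A →ₐ[𝒪] B)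
    (hφ : Function.Injective φ) {M : GQ →* M2 A} (h : IsNormLift N B (mapMat φ.toRingHom M)) :
    IsNormLift N A M where
  cont := by
    rw [matCont_iff_of_isArtinianRing A]
    obtain ⟨L, hL, hσ⟩ := (matCont_iff_of_isArtinianRing B _).mp h.cont
    refine ⟨L, hL, fun σ hx => ?_⟩
    have h1 := hσ σ hx
    ext i j
    apply hφ
    have h2 := congrFun (congrFun h1 i) j
    rw [mapMat_apply] at h2
    rw [Matrix.one_apply] at h2 ⊢
    split_ifs at h2 ⊢ with hij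
    · rw [map_one]; exact h2
    · rw [map_zero]; exact h2
  res σ i j := by
    rw [← resK_comp φ (M σ i j)]
    exact h.res σ i j
  g0_00 := by
    apply hφ
    rw [map_zero]
    exact h.g0_00
  g0_10 := by
    apply hφ
    rw [map_one]
    exact h.g0_10
  g1_ij := by
    apply hφ
    rw [φ.commutes]
    exact h.g1_ij

theorem isNormLift_rbar : IsNormLift N (ResidueField 𝒪) N.rbar where
  cont := matCont_rbar N
  res σ i j := resK_residueField 𝒪 (N.rbar σ i j)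
  g0_00 := N.rbar_g0_00
  g0_10 := N.rbar_g0_10
  g1_ij := by
    rw [IsLocalRing.ResidueField.algebraMap_eq]
    exact N.c0_spec.symm

end Lift

section FibMat

variable {A B : Type} [CommRing A] [IsLocalRing A] [Algebra 𝒪 A] [IsResAlg 𝒪 A]
  [CommRing B] [IsLocalRing B] [Algebra 𝒪 B] [IsResAlg 𝒪 B]

variable {N}

/-- The pair of two normalised lifts, as a matrix representation over the fibre product. -/
def fibMat {MA : GQ →* M2 A} {MB : GQ →* M2 B} (hA : IsNormLift N A MA) (hB : IsNormLift N B MB) :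
    GQ →* M2 (fibProd 𝒪 A B) where
  toFun σ := Matrix.of fun i j => ⟨(MA σ i j, MB σ i j), by
    rw [mem_fibProd]
    exact (hA.res σ i j).trans (hB.res σ i j).symm⟩
  map_one' := by
    ext i j
    · simp only [Matrix.of_apply, map_one, Matrix.one_apply]
      split_ifs <;> rfl
    · simp only [Matrix.of_apply, map_one, Matrix.one_apply]
      split_ifs <;> rfl
  map_mul' σ τ := by
    ext i j
    · simp only [Matrix.of_apply, map_mul, Matrix.mul_apply, Fin.sum_univ_two]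
      rfl
    · simp only [Matrix.of_apply, map_mul, Matrix.mul_apply, Fin.sum_univ_two]
      rfl

theorem fibMat_apply {MA : GQ →* M2 A} {MB : GQ →* M2 B} (hA : IsNormLift N A MA)
    (hB : IsNormLift N B MB) (σ : GQ) (i j : Fin 2) :
    ((fibMat hA hB σ i j : fibProd 𝒪 A B) : A × B) = (MA σ i j, MB σ i j) := rfl

theorem mapMat_fibFst_fibMat {MA : GQ →* M2 A} {MB : GQ →* M2 B} (hA : IsNormLift N A MA)
    (hB : IsNormLift N B MB) : mapMat (fibFst 𝒪 A B).toRingHom (fibMat hA hB) = MA := by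
  ext σ i j
  rfl

theorem mapMat_fibSnd_fibMat {MA : GQ →* M2 A} {MB : GQ →* M2 B} (hA : IsNormLift N A MA)
    (hB : IsNormLift N B MB) : mapMat (fibSnd 𝒪 A B).toRingHom (fibMat hA hB) = MB := by
  ext σ i j
  rfl

theorem isNormLift_fibMat [Finite (ResidueField 𝒪)] [IsArtinianRing A] [IsArtinianRing B]
    {MA : GQ →* M2 A} {MB : GQ →* M2 B} (hA : IsNormLift N A MA) (hB : IsNormLift N B MB) :
    IsNormLift N (fibProd 𝒪 A B) (fibMat hA hB) where
  cont := by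
    have := fibProd_isArtinianRing (𝒪 := 𝒪) (A := A) (B := B)
    rw [matCont_iff_of_isArtinianRing (fibProd 𝒪 A B)]
    obtain ⟨LA, hLA, hσA⟩ := (matCont_iff_of_isArtinianRing A _).mp hA.cont
    obtain ⟨LB, hLB, hσB⟩ := (matCont_iff_of_isArtinianRing B _).mp hB.cont
    refine ⟨LA ⊔ LB, IntermediateField.finiteDimensional_sup LA LB, fun σ hx => ?_⟩
    have h1 := hσA σ (fun x hxA => hx x ((le_sup_left : LA ≤ LA ⊔ LB) hxA))
    have h2 := hσB σ (fun x hxB => hx x ((le_sup_right : LB ≤ LA ⊔ LB) hxB))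
    ext i j
    · show MA σ i j = ((1 : M2 (fibProd 𝒪 A B)) i j : A × B).1
      rw [h1, Matrix.one_apply, Matrix.one_apply]
      split_ifs <;> rfl
    · show MB σ i j = ((1 : M2 (fibProd 𝒪 A B)) i j : A × B).2
      rw [h2, Matrix.one_apply, Matrix.one_apply]
      split_ifs <;> rfl
  res σ i j := by
    rw [← resK_comp (fibFst 𝒪 A B) (fibMat hA hB σ i j)]
    exact hA.res σ i j
  g0_00 := by
    apply Subtype.ext
    rw [fibMat_apply, hA.g0_00, hB.g0_00]
    rfl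
  g0_10 := by
    apply Subtype.ext
    rw [fibMat_apply, hA.g0_10, hB.g0_10]
    rfl
  g1_ij := by
    apply Subtype.ext
    rw [fibMat_apply, hA.g1_ij, hB.g1_ij]
    rfl

end FibMat

variable (h𝒟 : GaloisRep.IsDeformationCondition 𝒪 𝒟)
include h𝒟

section DLift

variable {A B : Type} [CommRing A] [IsLocalRing A] [Algebra 𝒪 A] [IsResAlg 𝒪 A]
  [CommRing B] [IsLocalRing B] [Algebra 𝒪 B] [IsResAlg 𝒪 B]

/-- `𝒟` only depends on the conjugacy class (Artinian case). -/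
theorem D_of_matConj [IsArtinianRing A] {M M' : GQ →* M2 A} (hM : MatCont M) (hM' : MatCont M')
    (hc : MatConj M M') (hD : 𝒟 (ofMat M hM)) : 𝒟 (ofMat M' hM') :=
  h𝒟.of_isEquiv (isArtinianTestAlgebra_of 𝒪 A) ((ofMat_isEquiv_iff hM hM').mpr hc) hD

theorem IsNormDLift.map [IsArtinianRing A] [IsArtinianRing B] (φ : A →ₐ[𝒪] B) {M : GQ →* M2 A}
    (h : IsNormDLift N 𝒟 A M) : IsNormDLift N 𝒟 B (mapMat φ.toRingHom M) := by
  obtain ⟨hn, hD⟩ := h
  refine ⟨hn.map N φ, ?_⟩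
  have h1 := h𝒟.baseChangeAlong (isArtinianTestAlgebra_of 𝒪 A) (isArtinianTestAlgebra_of 𝒪 B) φ
    (algHom_isLocalHom φ) hD
  exact h𝒟.of_isEquiv (isArtinianTestAlgebra_of 𝒪 B)
    (ofMat_baseChangeAlong φ.toRingHom (algHom_isLocalHom φ) hn.cont) h1

theorem IsNormDLift.of_injective [IsArtinianRing A] [IsArtinianRing B] (φ : A →ₐ[𝒪] B)
    (hφ : Function.Injective φ) {M : GQ →* M2 A}
    (h : IsNormDLift N 𝒟 B (mapMat φ.toRingHom M)) : IsNormDLift N 𝒟 A M := by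
  obtain ⟨hn, hD⟩ := h
  have hnA := IsNormLift.of_injective N φ hφ hn
  refine ⟨hnA, ?_⟩
  apply h𝒟.of_baseChangeAlong_injective (isArtinianTestAlgebra_of 𝒪 A)
    (isArtinianTestAlgebra_of 𝒪 B) φ (algHom_isLocalHom φ) hφ
  exact h𝒟.of_isEquiv (isArtinianTestAlgebra_of 𝒪 B)
    (isEquiv_symm (ofMat_baseChangeAlong φ.toRingHom (algHom_isLocalHom φ) hnA.cont)) hD

/-- Descent to a subalgebra containing all matrix entries. -/
theorem IsNormDLift.restrict [Finite (ResidueField 𝒪)] [IsArtinianRing B] {M : GQ →* M2 B}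
    (h : IsNormDLift N 𝒟 B M) (C : Subalgebra 𝒪 B) (hC : ∀ σ i j, M σ i j ∈ C) :
    ∃ M' : GQ →* M2 C,
      @IsNormDLift 𝒪 _ _ ρbar N 𝒟 C _ (sub_isLocalRing C) _ (sub_isResAlg C) M' ∧
        ∀ σ i j, ((M' σ i j : C) : B) = M σ i j := by
  let _ := sub_isLocalRing C
  let _ := sub_isResAlg C
  have := sub_isArtinianRing C
  let M' : GQ →* M2 C :=
    { toFun := fun σ => Matrix.of fun i j => ⟨M σ i j, hC σ i j⟩
      map_one' := by
        ext i j
        simp only [Matrix.of_apply, map_one, Matrix.one_apply]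
        split_ifs <;> rfl
      map_mul' := fun σ τ => by
        ext i j
        simp only [Matrix.of_apply, map_mul, Matrix.mul_apply, Fin.sum_univ_two]
        rfl }
  have hM' : mapMat C.val.toRingHom M' = M := by
    ext σ i j
    rfl
  refine ⟨M', ?_, fun σ i j => rfl⟩
  apply IsNormDLift.of_injective N h𝒟 C.val Subtype.val_injective
  rw [hM']
  exact h

/-- Fibre products. -/
theorem IsNormDLift.prod [Finite (ResidueField 𝒪)] [IsArtinianRing A] [IsArtinianRing B]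
    {MA : GQ →* M2 A} {MB : GQ →* M2 B} (hA : IsNormDLift N 𝒟 A MA) (hB : IsNormDLift N 𝒟 B MB) :
    ∃ M : GQ →* M2 (fibProd 𝒪 A B), IsNormDLift N 𝒟 (fibProd 𝒪 A B) M ∧
      mapMat (fibFst 𝒪 A B).toRingHom M = MA ∧ mapMat (fibSnd 𝒪 A B).toRingHom M = MB := by
  obtain ⟨hnA, hDA⟩ := hA
  obtain ⟨hnB, hDB⟩ := hB
  have := fibProd_isArtinianRing (𝒪 := 𝒪) (A := A) (B := B)
  have hP := isNormLift_fibMat hnA hnB
  refine ⟨fibMat hnA hnB, ⟨hP, ?_⟩, mapMat_fibFst_fibMat hnA hnB, mapMat_fibSnd_fibMat hnA hnB⟩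
  have tA := isArtinianTestAlgebra_of 𝒪 A
  have tB := isArtinianTestAlgebra_of 𝒪 B
  have tP := isArtinianTestAlgebra_of 𝒪 (fibProd 𝒪 A B)
  have tK := isArtinianTestAlgebra_of 𝒪 (ResidueField 𝒪)
  refine h𝒟.of_fibreProduct tA tB tK tP (resK 𝒪 A) (resK 𝒪 B) (fibFst 𝒪 A B) (fibSnd 𝒪 A B)
    (algHom_isLocalHom (fibFst 𝒪 A B)) (algHom_isLocalHom (fibSnd 𝒪 A B)) ?_ ?_ ?_ ?_ ?_
  · ext x
    exact x.2
  · intro x y hxy
    apply Subtype.ext
    exact hxy
  · intro a b hab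
    exact ⟨⟨(a, b), hab⟩, rfl, rfl⟩
  · have e := ofMat_baseChangeAlong (fibFst 𝒪 A B).toRingHom
      (algHom_isLocalHom (fibFst 𝒪 A B)) hP.cont
    rw [ofMat_congr (mapMat_fibFst_fibMat hnA hnB) _ hnA.cont] at e
    exact h𝒟.of_isEquiv tA (isEquiv_symm e) hDA
  · have e := ofMat_baseChangeAlong (fibSnd 𝒪 A B).toRingHom
      (algHom_isLocalHom (fibSnd 𝒪 A B)) hP.cont
    rw [ofMat_congr (mapMat_fibSnd_fibMat hnA hnB) _ hnB.cont] at e
    exact h𝒟.of_isEquiv tB (isEquiv_symm e) hDB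

/-- The base point. -/
theorem isNormDLift_rbar (hbar : 𝒟 (GaloisRepAdic.ofResidualGaloisRep ρbar)) :
    IsNormDLift N 𝒟 (ResidueField 𝒪) N.rbar :=
  ⟨isNormLift_rbar N, h𝒟.of_isEquiv (isArtinianTestAlgebra_of 𝒪 (ResidueField 𝒪))
    (ofResidual_isEquiv_ofMat N) hbar⟩

end DLift

section CNL

variable {A : Type} [CommRing A] [IsLocalRing A] [Algebra 𝒪 A] [IsResAlg 𝒪 A]
  [IsNoetherianRing A] [IsAdicComplete (maximalIdeal A) A]

/-- Over a complete Noetherian local ring `𝒟` only depends on the isomorphism class. -/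
theorem D_of_isEquiv_cnl {ρ ρ' : GaloisRepAdic A} (h : ρ.IsEquiv ρ') (hD : 𝒟 ρ) : 𝒟 ρ' := by
  rw [h𝒟.iff_forall_surjective (IsResAlg.isLocalHom (𝒪 := 𝒪) (A := A))
    (IsResAlg.residue_surjective (𝒪 := 𝒪) (A := A))] at hD ⊢
  intro B _ _ _ tB q hq hsurj
  exact h𝒟.of_isEquiv tB (IsEquiv.baseChangeAlong' (q : A →+* B) hq h) (hD tB q hq hsurj)

/-- Reduction modulo powers of the maximal ideal. -/
theorem IsNormDLift.quotPow {M : GQ →* M2 A} (hM : IsNormLift N A M) (hD : 𝒟 (ofMat M hM.cont))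
    (n : ℕ) :
    IsNormDLift N 𝒟 (A ⧸ maximalIdeal A ^ (n + 1))
      (mapMat (Ideal.Quotient.mk (maximalIdeal A ^ (n + 1))) M) := by
  have hq : IsLocalHom (Ideal.Quotient.mkₐ 𝒪 (maximalIdeal A ^ (n + 1))).toRingHom :=
    algHom_isLocalHom (Ideal.Quotient.mkₐ 𝒪 (maximalIdeal A ^ (n + 1)))
  refine ⟨hM.map N (Ideal.Quotient.mkₐ 𝒪 (maximalIdeal A ^ (n + 1))), ?_⟩
  have h1 := (h𝒟.iff_forall_surjective (IsResAlg.isLocalHom (𝒪 := 𝒪) (A := A))
    (IsResAlg.residue_surjective (𝒪 := 𝒪) (A := A)) (ofMat M hM.cont)).mp hD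
    (isArtinianTestAlgebra_of 𝒪 (A ⧸ maximalIdeal A ^ (n + 1)))
    (Ideal.Quotient.mkₐ 𝒪 (maximalIdeal A ^ (n + 1))) hq
    (Ideal.Quotient.mkₐ_surjective 𝒪 _)
  exact h𝒟.of_isEquiv (isArtinianTestAlgebra_of 𝒪 (A ⧸ maximalIdeal A ^ (n + 1)))
    (ofMat_baseChangeAlong (Ideal.Quotient.mkₐ 𝒪 (maximalIdeal A ^ (n + 1))).toRingHom hq
      hM.cont) h1

/-- `𝒟` can be checked modulo all powers of the maximal ideal. -/
theorem D_of_forall_quotPow {M : GQ →* M2 A} (hM : MatCont M)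
    (h : ∀ n : ℕ, 𝒟 (ofMat (mapMat (Ideal.Quotient.mk (maximalIdeal A ^ (n + 1))) M)
      (hM.map _ inferInstance))) : 𝒟 (ofMat M hM) := by
  rw [h𝒟.iff_forall_surjective (IsResAlg.isLocalHom (𝒪 := 𝒪) (A := A))
    (IsResAlg.residue_surjective (𝒪 := 𝒪) (A := A))]
  intro B _ _ _ tB q hq _
  have : IsResAlg 𝒪 B := isResAlg_of_isArtinianTestAlgebra 𝒪 B tB
  have : IsArtinianRing B := tB.isArtinian
  have : IsLocalHom (q : A →+* B) := hq
  obtain ⟨n, hker⟩ := exists_pow_le_ker A (q : A →+* B)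
  let q' : A ⧸ maximalIdeal A ^ (n + 1) →ₐ[𝒪] B :=
    Ideal.Quotient.liftₐ (maximalIdeal A ^ (n + 1)) q (fun a ha => hker ha)
  have hq' : IsLocalHom q'.toRingHom := algHom_isLocalHom q'
  have h1 := h𝒟.baseChangeAlong (isArtinianTestAlgebra_of 𝒪 (A ⧸ maximalIdeal A ^ (n + 1))) tB q'
    hq' (h n)
  have h2 := h𝒟.of_isEquiv tB (ofMat_baseChangeAlong q'.toRingHom hq' (hM.map _ inferInstance)) h1
  have e : mapMat q'.toRingHom (mapMat (Ideal.Quotient.mk (maximalIdeal A ^ (n + 1))) M) =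
      mapMat (q : A →+* B) M := by
    rw [mapMat_comp]
    rfl
  rw [ofMat_congr e _ (hM.map (q : A →+* B) hq)] at h2
  exact h𝒟.of_isEquiv tB (isEquiv_symm (ofMat_baseChangeAlong (q : A →+* B) hq hM)) h2

end CNL

end

end Fermat.Agent.S53
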