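import Fermat.Agent.S53.Tangent
import Fermat.Agent.S53.NormFunctor

set_option autoImplicit false

/-!
Finitely many matrix entries generate everything.
-/

namespace Fermat.Agent.S53

open IsLocalRing

set_option linter.unusedSectionVars false
set_option linter.style.haveILetI false

noncomputable section

variable {𝒪 : Type} [CommRing 𝒪] [IsLocalRing 𝒪]
  {ρbar : ResidualGaloisRep (ResidueField 𝒪)} (N : NormDatum 𝒪 ρbar)
  {𝒟 : ∀ ⦃A : Type⦄ [CommRing A] [IsLocalRing A] [Algebra 𝒪 A], GaloisRepAdic A → Prop}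

/-- Index type of matrix entries. -/
abbrev Entry : Type := GQ × Fin 2 × Fin 2

/-- The entry of a matrix representation at an index. -/
def entry {A : Type} [CommRing A] (M : GQ →* M2 A) (s : Entry) : A := M s.1 s.2.1 s.2.2

theorem eq_of_forall_entry_eq {A : Type} [CommRing A] {M M' : GQ →* M2 A}
    (h : ∀ s : Entry, entry M s = entry M' s) : M = M' := by
  ext σ i j
  exact h (σ, i, j)

/-- `S` separates the normalised `𝒟`-lifts over `k[ε]`. -/
def Separates (S : Finset Entry) : Prop :=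
  letI := dualAlgebra 𝒪
  haveI := dual_isResAlg 𝒪
  ∀ M M' : GQ →* M2 (DualNumber (ResidueField 𝒪)),
    IsNormDLift N 𝒟 (DualNumber (ResidueField 𝒪)) M →
    IsNormDLift N 𝒟 (DualNumber (ResidueField 𝒪)) M' →
    (∀ s ∈ S, entry M s = entry M' s) → M = M'

/-- From finiteness of the set of lifts over `k[ε]`. -/
theorem exists_separates (hfin : GaloisRep.TangentFinite 𝒪 ρbar 𝒟) :
    ∃ S : Finset Entry, Separates N (𝒟 := 𝒟) S := by
  classical
  haveI : Finite (DualLifts N (𝒟 := 𝒟)) := finite_dualLifts N hfin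
  haveI : Fintype (DualLifts N (𝒟 := 𝒟)) := Fintype.ofFinite _
  letI := dualAlgebra 𝒪
  haveI := dual_isResAlg 𝒪
  have hex : ∀ p : DualLifts N (𝒟 := 𝒟) × DualLifts N (𝒟 := 𝒟), p.1.1 ≠ p.2.1 →
      ∃ s : Entry, entry p.1.1 s ≠ entry p.2.1 s := by
    intro p hp
    by_contra hcon
    push Not at hcon
    exact hp (eq_of_forall_entry_eq hcon)
  let f : DualLifts N (𝒟 := 𝒟) × DualLifts N (𝒟 := 𝒟) → Entry := fun p =>
    if hp : p.1.1 = p.2.1 then ((1 : GQ), 0, 0) else Classical.choose (hex p hp)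
  refine ⟨Finset.univ.image f, ?_⟩
  intro M M' hM hM' hagree
  by_contra hne
  let p : DualLifts N (𝒟 := 𝒟) × DualLifts N (𝒟 := 𝒟) := (⟨M, hM⟩, ⟨M', hM'⟩)
  have hp : p.1.1 ≠ p.2.1 := hne
  have hspec := Classical.choose_spec (hex p hp)
  have hf : f p = Classical.choose (hex p hp) := dif_neg hp
  have hmem : f p ∈ Finset.univ.image f := Finset.mem_image_of_mem f (Finset.mem_univ p)
  have := hagree (f p) hmem
  rw [hf] at this
  exact hspec this

variable (h𝒟 : GaloisRep.IsDeformationCondition 𝒪 𝒟)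
  (hbar : 𝒟 (GaloisRepAdic.ofResidualGaloisRep ρbar))
  [Finite (ResidueField 𝒪)]
  {S : Finset Entry} (hS : Separates N (𝒟 := 𝒟) S)
include h𝒟 hbar hS

variable {A : Type} [CommRing A] [IsLocalRing A] [Algebra 𝒪 A] [IsResAlg 𝒪 A] [IsArtinianRing A]

/-- Claim D: the separating entries generate all entries. -/
theorem entry_mem_adjoin {M : GQ →* M2 A} (hM : IsNormDLift N 𝒟 A M) (t : Entry) :
    entry M t ∈ Algebra.adjoin 𝒪 ((fun s : S => entry M s.1) '' Set.univ) := by
  classical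
  let C : Subalgebra 𝒪 A := Algebra.adjoin 𝒪 (Set.range (entry M))
  have hC : ∀ σ i j, M σ i j ∈ C := fun σ i j => Algebra.subset_adjoin ⟨(σ, i, j), rfl⟩
  letI := sub_isLocalRing C
  haveI := sub_isResAlg C
  haveI := sub_isArtinianRing C
  obtain ⟨M', hM', hMM'⟩ := IsNormDLift.restrict N h𝒟 hM C hC
  have hentry : ∀ s : Entry, ((entry M' s : C) : A) = entry M s := fun s => hMM' s.1 s.2.1 s.2.2
  let B : Subalgebra 𝒪 C := Algebra.adjoin 𝒪 (Set.range fun s : S => entry M' s.1)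
  have hCgen : Algebra.adjoin 𝒪 (Set.range (entry M')) = ⊤ := by
    have hpre : Set.range (entry M') = ((↑) ⁻¹' (Set.range (entry M)) : Set C) := by
      ext x
      constructor
      · rintro ⟨s, rfl⟩
        exact ⟨s, (hentry s).symm⟩
      · rintro ⟨s, hs⟩
        exact ⟨s, Subtype.ext ((hentry s).trans hs)⟩
    rw [hpre]
    exact Algebra.adjoin_adjoin_coe_preimage
  have hBtop : B = ⊤ := by
    by_contra hB
    letI := dualAlgebra 𝒪
    haveI := dual_isResAlg 𝒪
    haveI := dual_isArtinianRing 𝒪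
    obtain ⟨φ, hφB, a, ha⟩ := exists_algHom_dual_of_ne_top B hB
    let ψ : C →ₐ[𝒪] DualNumber (ResidueField 𝒪) := (dualIncl 𝒪).comp (resK 𝒪 C)
    have h1 : IsNormDLift N 𝒟 (DualNumber (ResidueField 𝒪)) (mapMat φ.toRingHom M') :=
      IsNormDLift.map N h𝒟 φ hM'
    have h2 : IsNormDLift N 𝒟 (DualNumber (ResidueField 𝒪)) (mapMat ψ.toRingHom M') :=
      IsNormDLift.map N h𝒟 ψ hM'
    have hφb : ∀ b ∈ B, φ b = ψ b := by
      intro b hb
      obtain ⟨x, hx⟩ := hφB b hb
      have hx' : φ b = dualIncl 𝒪 x := hx.symm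
      have e1 : resK 𝒪 (DualNumber (ResidueField 𝒪)) (φ b) = resK 𝒪 C b := resK_comp φ b
      have e2 : resK 𝒪 (DualNumber (ResidueField 𝒪)) (dualIncl 𝒪 x) = x := by
        rw [resK_comp (dualIncl 𝒪) x, resK_residueField]
      rw [hx'] at e1
      rw [e2] at e1
      show φ b = dualIncl 𝒪 (resK 𝒪 C b)
      rw [hx', e1]
    have heq : mapMat φ.toRingHom M' = mapMat ψ.toRingHom M' := by
      apply hS _ _ h1 h2
      intro s hs
      show φ (entry M' s) = ψ (entry M' s)
      apply hφb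
      exact Algebra.subset_adjoin ⟨⟨s, hs⟩, rfl⟩
    have hφψ : φ = ψ := by
      apply AlgHom.ext_of_adjoin_eq_top hCgen
      rintro _ ⟨s, rfl⟩
      have := congrArg (fun R : GQ →* M2 (DualNumber (ResidueField 𝒪)) => entry R s) heq
      exact this
    apply ha
    rw [hφψ]
    exact ⟨resK 𝒪 C a, rfl⟩
  have hmem : entry M' t ∈ B := by
    rw [hBtop]
    exact Algebra.mem_top
  have hmap : C.val (entry M' t) ∈ (B.map C.val) := Subalgebra.mem_map.mpr ⟨_, hmem, rfl⟩
  have himg : C.val '' (Set.range fun s : S => entry M' s.1)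
      = (fun s : S => entry M s.1) '' Set.univ := by
    ext x
    constructor
    · rintro ⟨_, ⟨s, rfl⟩, rfl⟩
      exact ⟨s, Set.mem_univ _, (hentry s.1).symm⟩
    · rintro ⟨s, _, rfl⟩
      exact ⟨entry M' s.1, ⟨s, rfl⟩, hentry s.1⟩
  have hBmap : B.map C.val = Algebra.adjoin 𝒪 ((fun s : S => entry M s.1) '' Set.univ) := by
    rw [← himg]
    exact AlgHom.map_adjoin C.val _
  rw [← hBmap, ← hentry t]
  exact hmap

/-- Two normalised `𝒟`-lifts agreeing on the separating entries are equal. -/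
theorem eq_of_entry_eq {M M' : GQ →* M2 A} (hM : IsNormDLift N 𝒟 A M)
    (hM' : IsNormDLift N 𝒟 A M') (h : ∀ s ∈ S, entry M s = entry M' s) : M = M' := by
  classical
  haveI := fibProd_isArtinianRing (𝒪 := 𝒪) (A := A) (B := A)
  obtain ⟨MM, hMM, h1, h2⟩ := IsNormDLift.prod N h𝒟 hM hM'
  have hfst : ∀ s : Entry, fibFst 𝒪 A A (entry MM s) = entry M s := fun s => by
    rw [← h1]; rfl
  have hsnd : ∀ s : Entry, fibSnd 𝒪 A A (entry MM s) = entry M' s := fun s => by
    rw [← h2]; rfl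
  let E : Subalgebra 𝒪 (fibProd 𝒪 A A) := AlgHom.equalizer (fibFst 𝒪 A A) (fibSnd 𝒪 A A)
  have hle : Algebra.adjoin 𝒪 ((fun s : S => entry MM s.1) '' Set.univ) ≤ E := by
    apply Algebra.adjoin_le
    rintro _ ⟨s, _, rfl⟩
    show fibFst 𝒪 A A (entry MM s.1) = fibSnd 𝒪 A A (entry MM s.1)
    rw [hfst, hsnd]
    exact h s.1 s.2
  apply eq_of_forall_entry_eq
  intro t
  have := hle (entry_mem_adjoin N h𝒟 hbar hS hMM t)
  have ht : fibFst 𝒪 A A (entry MM t) = fibSnd 𝒪 A A (entry MM t) := this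
  rw [hfst, hsnd] at ht
  exact ht

end

end Fermat.Agent.S53
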