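import Mathlib
import Fermat.Prelude.Def_GaloisRep_Adic

set_option autoImplicit false

namespace Fermat.Agent.S53

open IsLocalRing

noncomputable section

section Dictionary

variable {A : Type} [CommRing A] [IsLocalRing A]

local notation "Γ" => (AlgebraicClosure ℚ ≃ₐ[ℚ] AlgebraicClosure ℚ)

/-- An equivalence of adic representations, expressed with matrices in arbitrary bases. -/
theorem isEquiv_iff_exists_matrix (ρ₁ ρ₂ : GaloisRepAdic A)
    (b₁ : Module.Basis (Fin 2) A ρ₁.V) (b₂ : Module.Basis (Fin 2) A ρ₂.V) :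
    ρ₁.IsEquiv ρ₂ ↔ ∃ P : Matrix (Fin 2) (Fin 2) A, IsUnit P.det ∧
      ∀ σ : Γ, P * LinearMap.toMatrix b₁ b₁ (ρ₁.ρ σ) = LinearMap.toMatrix b₂ b₂ (ρ₂.ρ σ) * P := by
  constructor
  · rintro ⟨e⟩
    refine ⟨LinearMap.toMatrix b₁ b₂ e.toLinearEquiv.toLinearMap, ?_, fun σ => ?_⟩
    · exact LinearEquiv.isUnit_det e.toLinearEquiv b₁ b₂
    · rw [← LinearMap.toMatrix_comp b₁ b₁ b₂, ← LinearMap.toMatrix_comp b₁ b₂ b₂]
      congr 1
      ext x
      exact e.map_apply σ x
  · rintro ⟨P, hP, h⟩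
    have hdet : IsUnit (LinearMap.toMatrix b₁ b₂ (Matrix.toLin b₁ b₂ P)).det := by
      rwa [LinearMap.toMatrix_toLin]
    refine ⟨⟨LinearEquiv.ofIsUnitDet hdet, fun σ x => ?_⟩⟩
    have h1 : (Matrix.toLin b₁ b₂ P) ∘ₗ (ρ₁.ρ σ) = (ρ₂.ρ σ) ∘ₗ (Matrix.toLin b₁ b₂ P) := by
      apply (LinearMap.toMatrix b₁ b₂).injective
      rw [LinearMap.toMatrix_comp b₁ b₁ b₂, LinearMap.toMatrix_comp b₁ b₂ b₂,
        LinearMap.toMatrix_toLin]
      exact h σ
    exact LinearMap.congr_fun h1 x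

end Dictionary

section BaseChange

variable {A : Type} [CommRing A] [IsLocalRing A] {B : Type} [CommRing B] [IsLocalRing B]

local notation "Γ" => (AlgebraicClosure ℚ ≃ₐ[ℚ] AlgebraicClosure ℚ)

/-- The base-changed basis of a base-changed representation. -/
def baseChangeBasis (φ : A →+* B) (hφ : IsLocalHom φ) (ρ : GaloisRepAdic A)
    (b : Module.Basis (Fin 2) A ρ.V) : Module.Basis (Fin 2) B (ρ.baseChangeAlong φ hφ).V :=
  letI : Algebra A B := φ.toAlgebra
  Algebra.TensorProduct.basis B b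

theorem toMatrix_baseChangeAlong (φ : A →+* B) (hφ : IsLocalHom φ) (ρ : GaloisRepAdic A)
    (b : Module.Basis (Fin 2) A ρ.V) (σ : Γ) :
    LinearMap.toMatrix (baseChangeBasis φ hφ ρ b) (baseChangeBasis φ hφ ρ b)
      ((ρ.baseChangeAlong φ hφ).ρ σ) = (LinearMap.toMatrix b b (ρ.ρ σ)).map φ := by
  let _ : Algebra A B := φ.toAlgebra
  exact LinearMap.toMatrix_baseChange B (ρ.ρ σ) b b

end BaseChange

section Quotients

variable (A : Type) [CommRing A] [IsLocalRing A]

theorem maximalIdeal_pow_succ_ne_top (n : ℕ) : maximalIdeal A ^ (n + 1) ≠ ⊤ := by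
  intro h
  have h1 : maximalIdeal A ^ (n + 1) ≤ maximalIdeal A := Ideal.pow_le_self (Nat.succ_ne_zero n)
  rw [h] at h1
  exact (maximalIdeal.isMaximal A).ne_top (top_le_iff.mp h1)

instance nontrivial_quotient_pow_succ (n : ℕ) : Nontrivial (A ⧸ maximalIdeal A ^ (n + 1)) :=
  Ideal.Quotient.nontrivial_iff.mpr (maximalIdeal_pow_succ_ne_top A n)

instance isLocalRing_quotient_pow_succ (n : ℕ) : IsLocalRing (A ⧸ maximalIdeal A ^ (n + 1)) :=
  IsLocalRing.of_surjective' (Ideal.Quotient.mk (maximalIdeal A ^ (n + 1)))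
    Ideal.Quotient.mk_surjective

theorem isLocalHom_mk_pow_succ (n : ℕ) :
    IsLocalHom (Ideal.Quotient.mk (maximalIdeal A ^ (n + 1))) :=
  IsLocalHom.of_surjective _ Ideal.Quotient.mk_surjective

theorem finite_quotient_pow_succ [IsNoetherianRing A] [Finite (ResidueField A)] (n : ℕ) :
    Finite (A ⧸ maximalIdeal A ^ (n + 1)) := by
  have : Finite (A ⧸ maximalIdeal A) := inferInstanceAs (Finite (ResidueField A))
  exact Ideal.finite_quotient_pow (IsNoetherian.noetherian (maximalIdeal A)) (n + 1)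

end Quotients

section MatrixGlue

open CategoryTheory

variable {A : Type} [CommRing A] [IsLocalRing A]

/-- Transition map `A ⧸ m^(n+2) → A ⧸ m^(n+1)`. -/
def quotTrans (A : Type) [CommRing A] [IsLocalRing A] (n : ℕ) :
    A ⧸ maximalIdeal A ^ (n + 1 + 1) →+* A ⧸ maximalIdeal A ^ (n + 1) :=
  Ideal.Quotient.factor (Ideal.pow_le_pow_right (Nat.le_succ (n + 1)))

theorem quotTrans_comp_mk (n : ℕ) :
    (quotTrans A n).comp (Ideal.Quotient.mk (maximalIdeal A ^ (n + 1 + 1))) =
      Ideal.Quotient.mk (maximalIdeal A ^ (n + 1)) :=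
  Ideal.Quotient.factor_comp_mk _

theorem quotTrans_mk (n : ℕ) (a : A) :
    quotTrans A n (Ideal.Quotient.mk (maximalIdeal A ^ (n + 1 + 1)) a) =
      Ideal.Quotient.mk (maximalIdeal A ^ (n + 1)) a :=
  RingHom.congr_fun (quotTrans_comp_mk n) a

variable {ι : Type} (M₁ M₂ : ι → Matrix (Fin 2) (Fin 2) A)

/-- Intertwiners modulo `m^(n+1)`. -/
def IntertwinerMod (n : ℕ) : Type :=
  {Q : Matrix (Fin 2) (Fin 2) (A ⧸ maximalIdeal A ^ (n + 1)) // IsUnit Q.det ∧
    ∀ i, Q * (M₁ i).map (Ideal.Quotient.mk (maximalIdeal A ^ (n + 1))) =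
      (M₂ i).map (Ideal.Quotient.mk (maximalIdeal A ^ (n + 1))) * Q}

/-- Reduction of intertwiners. -/
def IntertwinerMod.reduce (n : ℕ) (Q : IntertwinerMod M₁ M₂ (n + 1)) : IntertwinerMod M₁ M₂ n :=
  ⟨Q.1.map (quotTrans A n), by
    obtain ⟨Q, hdet, hQ⟩ := Q
    refine ⟨?_, fun i => ?_⟩
    · have := hdet.map (quotTrans A n)
      rwa [RingHom.map_det] at this
    · have h := congrArg (fun M => Matrix.map M (quotTrans A n)) (hQ i)
      simp only [Matrix.map_mul, Matrix.map_map] at h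
      have e : (⇑(quotTrans A n) ∘ ⇑(Ideal.Quotient.mk (maximalIdeal A ^ (n + 1 + 1)))) =
          ⇑(Ideal.Quotient.mk (maximalIdeal A ^ (n + 1))) := by
        funext a
        exact quotTrans_mk n a
      rw [e] at h
      exact h⟩

end MatrixGlue

section MatrixGlue2

open CategoryTheory

variable {A : Type} [CommRing A] [IsLocalRing A]
variable {ι : Type} (M₁ M₂ : ι → Matrix (Fin 2) (Fin 2) A)

theorem exists_compatible_intertwiners [IsNoetherianRing A] [Finite (ResidueField A)]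
    (h : ∀ n, Nonempty (IntertwinerMod M₁ M₂ n)) :
    ∃ Q : ∀ n, IntertwinerMod M₁ M₂ n, ∀ n, (Q (n + 1)).reduce M₁ M₂ n = Q n := by
  let F : ℕᵒᵖ ⥤ Type := Functor.ofOpSequence (X := fun n => IntertwinerMod M₁ M₂ n)
    (fun n => ↾(IntertwinerMod.reduce M₁ M₂ n))
  have : ∀ j : ℕᵒᵖ, Finite (F.obj j) := fun j => by
    have := finite_quotient_pow_succ A j.unop
    show Finite (IntertwinerMod M₁ M₂ j.unop)
    unfold IntertwinerMod
    infer_instance
  have : ∀ j : ℕᵒᵖ, Nonempty (F.obj j) := fun j => h j.unop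
  obtain ⟨u, hu⟩ := nonempty_sections_of_finite_inverse_system F
  refine ⟨fun n => u (Opposite.op n), fun n => ?_⟩
  have := hu (homOfLE (Nat.le_add_right n 1)).op
  rw [Functor.ofOpSequence_map_homOfLE_succ] at this
  exact this

end MatrixGlue2

section Limit

variable {A : Type} [CommRing A] [IsLocalRing A]

theorem exists_limit_of_compatible [IsAdicComplete (maximalIdeal A) A]
    (a : ∀ n, A ⧸ maximalIdeal A ^ (n + 1))
    (ha : ∀ n, quotTrans A n (a (n + 1)) = a n) :
    ∃ L : A, ∀ n, Ideal.Quotient.mk (maximalIdeal A ^ (n + 1)) L = a n := by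
  choose f hf using fun n => Ideal.Quotient.mk_surjective (a n)
  have hstep : ∀ n, f n - f (n + 1) ∈ maximalIdeal A ^ (n + 1) := by
    intro n
    rw [← Ideal.Quotient.eq, hf n, ← ha n, ← hf (n + 1), quotTrans_mk]
  have hle : ∀ m n, m ≤ n → f m - f n ∈ maximalIdeal A ^ (m + 1) := by
    intro m n hmn
    induction n, hmn using Nat.le_induction with
    | base => simp
    | succ n hmn ih =>
      have h1 : f n - f (n + 1) ∈ maximalIdeal A ^ (m + 1) :=
        Ideal.pow_le_pow_right (Nat.succ_le_succ hmn) (hstep n)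
      have : f m - f (n + 1) = (f m - f n) + (f n - f (n + 1)) := by ring
      rw [this]
      exact Ideal.add_mem _ ih h1
  have hprec : IsPrecomplete (maximalIdeal A) A := inferInstance
  obtain ⟨L, hL⟩ := hprec.prec (f := f) (by
    intro m n hmn
    rw [SModEq.sub_mem]
    have := Ideal.pow_le_pow_right (Nat.le_succ m) (hle m n hmn)
    simpa using this)
  refine ⟨L, fun n => ?_⟩
  have h1 : f (n + 1) - L ∈ maximalIdeal A ^ (n + 1) := by
    have := hL (n + 1)
    rw [SModEq.sub_mem] at this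
    simpa using this
  rw [← hf n, eq_comm, Ideal.Quotient.eq]
  have : f n - L = (f n - f (n + 1)) + (f (n + 1) - L) := by ring
  rw [this]
  exact Ideal.add_mem _ (hstep n) h1

end Limit

section Main

variable {A : Type} [CommRing A] [IsLocalRing A]
variable {ι : Type} (M₁ M₂ : ι → Matrix (Fin 2) (Fin 2) A)

theorem exists_matrix_of_forall_intertwinerMod [IsNoetherianRing A]
    [IsAdicComplete (maximalIdeal A) A] [Finite (ResidueField A)]
    (h : ∀ n, Nonempty (IntertwinerMod M₁ M₂ n)) :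
    ∃ P : Matrix (Fin 2) (Fin 2) A, IsUnit P.det ∧ ∀ i, P * M₁ i = M₂ i * P := by
  obtain ⟨Q, hQ⟩ := exists_compatible_intertwiners M₁ M₂ h
  have hentry : ∀ i j : Fin 2, ∃ L : A, ∀ n,
      Ideal.Quotient.mk (maximalIdeal A ^ (n + 1)) L = (Q n).1 i j := by
    intro i j
    refine exists_limit_of_compatible (fun n => (Q n).1 i j) (fun n => ?_)
    have := congrArg (fun R => R.1 i j) (hQ n)
    exact this
  choose L hL using hentry
  let P : Matrix (Fin 2) (Fin 2) A := Matrix.of L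
  have hP : ∀ n, P.map (Ideal.Quotient.mk (maximalIdeal A ^ (n + 1))) = (Q n).1 := by
    intro n
    ext i j
    exact hL i j n
  have hzero : ∀ x : A, (∀ n, Ideal.Quotient.mk (maximalIdeal A ^ (n + 1)) x = 0) → x = 0 := by
    intro x hx
    have hh : IsHausdorff (maximalIdeal A) A := inferInstance
    refine hh.haus x (fun n => ?_)
    rw [SModEq.sub_mem, sub_zero]
    have h1 : x ∈ maximalIdeal A ^ (n + 1) := Ideal.Quotient.eq_zero_iff_mem.mp (hx n)
    have := Ideal.pow_le_pow_right (Nat.le_succ n) h1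
    simpa using this
  refine ⟨P, ?_, fun i => ?_⟩
  · have := isLocalHom_mk_pow_succ A 0
    apply isUnit_of_map_unit (Ideal.Quotient.mk (maximalIdeal A ^ (0 + 1)))
    rw [RingHom.map_det, RingHom.mapMatrix_apply, hP 0]
    exact (Q 0).2.1
  · rw [← sub_eq_zero]
    ext r s
    apply hzero
    intro n
    have h1 := (Q n).2.2 i
    rw [← hP n, ← Matrix.map_mul, ← Matrix.map_mul] at h1
    have h2 := congrFun (congrFun h1 r) s
    simp only [Matrix.map_apply] at h2
    rw [Matrix.sub_apply, map_sub, h2, sub_self]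

local notation "Γ" => (AlgebraicClosure ℚ ≃ₐ[ℚ] AlgebraicClosure ℚ)

/-- Gluing: two adic representations over a complete Noetherian local ring with finite residue
field which are equivalent modulo every power of the maximal ideal are equivalent. -/
theorem isEquiv_of_forall_quotient [IsNoetherianRing A]
    [IsAdicComplete (maximalIdeal A) A] [Finite (ResidueField A)]
    (ρ₁ ρ₂ : GaloisRepAdic A)
    (h : ∀ n : ℕ,
      (ρ₁.baseChangeAlong (Ideal.Quotient.mk (maximalIdeal A ^ (n + 1)))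
        (isLocalHom_mk_pow_succ A n)).IsEquiv
      (ρ₂.baseChangeAlong (Ideal.Quotient.mk (maximalIdeal A ^ (n + 1)))
        (isLocalHom_mk_pow_succ A n))) :
    ρ₁.IsEquiv ρ₂ := by
  let b₁ : Module.Basis (Fin 2) A ρ₁.V := Module.finBasisOfFinrankEq A ρ₁.V ρ₁.finrank_eq
  let b₂ : Module.Basis (Fin 2) A ρ₂.V := Module.finBasisOfFinrankEq A ρ₂.V ρ₂.finrank_eq
  rw [isEquiv_iff_exists_matrix ρ₁ ρ₂ b₁ b₂]
  apply exists_matrix_of_forall_intertwinerMod
    (fun σ : Γ => LinearMap.toMatrix b₁ b₁ (ρ₁.ρ σ)) (fun σ : Γ => LinearMap.toMatrix b₂ b₂ (ρ₂.ρ σ))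
  intro n
  obtain ⟨P, hP, hPσ⟩ := (isEquiv_iff_exists_matrix _ _
    (baseChangeBasis _ (isLocalHom_mk_pow_succ A n) ρ₁ b₁)
    (baseChangeBasis _ (isLocalHom_mk_pow_succ A n) ρ₂ b₂)).mp (h n)
  refine ⟨⟨P, hP, fun σ => ?_⟩⟩
  have := hPσ σ
  rw [toMatrix_baseChangeAlong, toMatrix_baseChangeAlong] at this
  exact this

end Main

end

end Fermat.Agent.S53
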