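import Fermat.Agent.S53.Kernels

set_option autoImplicit false

/-!
The family of kernels of the evaluation maps is a kernel family in the sense of Tower.lean.
-/

namespace Fermat.Agent.S53

open IsLocalRing

set_option linter.unusedSectionVars false

noncomputable section

variable {𝒪 : Type} [CommRing 𝒪] [IsLocalRing 𝒪] [IsNoetherianRing 𝒪]
  {ρbar : ResidualGaloisRep (ResidueField 𝒪)} (N : NormDatum 𝒪 ρbar)
  {𝒟 : ∀ ⦃A : Type⦄ [CommRing A] [IsLocalRing A] [Algebra 𝒪 A], GaloisRepAdic A → Prop}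
  (S : Finset Entry)

variable (𝒟) in
/-- The family of kernels of evaluation maps. -/
def kerFamily : Set (Ideal (PS 𝒪 S)) :=
  {J | ∃ (A : Type) (_ : CommRing A) (_ : IsLocalRing A) (_ : Algebra 𝒪 A) (_ : IsResAlg 𝒪 A)
    (_ : IsArtinianRing A) (M : GQ →* M2 A) (hM : IsNormDLift N 𝒟 A M),
    J = RingHom.ker (evM N S hM.1)}

variable (h𝒟 : GaloisRep.IsDeformationCondition 𝒪 𝒟)
  (hbar : 𝒟 (GaloisRepAdic.ofResidualGaloisRep ρbar))
  [Finite (ResidueField 𝒪)]
  (hS : Separates N (𝒟 := 𝒟) S)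

set_option linter.style.haveILetI false in
include h𝒟 hbar hS in
/-- Every kernel is the kernel of a SURJECTIVE evaluation map (restrict to the range). -/
theorem exists_surjective_rep {J : Ideal (PS 𝒪 S)} (hJ : J ∈ kerFamily N 𝒟 S) :
    ∃ (A : Type) (_ : CommRing A) (_ : IsLocalRing A) (_ : Algebra 𝒪 A) (_ : IsResAlg 𝒪 A)
      (_ : IsArtinianRing A) (M : GQ →* M2 A) (hM : IsNormDLift N 𝒟 A M),
      J = RingHom.ker (evM N S hM.1) ∧ Function.Surjective (evM N S hM.1) := by
  obtain ⟨A, _, _, _, _, _, M, hM, rfl⟩ := hJ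
  set C : Subalgebra 𝒪 A := (evM N S hM.1).range with hC
  have hent : ∀ σ i j, M σ i j ∈ C := fun σ i j =>
    entry_mem_range_evM N S h𝒟 hbar hS hM (σ, i, j)
  obtain ⟨M', hM', hcoe⟩ := IsNormDLift.restrict N h𝒟 hM C hent
  letI := sub_isLocalRing C
  letI := sub_isResAlg C
  haveI := sub_isArtinianRing C
  have hmap : mapMat C.val.toRingHom M' = M := by
    ext σ i j
    exact hcoe σ i j
  have hcomp : ∀ u, ((evM N S hM'.1 u : C) : A) = evM N S hM.1 u := fun u =>
    evM_comp_apply N S C.val hM'.1 hM.1 hmap u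
  refine ⟨C, inferInstance, sub_isLocalRing C, inferInstance, sub_isResAlg C,
    sub_isArtinianRing C, M', hM', ?_, ?_⟩
  · ext u
    rw [RingHom.mem_ker, RingHom.mem_ker]
    constructor
    · intro h
      apply Subtype.ext
      rw [hcomp]
      exact h
    · intro h
      have := hcomp u
      rw [← this]
      exact congrArg Subtype.val h
  · rintro ⟨c, u, rfl⟩
    refine ⟨u, ?_⟩
    apply Subtype.ext
    exact hcomp u

set_option linter.style.haveILetI false in
include h𝒟 hbar hS in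
theorem isKerFamily : IsKerFamily (kerFamily N 𝒟 S) := by
  refine ⟨?_, ?_, ?_, ?_, ?_⟩
  · -- the residual representation gives a member containing the maximal ideal
    have h0 := isNormDLift_rbar N h𝒟 hbar
    refine ⟨RingHom.ker (evM N S h0.1), ⟨ResidueField 𝒪, inferInstance, inferInstance,
      inferInstance, inferInstance, inferInstance, N.rbar, h0, rfl⟩, ?_⟩
    rw [pow_one]
    intro x hx
    have h1 := algHom_map_maximalIdeal (evM N S h0.1) hx
    rw [IsLocalRing.maximalIdeal_eq_bot, Ideal.mem_bot] at h1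
    exact h1
  · rintro J ⟨A, _, _, _, _, _, M, hM, rfl⟩
    exact RingHom.ker_ne_top _
  · rintro J ⟨A, _, _, _, _, _, M, hM, rfl⟩
    haveI := evM_isLocalHom N S hM.1
    exact exists_pow_le_ker (PS 𝒪 S) (evM N S hM.1).toRingHom
  · -- intersections: fibre products
    rintro J ⟨A, _, _, _, _, _, M, hM, rfl⟩ J' ⟨A', _, _, _, _, _, M', hM', rfl⟩
    obtain ⟨M'', hM'', h1, h2⟩ := IsNormDLift.prod N h𝒟 hM hM'
    haveI := fibProd_isArtinianRing (𝒪 := 𝒪) (A := A) (B := A')
    refine ⟨fibProd 𝒪 A A', inferInstance, inferInstance, inferInstance, inferInstance,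
      inferInstance, M'', hM'', ?_⟩
    ext u
    rw [Ideal.mem_inf, RingHom.mem_ker, RingHom.mem_ker, RingHom.mem_ker]
    have e1 := evM_comp_apply N S (fibFst 𝒪 A A') hM''.1 hM.1 h1 u
    have e2 := evM_comp_apply N S (fibSnd 𝒪 A A') hM''.1 hM'.1 h2 u
    constructor
    · rintro ⟨ha, hb⟩
      apply fibProd_ext
      · rw [e1, ha, map_zero]
      · rw [e2, hb, map_zero]
    · intro h
      rw [← e1, ← e2, h, map_zero, map_zero]
      exact ⟨rfl, rfl⟩
  · -- adding a power of the maximal ideal: reduce modulo a power of the maximal ideal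
    intro J hJ n
    obtain ⟨A, _, _, _, _, _, M, hM, rfl, hsurj⟩ := exists_surjective_rep N S h𝒟 hbar hS hJ
    haveI : IsNoetherianRing A := inferInstance
    let q : A →ₐ[𝒪] A ⧸ maximalIdeal A ^ (n + 1) := Ideal.Quotient.mkₐ 𝒪 _
    have hq := IsNormDLift.map N h𝒟 q hM
    refine ⟨A ⧸ maximalIdeal A ^ (n + 1), inferInstance, inferInstance, inferInstance,
      inferInstance, inferInstance, _, hq, ?_⟩
    have hmap : (maximalIdeal (PS 𝒪 S)).map (evM N S hM.1).toRingHom = maximalIdeal A :=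
      IsLocalRing.map_maximalIdeal_of_surjective (evM N S hM.1).toRingHom hsurj
    have hcomap : (maximalIdeal A ^ (n + 1)).comap (evM N S hM.1).toRingHom =
        RingHom.ker (evM N S hM.1) ⊔ maximalIdeal (PS 𝒪 S) ^ (n + 1) := by
      rw [← hmap, ← Ideal.map_pow,
        Ideal.comap_map_of_surjective (evM N S hM.1).toRingHom hsurj, sup_comm]
      rfl
    rw [← hcomap]
    ext u
    rw [RingHom.mem_ker, Ideal.mem_comap, ← evM_comp_apply N S q hM.1 hq.1 rfl u]
    exact Ideal.Quotient.eq_zero_iff_mem.symm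

end

end Fermat.Agent.S53
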