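import Mathlib

set_option autoImplicit false

namespace Fermat.Agent.S53.ProCore

open IsLocalRing

section Closed

variable {P : Type*} [CommRing P] [IsLocalRing P] [IsNoetherianRing P]

/-- Ideals of a Noetherian local ring are closed for the adic topology. -/
theorem mem_of_forall_mem_sup_pow (I : Ideal P) (y : P)
    (h : ∀ i : ℕ, y ∈ I ⊔ maximalIdeal P ^ i) : y ∈ I := by
  have hH : IsHausdorff (maximalIdeal P) (P ⧸ I) := inferInstance
  rw [← Ideal.Quotient.eq_zero_iff_mem]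
  refine hH.haus _ fun i => ?_
  rw [SModEq.zero]
  obtain ⟨a, ha, e, he, hae⟩ := Submodule.mem_sup.mp (h i)
  have h1 : Ideal.Quotient.mk I y = e • (Ideal.Quotient.mk I 1) := by
    rw [← hae, map_add, Ideal.Quotient.eq_zero_iff_mem.mpr ha, zero_add]
    rw [← Ideal.Quotient.mk_eq_mk, ← Ideal.Quotient.mk_eq_mk, ← Submodule.Quotient.mk_smul]
    simp
  rw [h1]
  exact Submodule.smul_mem_smul he Submodule.mem_top

/-- Quotients by powers of the maximal ideal are Artinian modules. -/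
theorem isArtinian_quotient_pow (j : ℕ) : IsArtinian P (P ⧸ maximalIdeal P ^ j) := by
  rcases Nat.eq_zero_or_pos j with rfl | hj
  · have : Subsingleton (P ⧸ maximalIdeal P ^ 0) := by
      rw [pow_zero]
      exact Ideal.Quotient.subsingleton_iff.mpr Ideal.one_eq_top
    exact isArtinian_of_finite
  · have hne : maximalIdeal P ^ j ≠ ⊤ := by
      intro h
      have h1 : maximalIdeal P ^ j ≤ maximalIdeal P := Ideal.pow_le_self hj.ne'
      rw [h] at h1
      exact (maximalIdeal.isMaximal P).ne_top (top_le_iff.mp h1)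
    have : Nontrivial (P ⧸ maximalIdeal P ^ j) := Ideal.Quotient.nontrivial_iff.mpr hne
    have hloc : IsLocalRing (P ⧸ maximalIdeal P ^ j) :=
      IsLocalRing.of_surjective' (Ideal.Quotient.mk _) Ideal.Quotient.mk_surjective
    have hmax : (maximalIdeal P).map (Ideal.Quotient.mk (maximalIdeal P ^ j)) =
        maximalIdeal (P ⧸ maximalIdeal P ^ j) := by
      ext x
      obtain ⟨x, rfl⟩ := Ideal.Quotient.mk_surjective x
      have := IsLocalHom.of_surjective (Ideal.Quotient.mk (maximalIdeal P ^ j))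
        Ideal.Quotient.mk_surjective
      simp [sup_eq_left.mpr (le_maximalIdeal hne)]
    have hart : IsArtinianRing (P ⧸ maximalIdeal P ^ j) := by
      rw [isArtinianRing_iff_isNilpotent_maximalIdeal]
      refine ⟨j, ?_⟩
      rw [← hmax, ← Ideal.map_pow, Ideal.zero_eq_bot, Ideal.map_eq_bot_iff_le_ker, Ideal.mk_ker]
    exact isArtinian_of_surjective_algebraMap (R := P ⧸ maximalIdeal P ^ j)
      Ideal.Quotient.mk_surjective

end Closed

section Min

variable {P : Type*} [CommRing P] [IsLocalRing P] [IsNoetherianRing P]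

/-- In a directed family of ideals, some member is least modulo `m ^ j`. -/
theorem exists_least_sup_pow (𝒦 : Set (Ideal P)) (hne : 𝒦.Nonempty)
    (hdir : ∀ I ∈ 𝒦, ∀ I' ∈ 𝒦, ∃ I'' ∈ 𝒦, I'' ≤ I ⊓ I') (j : ℕ) :
    ∃ I ∈ 𝒦, ∀ I' ∈ 𝒦, I ⊔ maximalIdeal P ^ j ≤ I' ⊔ maximalIdeal P ^ j := by
  have hart : IsArtinian P (P ⧸ maximalIdeal P ^ j) := isArtinian_quotient_pow j
  have hwf : WellFoundedLT (Set.Ici (maximalIdeal P ^ j)) :=
    (Submodule.comapMkQRelIso (maximalIdeal P ^ j)).symm.toOrderEmbedding.wellFoundedLT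
  let T : Set (Set.Ici (maximalIdeal P ^ j)) :=
    {L | ∃ I ∈ 𝒦, (L : Ideal P) = I ⊔ maximalIdeal P ^ j}
  have hT : T.Nonempty := by
    obtain ⟨I, hI⟩ := hne
    exact ⟨⟨I ⊔ maximalIdeal P ^ j, Set.mem_Ici.mpr le_sup_right⟩, I, hI, rfl⟩
  obtain ⟨L, ⟨I, hI, hLI⟩, hmin⟩ := hwf.wf.has_min T hT
  refine ⟨I, hI, fun I' hI' => ?_⟩
  obtain ⟨I'', hI'', hle⟩ := hdir I hI I' hI'
  have h1 : I'' ⊔ maximalIdeal P ^ j ≤ I ⊔ maximalIdeal P ^ j :=
    sup_le_sup_right (hle.trans inf_le_left) _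
  have h2 : ¬ (⟨I'' ⊔ maximalIdeal P ^ j, Set.mem_Ici.mpr le_sup_right⟩ :
      Set.Ici (maximalIdeal P ^ j)) < L :=
    hmin _ ⟨I'', hI'', rfl⟩
  have h3 : I ⊔ maximalIdeal P ^ j ≤ I'' ⊔ maximalIdeal P ^ j := by
    by_contra hcon
    apply h2
    rw [← Subtype.coe_lt_coe, hLI]
    exact lt_of_le_not_ge h1 hcon
  exact h3.trans (sup_le_sup_right (hle.trans inf_le_right) _)

end Min

section Limit

variable {P : Type*} [CommRing P]

/-- A sequence whose successive differences lie in increasing powers of `I` converges. -/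
theorem exists_limit_of_succ (I : Ideal P) [IsPrecomplete I P] (z : ℕ → P) (n : ℕ)
    (hz : ∀ i, z (i + 1) - z i ∈ I ^ (n + i)) :
    ∃ y : P, ∀ i, y - z i ∈ I ^ (n + i) := by
  have hk : ∀ i k, z (i + k) - z i ∈ I ^ (n + i) := by
    intro i k
    induction k with
    | zero => simp
    | succ k ih =>
      have h1 : z (i + (k + 1)) - z i = (z (i + k + 1) - z (i + k)) + (z (i + k) - z i) := by
        rw [← add_assoc]; ring
      rw [h1]
      refine Ideal.add_mem _ (Ideal.pow_le_pow_right (by omega) (hz (i + k))) ih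
  have hcau : ∀ {a b : ℕ}, a ≤ b → z a ≡ z b [SMOD (I ^ a • ⊤ : Submodule P P)] := by
    intro a b hab
    obtain ⟨k, rfl⟩ := Nat.exists_eq_add_of_le hab
    rw [SModEq.sub_mem, smul_eq_mul, Ideal.mul_top, ← neg_sub]
    exact neg_mem (Ideal.pow_le_pow_right (by omega) (hk a k))
  obtain ⟨y, hy⟩ := IsPrecomplete.prec ‹IsPrecomplete I P› hcau
  refine ⟨y, fun i => ?_⟩
  have h1 : y - z (n + i) ∈ I ^ (n + i) := by
    have := hy (n + i)
    rw [SModEq.sub_mem, smul_eq_mul, Ideal.mul_top, ← neg_sub] at this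
    simpa using neg_mem this
  have h2 : y - z i = (y - z (n + i)) + (z (i + n) - z i) := by
    rw [add_comm i n]; ring
  rw [h2]
  exact Ideal.add_mem _ h1 (hk i n)

end Limit

section Main

variable {P : Type*} [CommRing P] [IsLocalRing P] [IsNoetherianRing P]
  [IsAdicComplete (maximalIdeal P) P]

/-- Chevalley type lemma: in a complete Noetherian local ring,
the infimum of a directed family of ideals is approximated modulo `m ^ n` by a member. -/
theorem exists_mem_le_sInf_sup_pow (𝒦 : Set (Ideal P)) (hne : 𝒦.Nonempty)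
    (hdir : ∀ I ∈ 𝒦, ∀ I' ∈ 𝒦, ∃ I'' ∈ 𝒦, I'' ≤ I ⊓ I') (n : ℕ) :
    ∃ I ∈ 𝒦, I ≤ sInf 𝒦 ⊔ maximalIdeal P ^ n := by
  choose Ij hIj hmin using exists_least_sup_pow 𝒦 hne hdir
  set m := maximalIdeal P with hm
  have hc : ∀ j, Ij j ⊔ m ^ j ≤ (Ij (j + 1) ⊔ m ^ (j + 1)) ⊔ m ^ j := by
    intro j
    have h1 : (Ij (j + 1) ⊔ m ^ (j + 1)) ⊔ m ^ j = Ij (j + 1) ⊔ m ^ j := by
      rw [sup_assoc,
        sup_eq_right.mpr (Ideal.pow_le_pow_right (Nat.le_succ j) : m ^ (j + 1) ≤ m ^ j)]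
    rw [h1]
    exact hmin j _ (hIj (j + 1))
  refine ⟨Ij n, hIj n, fun x hx => ?_⟩
  -- successive approximation
  have hstep : ∀ (i : ℕ) (y : P), y ∈ Ij (n + i) ⊔ m ^ (n + i) →
      ∃ a, a ∈ Ij (n + i + 1) ⊔ m ^ (n + i + 1) ∧ a - y ∈ m ^ (n + i) := by
    intro i y hy
    obtain ⟨a, ha, e, he, hae⟩ := Submodule.mem_sup.mp (hc (n + i) hy)
    refine ⟨a, ha, ?_⟩
    rw [← hae]
    simpa using neg_mem he
  choose! nxt hnxt1 hnxt2 using hstep
  let z : ℕ → P := fun i => Nat.rec x (fun i y => nxt i y) i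
  have hz0 : z 0 = x := rfl
  have hzs : ∀ i, z (i + 1) = nxt i (z i) := fun i => rfl
  have hzmem : ∀ i, z i ∈ Ij (n + i) ⊔ m ^ (n + i) := by
    intro i
    induction i with
    | zero => exact Ideal.mem_sup_left hx
    | succ i ih => rw [hzs]; exact hnxt1 i (z i) ih
  have hzd : ∀ i, z (i + 1) - z i ∈ m ^ (n + i) := fun i => by
    rw [hzs]; exact hnxt2 i (z i) (hzmem i)
  obtain ⟨y, hy⟩ := exists_limit_of_succ m z n hzd
  have hyK : y ∈ sInf 𝒦 := by
    rw [Submodule.mem_sInf]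
    intro I' hI'
    refine mem_of_forall_mem_sup_pow I' y fun i => ?_
    have h1 : y = z i + (y - z i) := by ring
    rw [h1]
    refine Ideal.add_mem _ ?_ (Ideal.mem_sup_right (Ideal.pow_le_pow_right (by omega) (hy i)))
    have h2 := hmin (n + i) I' hI' (hzmem i)
    exact (sup_le_sup_left (Ideal.pow_le_pow_right (by omega)) I') h2
  have h3 : x = y + (x - y) := by ring
  rw [h3]
  refine Ideal.add_mem _ (Ideal.mem_sup_left hyK) (Ideal.mem_sup_right ?_)
  have := hy 0
  rw [hz0, add_zero] at this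
  simpa using neg_mem this

end Main

end Fermat.Agent.S53.ProCore
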