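import Mathlib
import Fermat.Agent.S53.ProCore

set_option autoImplicit false
set_option linter.style.haveILetI false
set_option linter.unusedSectionVars false
set_option linter.unnecessarySimpa false

/-!
Abstract commutative algebra: a family of open ideals in a complete Noetherian local ring,
closed under finite intersections and under `J ↦ J ⊔ m^(n+1)`.
-/

namespace Fermat.Agent.S53

open IsLocalRing

noncomputable section

variable {S : Type} [CommRing S] [IsLocalRing S] [IsNoetherianRing S]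
  [IsAdicComplete (maximalIdeal S) S]

/-- Hypotheses on the family of ideals. -/
structure IsKerFamily (K : Set (Ideal S)) : Prop where
  nonempty : ∃ J ∈ K, maximalIdeal S ^ 1 ≤ J
  ne_top : ∀ J ∈ K, J ≠ ⊤
  pow_le : ∀ J ∈ K, ∃ n : ℕ, maximalIdeal S ^ (n + 1) ≤ J
  inf_mem : ∀ J ∈ K, ∀ J' ∈ K, J ⊓ J' ∈ K
  sup_pow_mem : ∀ J ∈ K, ∀ n : ℕ, J ⊔ maximalIdeal S ^ (n + 1) ∈ K

variable {K : Set (Ideal S)}

/-- The smallest member of the family containing `m^(n+1)`. -/
def towerIdeal (K : Set (Ideal S)) (n : ℕ) : Ideal S :=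
  sInf {J | J ∈ K ∧ maximalIdeal S ^ (n + 1) ≤ J}

/-- The quotient of a Noetherian local ring by a power of its maximal ideal is Artinian. -/
theorem isArtinianRing_quotient_maximalIdeal_pow {R : Type*} [CommRing R] [IsLocalRing R]
    [IsNoetherianRing R] (n : ℕ) : IsArtinianRing (R ⧸ maximalIdeal R ^ (n + 1)) := by
  set I := maximalIdeal R ^ (n + 1) with hI
  have hne : I ≠ ⊤ := by
    intro h
    have h1 : I ≤ maximalIdeal R := Ideal.pow_le_self (Nat.succ_ne_zero n)
    rw [h, top_le_iff] at h1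
    exact (maximalIdeal.isMaximal R).ne_top h1
  haveI : Nontrivial (R ⧸ I) := Ideal.Quotient.nontrivial_iff.mpr hne
  haveI := IsLocalRing.of_surjective' (Ideal.Quotient.mk I) Ideal.Quotient.mk_surjective
  haveI := IsLocalHom.of_surjective (Ideal.Quotient.mk I) Ideal.Quotient.mk_surjective
  have hmap : (maximalIdeal R).map (Ideal.Quotient.mk I) = maximalIdeal (R ⧸ I) := by
    ext x
    obtain ⟨x, rfl⟩ := Ideal.Quotient.mk_surjective x
    simp [sup_eq_left.mpr (le_maximalIdeal hne)]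
  rw [isArtinianRing_iff_isNilpotent_maximalIdeal]
  refine ⟨n + 1, ?_⟩
  rw [← hmap, ← Ideal.map_pow, Ideal.zero_eq_bot, Ideal.map_eq_bot_iff_le_ker, Ideal.mk_ker]

/-- A nonempty family of ideals, all containing `m^(n+1)`, closed under binary infimum, has a
least element. -/
theorem exists_least_of_pow_le {R : Type*} [CommRing R] [IsLocalRing R] [IsNoetherianRing R]
    (n : ℕ) (𝒮 : Set (Ideal R)) (hne : 𝒮.Nonempty)
    (hpow : ∀ J ∈ 𝒮, maximalIdeal R ^ (n + 1) ≤ J)
    (hinf : ∀ J ∈ 𝒮, ∀ J' ∈ 𝒮, J ⊓ J' ∈ 𝒮) : ∃ J₀ ∈ 𝒮, ∀ J ∈ 𝒮, J₀ ≤ J := by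
  set I := maximalIdeal R ^ (n + 1) with hI
  haveI := isArtinianRing_quotient_maximalIdeal_pow (R := R) n
  let f := Ideal.Quotient.mk I
  have hf : Function.Surjective f := Ideal.Quotient.mk_surjective
  have hcomap : ∀ J ∈ 𝒮, (J.map f).comap f = J := by
    intro J hJ
    rw [Ideal.comap_map_of_surjective f hf, ← RingHom.ker_eq_comap_bot, Ideal.mk_ker,
      sup_eq_left.mpr (hpow J hJ)]
  obtain ⟨M', ⟨J₀, hJ₀, rfl⟩, hmin⟩ :=
    IsArtinian.set_has_minimal ((Ideal.map f) '' 𝒮) (hne.image _)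
  refine ⟨J₀, hJ₀, fun J hJ => ?_⟩
  have hmem := hinf J₀ hJ₀ J hJ
  have hle : (J₀ ⊓ J).map f ≤ J₀.map f := Ideal.map_mono inf_le_left
  have heq : (J₀ ⊓ J).map f = J₀.map f := by
    by_contra hne'
    exact hmin _ ⟨_, hmem, rfl⟩ (lt_of_le_of_ne hle hne')
  have h2 : J₀ ⊓ J = J₀ := by
    rw [← hcomap _ hmem, heq, hcomap _ hJ₀]
  exact inf_eq_left.mp h2

theorem towerIdeal_mem (hK : IsKerFamily K) (n : ℕ) : towerIdeal K n ∈ K := by
  obtain ⟨J₁, hJ₁, hJ₁'⟩ := hK.nonempty
  have hne : {J | J ∈ K ∧ maximalIdeal S ^ (n + 1) ≤ J}.Nonempty := by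
    refine ⟨J₁, hJ₁, le_trans ?_ hJ₁'⟩
    exact Ideal.pow_le_pow_right (Nat.succ_le_succ (Nat.zero_le n))
  obtain ⟨J₀, hJ₀, hleast⟩ := exists_least_of_pow_le n _ hne (fun J hJ => hJ.2)
    (fun J hJ J' hJ' => ⟨hK.inf_mem J hJ.1 J' hJ'.1, le_inf hJ.2 hJ'.2⟩)
  have : towerIdeal K n = J₀ := le_antisymm (sInf_le hJ₀) (le_sInf hleast)
  rw [this]
  exact hJ₀.1

theorem pow_le_towerIdeal (n : ℕ) : maximalIdeal S ^ (n + 1) ≤ towerIdeal K n :=
  le_sInf fun _ hJ => hJ.2

theorem towerIdeal_le {J : Ideal S} (hJ : J ∈ K) {n : ℕ} (hn : maximalIdeal S ^ (n + 1) ≤ J) :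
    towerIdeal K n ≤ J :=
  sInf_le ⟨hJ, hn⟩

theorem towerIdeal_antitone {m n : ℕ} (h : m ≤ n) : towerIdeal K n ≤ towerIdeal K m :=
  sInf_le_sInf fun _ hJ =>
    ⟨hJ.1, (Ideal.pow_le_pow_right (Nat.succ_le_succ h)).trans hJ.2⟩

theorem towerIdeal_succ_sup (hK : IsKerFamily K) (n : ℕ) :
    towerIdeal K (n + 1) ⊔ maximalIdeal S ^ (n + 1) = towerIdeal K n := by
  refine le_antisymm (sup_le (towerIdeal_antitone (Nat.le_succ n)) (pow_le_towerIdeal n)) ?_
  exact towerIdeal_le (hK.sup_pow_mem _ (towerIdeal_mem hK (n + 1)) n) le_sup_right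

theorem sInf_eq_iInf_towerIdeal (hK : IsKerFamily K) : sInf K = ⨅ n, towerIdeal K n := by
  refine le_antisymm (le_iInf fun n => sInf_le (towerIdeal_mem hK n)) ?_
  refine le_sInf fun J hJ => ?_
  obtain ⟨N, hN⟩ := hK.pow_le J hJ
  exact (iInf_le _ N).trans (towerIdeal_le hJ hN)

/-- Chevalley-type statement: the tower is cofinal with the adic filtration modulo `sInf K`. -/
theorem sInf_sup_pow_eq_towerIdeal (hK : IsKerFamily K) (n : ℕ) :
    sInf K ⊔ maximalIdeal S ^ (n + 1) = towerIdeal K n := by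
  refine le_antisymm (sup_le (sInf_le (towerIdeal_mem hK n)) (pow_le_towerIdeal n)) ?_
  intro x hx
  set m := maximalIdeal S with hm
  -- successive approximation
  have hstep : ∀ (i : ℕ) (y : S), y ∈ towerIdeal K (n + i) →
      ∃ a, a ∈ towerIdeal K (n + i + 1) ∧ a - y ∈ m ^ (n + 1 + i) := by
    intro i y hy
    rw [← towerIdeal_succ_sup hK (n + i)] at hy
    obtain ⟨a, ha, e, he, hae⟩ := Submodule.mem_sup.mp hy
    refine ⟨a, ha, ?_⟩
    rw [← hae]
    have : n + i + 1 = n + 1 + i := by ring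
    rw [this] at he
    simpa using neg_mem he
  choose! nxt hnxt1 hnxt2 using hstep
  let z : ℕ → S := fun i => Nat.rec x (fun i y => nxt i y) i
  have hz0 : z 0 = x := rfl
  have hzs : ∀ i, z (i + 1) = nxt i (z i) := fun i => rfl
  have hzmem : ∀ i, z i ∈ towerIdeal K (n + i) := by
    intro i
    induction i with
    | zero => exact hx
    | succ i ih => rw [hzs]; exact hnxt1 i (z i) ih
  have hzd : ∀ i, z (i + 1) - z i ∈ m ^ (n + 1 + i) := fun i => by
    rw [hzs]; exact hnxt2 i (z i) (hzmem i)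
  obtain ⟨y, hy⟩ := ProCore.exists_limit_of_succ m z (n + 1) hzd
  have hyK : y ∈ sInf K := by
    rw [Submodule.mem_sInf]
    intro J hJ
    obtain ⟨N, hN⟩ := hK.pow_le J hJ
    have h1 : y = z N + (y - z N) := by ring
    rw [h1]
    refine J.add_mem ?_ ?_
    · exact towerIdeal_le hJ hN (towerIdeal_antitone (Nat.le_add_left N n) (hzmem N))
    · refine hN (Ideal.pow_le_pow_right ?_ (hy N))
      omega
  have h3 : x = y + (x - y) := by ring
  rw [h3]
  refine Ideal.add_mem _ (Ideal.mem_sup_left hyK) (Ideal.mem_sup_right ?_)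
  have := hy 0
  rw [hz0, add_zero] at this
  simpa using neg_mem this

/-- Completeness: a sequence coherent for the tower has a limit. -/
theorem exists_limit_of_coherent (hK : IsKerFamily K) (u : ℕ → S)
    (hu : ∀ m n, m ≤ n → u n - u m ∈ towerIdeal K m) :
    ∃ x : S, ∀ n, x - u n ∈ towerIdeal K n := by
  set m := maximalIdeal S with hm
  have hdec : ∀ n, ∃ a e, a ∈ sInf K ∧ e ∈ m ^ (n + 1) ∧ u (n + 1) - u n = a + e := by
    intro n
    have h1 := hu n (n + 1) (Nat.le_succ n)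
    rw [← sInf_sup_pow_eq_towerIdeal hK n] at h1
    obtain ⟨a, ha, e, he, hae⟩ := Submodule.mem_sup.mp h1
    exact ⟨a, e, ha, he, hae.symm⟩
  choose a e ha he hae using hdec
  let v : ℕ → S := fun n => u n - ∑ i ∈ Finset.range n, a i
  have hv : ∀ i, v (i + 1) - v i ∈ m ^ (1 + i) := by
    intro i
    have : v (i + 1) - v i = e i := by
      simp only [v, Finset.sum_range_succ]
      have := hae i
      linear_combination this
    rw [this, add_comm 1 i]
    exact he i
  obtain ⟨x, hx⟩ := ProCore.exists_limit_of_succ m v 1 hv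
  refine ⟨x, fun n => ?_⟩
  rw [← sInf_sup_pow_eq_towerIdeal hK n]
  have h1 : x - u n = -(∑ i ∈ Finset.range n, a i) + (x - v n) := by
    simp only [v]; ring
  rw [h1]
  refine Submodule.add_mem_sup (neg_mem (Ideal.sum_mem _ fun i _ => ha i)) ?_
  have := hx n
  rwa [add_comm 1 n] at this

end

end Fermat.Agent.S53
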