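import Fermat.Agent.S53.PS
import Fermat.Agent.S53.Tower
import Fermat.Agent.S53.Generators

set_option autoImplicit false

/-!
Evaluation maps `PS 𝒪 S → A` attached to normalised `𝒟`-lifts and the family of their kernels.
(helper19: coord_mem, evM_comp, entry_mem_range_evM, eq_of_evM_eq; helper6: the rest.)
-/

namespace Fermat.Agent.S53

open IsLocalRing

set_option linter.unusedSectionVars false

noncomputable section

variable {𝒪 : Type} [CommRing 𝒪] [IsLocalRing 𝒪] [IsNoetherianRing 𝒪]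
  {ρbar : ResidualGaloisRep (ResidueField 𝒪)} (N : NormDatum 𝒪 ρbar)
  {𝒟 : ∀ ⦃A : Type⦄ [CommRing A] [IsLocalRing A] [Algebra 𝒪 A], GaloisRepAdic A → Prop}
  (S : Finset Entry)

/-- Chosen lifts to `𝒪` of the entries of `rbar`. -/
def cLift (t : Entry) : 𝒪 := (IsLocalRing.residue_surjective (entry N.rbar t)).choose

theorem residue_cLift (t : Entry) : residue 𝒪 (cLift N t) = entry N.rbar t :=
  (IsLocalRing.residue_surjective (entry N.rbar t)).choose_spec

section Coord

variable {A : Type} [CommRing A] [IsLocalRing A] [Algebra 𝒪 A] [IsResAlg 𝒪 A]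

/-- The coordinates of a lift: separating entries minus constants. -/
def coord (M : GQ →* M2 A) (s : S) : A := entry M s.1 - algebraMap 𝒪 A (cLift N s.1)

theorem coord_mem {M : GQ →* M2 A} (hM : IsNormLift N A M) (s : S) :
    coord N S M s ∈ maximalIdeal A := by
  rw [← resK_eq_zero_iff 𝒪 A, coord, map_sub, sub_eq_zero, AlgHom.commutes]
  exact (hM.res _ _ _).trans (residue_cLift N s.1).symm

variable [IsArtinianRing A]

/-- The evaluation map of a normalised lift. -/
def evM {M : GQ →* M2 A} (hM : IsNormLift N A M) : PS 𝒪 S →ₐ[𝒪] A :=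
  PS.eval (coord N S M) (coord_mem N S hM)

theorem evM_X {M : GQ →* M2 A} (hM : IsNormLift N A M) (s : S) :
    evM N S hM (PS.X s) = coord N S M s := PS.eval_X _ _ s

theorem evM_comp {B : Type} [CommRing B] [IsLocalRing B] [Algebra 𝒪 B] [IsResAlg 𝒪 B]
    [IsArtinianRing B] (φ : A →ₐ[𝒪] B) {M : GQ →* M2 A} (hM : IsNormLift N A M) :
    φ.comp (evM N S hM) = evM N S (hM.map N φ) := by
  apply PS.algHom_ext
  intro s
  rw [AlgHom.comp_apply, evM_X, evM_X, coord, coord, map_sub, AlgHom.commutes]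
  rfl

theorem evM_congr {M M' : GQ →* M2 A} (hM : IsNormLift N A M) (hM' : IsNormLift N A M')
    (h : M = M') : evM N S hM = evM N S hM' := by
  subst h
  rfl

theorem evM_comp' {B : Type} [CommRing B] [IsLocalRing B] [Algebra 𝒪 B] [IsResAlg 𝒪 B]
    [IsArtinianRing B] (φ : A →ₐ[𝒪] B) {M : GQ →* M2 A} (hM : IsNormLift N A M)
    {M' : GQ →* M2 B} (hM' : IsNormLift N B M') (h : mapMat φ.toRingHom M = M') :
    φ.comp (evM N S hM) = evM N S hM' := by
  rw [evM_comp]
  exact evM_congr N S _ _ h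

theorem evM_comp_apply {B : Type} [CommRing B] [IsLocalRing B] [Algebra 𝒪 B] [IsResAlg 𝒪 B]
    [IsArtinianRing B] (φ : A →ₐ[𝒪] B) {M : GQ →* M2 A} (hM : IsNormLift N A M)
    {M' : GQ →* M2 B} (hM' : IsNormLift N B M') (h : mapMat φ.toRingHom M = M') (u : PS 𝒪 S) :
    φ (evM N S hM u) = evM N S hM' u := by
  rw [← evM_comp' N S φ hM hM' h]
  rfl

theorem evM_isLocalHom {M : GQ →* M2 A} (hM : IsNormLift N A M) :
    IsLocalHom (evM N S hM).toRingHom := algHom_isLocalHom _

theorem ker_evM_ne_top {M : GQ →* M2 A} (hM : IsNormLift N A M) :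
    RingHom.ker (evM N S hM) ≠ ⊤ := RingHom.ker_ne_top _

theorem maximalIdeal_le_comap_evM {M : GQ →* M2 A} (hM : IsNormLift N A M) :
    maximalIdeal (PS 𝒪 S) ≤ (maximalIdeal A).comap (evM N S hM) := by
  intro x hx
  exact algHom_map_maximalIdeal (evM N S hM) hx

end Coord

variable (h𝒟 : GaloisRep.IsDeformationCondition 𝒪 𝒟)
  (hbar : 𝒟 (GaloisRepAdic.ofResidualGaloisRep ρbar))
  [Finite (ResidueField 𝒪)]
  (hS : Separates N (𝒟 := 𝒟) S)

section K

variable {A : Type} [CommRing A] [IsLocalRing A] [Algebra 𝒪 A] [IsResAlg 𝒪 A] [IsArtinianRing A]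

include h𝒟 hbar hS in
/-- All entries are in the range of the evaluation map. -/
theorem entry_mem_range_evM {M : GQ →* M2 A} (hM : IsNormDLift N 𝒟 A M) (t : Entry) :
    entry M t ∈ (evM N S hM.1).range := by
  have h1 := entry_mem_adjoin N h𝒟 hbar hS hM t
  have h2 : (evM N S hM.1).range = Algebra.adjoin 𝒪 (Set.range (coord N S M)) :=
    PS.range_eval _ _
  rw [h2]
  refine Algebra.adjoin_le ?_ h1
  rintro _ ⟨s, -, rfl⟩
  have h3 : entry M s.1 = coord N S M s + algebraMap 𝒪 A (cLift N s.1) := by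
    rw [coord, sub_add_cancel]
  show entry M s.1 ∈ _
  rw [h3]
  exact Subalgebra.add_mem _ (Algebra.subset_adjoin ⟨s, rfl⟩) (Subalgebra.algebraMap_mem _ _)

include h𝒟 hbar hS in
theorem eq_of_evM_eq {M M' : GQ →* M2 A} (hM : IsNormDLift N 𝒟 A M) (hM' : IsNormDLift N 𝒟 A M')
    (h : evM N S hM.1 = evM N S hM'.1) : M = M' := by
  refine eq_of_entry_eq N h𝒟 hbar hS hM hM' fun s hs => ?_
  have h1 := AlgHom.congr_fun h (PS.X (⟨s, hs⟩ : S))
  rw [evM_X, evM_X, coord, coord] at h1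
  exact sub_left_injective h1

end K

set_option linter.style.haveILetI false in
include h𝒟 hbar hS in
/-- If `ker (evM M) ≤ ker (evM M')` then any `u` computing an entry of `M` computes the same entry
of `M'` (fibre product + `entry_mem_range_evM`). -/
theorem evM_eq_entry_of_ker_le {A A' : Type} [CommRing A] [IsLocalRing A] [Algebra 𝒪 A]
    [IsResAlg 𝒪 A] [IsArtinianRing A] [CommRing A'] [IsLocalRing A'] [Algebra 𝒪 A']
    [IsResAlg 𝒪 A'] [IsArtinianRing A'] {M : GQ →* M2 A} {M' : GQ →* M2 A'}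
    (hM : IsNormDLift N 𝒟 A M) (hM' : IsNormDLift N 𝒟 A' M')
    (hle : RingHom.ker (evM N S hM.1) ≤ RingHom.ker (evM N S hM'.1)) (u : PS 𝒪 S) (t : Entry)
    (hu : evM N S hM.1 u = entry M t) : evM N S hM'.1 u = entry M' t := by
  obtain ⟨M'', hM'', h1, h2⟩ := IsNormDLift.prod N h𝒟 hM hM'
  haveI := fibProd_isArtinianRing (𝒪 := 𝒪) (A := A) (B := A')
  obtain ⟨w, hw⟩ := entry_mem_range_evM N S h𝒟 hbar hS hM'' t
  have hw' : evM N S hM''.1 w = entry M'' t := hw
  have e1 := evM_comp_apply N S (fibFst 𝒪 A A') hM''.1 hM.1 h1 w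
  have e2 := evM_comp_apply N S (fibSnd 𝒪 A A') hM''.1 hM'.1 h2 w
  have f1 : evM N S hM.1 w = entry M t := by
    rw [← e1, hw', ← h1]
    rfl
  have f2 : evM N S hM'.1 w = entry M' t := by
    rw [← e2, hw', ← h2]
    rfl
  have hker : u - w ∈ RingHom.ker (evM N S hM.1) := by
    rw [RingHom.mem_ker, map_sub, hu, f1, sub_self]
  have hker' := hle hker
  rw [RingHom.mem_ker, map_sub, sub_eq_zero] at hker'
  rw [hker', f2]

end

end Fermat.Agent.S53
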