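import Fermat.Prelude.Def_GaloisRep_Adic

set_option autoImplicit false

open scoped TensorProduct

namespace Fermat.Agent.S53.MatrixRep

/-- The absolute Galois group of `ℚ`. -/
abbrev GQ : Type := AlgebraicClosure ℚ ≃ₐ[ℚ] AlgebraicClosure ℚ

section Basic

variable {A : Type} [CommRing A] [IsLocalRing A]

/-- Adic continuity of a matrix-valued representation. -/
def IsAdicContinuousMat (M : GQ →* Matrix (Fin 2) (Fin 2) A) : Prop :=
  ∀ n : ℕ, ∃ L : IntermediateField ℚ (AlgebraicClosure ℚ), FiniteDimensional ℚ L ∧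
    ∀ σ : GQ, (∀ x ∈ L, σ x = x) →
      ∀ i j, (M σ - 1) i j ∈ IsLocalRing.maximalIdeal A ^ n

omit [IsLocalRing A] in
theorem mem_smul_top_pi_of_forall_mem (I : Ideal A) (w : Fin 2 → A) (hw : ∀ i, w i ∈ I) :
    w ∈ I • (⊤ : Submodule A (Fin 2 → A)) := by
  have : w = ∑ i, w i • (Pi.single i (1 : A) : Fin 2 → A) := by
    ext j
    simp [Finset.sum_apply, Pi.single_apply]
  rw [this]
  exact Submodule.sum_mem _ fun i _ => Submodule.smul_mem_smul (hw i) Submodule.mem_top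

/-- The Galois representation on `A²` attached to a continuous matrix representation. -/
noncomputable def ofMatrix (M : GQ →* Matrix (Fin 2) (Fin 2) A) (hM : IsAdicContinuousMat M) :
    GaloisRepAdic A where
  V := Fin 2 → A
  finrank_eq := Module.finrank_fin_fun A
  ρ := (Matrix.toLinAlgEquiv' (R := A) (n := Fin 2)).toAlgHom.toRingHom.toMonoidHom.comp M
  isAdicContinuous := by
    intro n
    obtain ⟨L, hL, h⟩ := hM n
    refine ⟨L, hL, fun σ hσ v => ?_⟩
    apply mem_smul_top_pi_of_forall_mem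
    intro i
    have h1 : (((Matrix.toLinAlgEquiv' (R := A) (n := Fin 2)).toAlgHom.toRingHom.toMonoidHom.comp M) σ) v - v
        = (M σ - 1).mulVec v := by
      show Matrix.toLin' (M σ) v - v = _
      rw [Matrix.toLin'_apply, Matrix.sub_mulVec, Matrix.one_mulVec]
    rw [h1]
    show ∑ j, (M σ - 1) i j * v j ∈ _
    exact Ideal.sum_mem _ fun j _ => Ideal.mul_mem_right _ _ (h σ hσ i j)

@[simp] theorem ofMatrix_ρ_apply (M : GQ →* Matrix (Fin 2) (Fin 2) A) (hM : IsAdicContinuousMat M)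
    (σ : GQ) (v : Fin 2 → A) : (ofMatrix M hM).ρ σ v = (M σ).mulVec v := by
  show Matrix.toLin' (M σ) v = _
  rw [Matrix.toLin'_apply]

/-- The matrix representation of `ρ` in a basis. -/
noncomputable def toMatrix (ρ : GaloisRepAdic A) (b : Module.Basis (Fin 2) A ρ.V) :
    GQ →* Matrix (Fin 2) (Fin 2) A :=
  (LinearMap.toMatrixAlgEquiv b).toAlgHom.toRingHom.toMonoidHom.comp ρ.ρ

theorem toMatrix_apply (ρ : GaloisRepAdic A) (b : Module.Basis (Fin 2) A ρ.V) (σ : GQ) :
    toMatrix ρ b σ = LinearMap.toMatrix b b (ρ.ρ σ) := rfl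

omit [IsLocalRing A] in
theorem repr_mem_of_mem_smul_top (I : Ideal A) {V : Type} [AddCommGroup V] [Module A V]
    (b : Module.Basis (Fin 2) A V) {x : V} (hx : x ∈ I • (⊤ : Submodule A V)) (i : Fin 2) :
    b.repr x i ∈ I := by
  refine Submodule.smul_induction_on hx ?_ ?_
  · intro r hr n _
    rw [map_smul, Finsupp.smul_apply, smul_eq_mul]
    exact Ideal.mul_mem_right _ _ hr
  · intro x y hx hy
    rw [map_add, Finsupp.add_apply]
    exact Ideal.add_mem _ hx hy

theorem toMatrix_isAdicContinuous (ρ : GaloisRepAdic A) (b : Module.Basis (Fin 2) A ρ.V) :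
    IsAdicContinuousMat (toMatrix ρ b) := by
  intro n
  obtain ⟨L, hL, h⟩ := ρ.isAdicContinuous n
  refine ⟨L, hL, fun σ hσ i j => ?_⟩
  have h1 : (toMatrix ρ b σ - 1) i j = b.repr (ρ.ρ σ (b j) - b j) i := by
    rw [toMatrix_apply, Matrix.sub_apply, LinearMap.toMatrix_apply, map_sub, Finsupp.sub_apply,
      Module.Basis.repr_self, Matrix.one_apply, Finsupp.single_apply]
    congr 1
    by_cases hij : i = j
    · simp [hij]
    · simp [hij, Ne.symm hij]
  rw [h1]
  exact repr_mem_of_mem_smul_top _ b (h σ hσ (b j)) i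

theorem toMatrix_ofMatrix (M : GQ →* Matrix (Fin 2) (Fin 2) A) (hM : IsAdicContinuousMat M) :
    toMatrix (ofMatrix M hM) (Pi.basisFun A (Fin 2)) = M := by
  ext σ : 1
  show LinearMap.toMatrix (Pi.basisFun A (Fin 2)) (Pi.basisFun A (Fin 2)) (Matrix.toLin' (M σ)) = M σ
  rw [LinearMap.toMatrix_eq_toMatrix', LinearMap.toMatrix'_toLin']

/-- `ρ` is isomorphic to the representation attached to its matrices. -/
theorem ofMatrix_toMatrix_isEquiv (ρ : GaloisRepAdic A) (b : Module.Basis (Fin 2) A ρ.V) :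
    (ofMatrix (toMatrix ρ b) (toMatrix_isAdicContinuous ρ b)).IsEquiv ρ := by
  refine ⟨⟨(b.equivFun.symm : (Fin 2 → A) ≃ₗ[A] ρ.V), fun σ x => ?_⟩⟩
  show b.equivFun.symm ((toMatrix ρ b σ).mulVec x) = ρ.ρ σ (b.equivFun.symm x)
  apply b.equivFun.injective
  rw [LinearEquiv.apply_symm_apply]
  have h := LinearMap.toMatrix_mulVec_repr b b (ρ.ρ σ) (b.equivFun.symm x)
  have hx : (b.repr (b.equivFun.symm x) : Fin 2 → A) = x := b.equivFun.apply_symm_apply x
  rw [hx] at h
  rw [toMatrix_apply, h]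
  rfl

/-- Two representations are isomorphic iff their matrices are conjugate. -/
theorem isEquiv_iff_toMatrix (ρ₁ ρ₂ : GaloisRepAdic A) (b₁ : Module.Basis (Fin 2) A ρ₁.V)
    (b₂ : Module.Basis (Fin 2) A ρ₂.V) :
    ρ₁.IsEquiv ρ₂ ↔ ∃ P : Matrix (Fin 2) (Fin 2) A, IsUnit P.det ∧
      ∀ σ, P * toMatrix ρ₁ b₁ σ = toMatrix ρ₂ b₂ σ * P := by
  constructor
  · rintro ⟨e⟩
    refine ⟨LinearMap.toMatrix b₁ b₂ e.toLinearEquiv.toLinearMap, ?_, fun σ => ?_⟩
    · rw [← Matrix.isUnit_iff_isUnit_det]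
      refine ⟨⟨LinearMap.toMatrix b₁ b₂ e.toLinearEquiv.toLinearMap,
        LinearMap.toMatrix b₂ b₁ e.toLinearEquiv.symm.toLinearMap, ?_, ?_⟩, rfl⟩
      · rw [← LinearMap.toMatrix_comp]
        simp
      · rw [← LinearMap.toMatrix_comp]
        simp
    · rw [toMatrix_apply, toMatrix_apply, ← LinearMap.toMatrix_comp, ← LinearMap.toMatrix_comp]
      congr 1
      ext x
      simp only [LinearMap.comp_apply, LinearEquiv.coe_coe]
      exact e.map_apply σ x
  · rintro ⟨P, hP, hcomm⟩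
    have hPu : IsUnit P := (Matrix.isUnit_iff_isUnit_det P).mpr hP
    obtain ⟨u, rfl⟩ := hPu
    let f : ρ₁.V →ₗ[A] ρ₂.V := Matrix.toLin b₁ b₂ (u : Matrix (Fin 2) (Fin 2) A)
    let g : ρ₂.V →ₗ[A] ρ₁.V := Matrix.toLin b₂ b₁ ((u⁻¹ : (Matrix (Fin 2) (Fin 2) A)ˣ) : Matrix (Fin 2) (Fin 2) A)
    have hfg : f ∘ₗ g = LinearMap.id := by
      rw [← Matrix.toLin_mul b₂ b₁ b₂, Units.mul_inv, Matrix.toLin_one]
    have hgf : g ∘ₗ f = LinearMap.id := by
      rw [← Matrix.toLin_mul b₁ b₂ b₁, Units.inv_mul, Matrix.toLin_one]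
    refine ⟨⟨LinearEquiv.ofLinearMap f g hfg hgf, fun σ x => ?_⟩⟩
    show f (ρ₁.ρ σ x) = ρ₂.ρ σ (f x)
    have h1 : f ∘ₗ ρ₁.ρ σ = ρ₂.ρ σ ∘ₗ f := by
      apply (LinearMap.toMatrix b₁ b₂).injective
      rw [LinearMap.toMatrix_comp b₁ b₁ b₂, LinearMap.toMatrix_comp b₁ b₂ b₂,
        LinearMap.toMatrix_toLin]
      exact hcomm σ
    exact LinearMap.congr_fun h1 x

end Basic

section BaseChange

variable {A B : Type} [CommRing A] [IsLocalRing A] [CommRing B] [IsLocalRing B]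

/-- Push a matrix representation forward along a ring homomorphism. -/
noncomputable def mapMat (φ : A →+* B) (M : GQ →* Matrix (Fin 2) (Fin 2) A) :
    GQ →* Matrix (Fin 2) (Fin 2) B :=
  (RingHom.mapMatrix φ).toMonoidHom.comp M

omit [IsLocalRing A] [IsLocalRing B] in
@[simp] theorem mapMat_apply (φ : A →+* B) (M : GQ →* Matrix (Fin 2) (Fin 2) A) (σ : GQ) :
    mapMat φ M σ = (M σ).map φ := rfl

theorem map_maximalIdeal_pow_le (φ : A →+* B) (hφ : IsLocalHom φ) (n : ℕ) :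
    (IsLocalRing.maximalIdeal A ^ n).map φ ≤ IsLocalRing.maximalIdeal B ^ n := by
  rw [Ideal.map_pow]
  exact Ideal.pow_right_mono (Ideal.map_le_iff_le_comap.mpr fun a ha =>
    Ideal.mem_comap.mpr (haveI := hφ; map_nonunit φ a ha)) n

theorem mapMat_isAdicContinuous (φ : A →+* B) (hφ : IsLocalHom φ)
    {M : GQ →* Matrix (Fin 2) (Fin 2) A} (hM : IsAdicContinuousMat M) :
    IsAdicContinuousMat (mapMat φ M) := by
  intro n
  obtain ⟨L, hL, h⟩ := hM n
  refine ⟨L, hL, fun σ hσ i j => ?_⟩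
  have h1 : (mapMat φ M σ - 1) i j = φ ((M σ - 1) i j) := by
    by_cases hij : i = j
    · subst hij
      simp [Matrix.sub_apply, Matrix.map_apply, Matrix.one_apply_eq]
    · simp [Matrix.sub_apply, Matrix.map_apply, Matrix.one_apply_ne hij]
  rw [h1]
  exact map_maximalIdeal_pow_le φ hφ n (Ideal.mem_map_of_mem φ (h σ hσ i j))

theorem toMatrix_baseChangeAlong (ρ : GaloisRepAdic A) (b : Module.Basis (Fin 2) A ρ.V)
    (φ : A →+* B) (hφ : IsLocalHom φ) :
    letI : Algebra A B := φ.toAlgebra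
    toMatrix (ρ.baseChangeAlong φ hφ) (Algebra.TensorProduct.basis B b) =
      mapMat φ (toMatrix ρ b) := by
  letI : Algebra A B := φ.toAlgebra
  ext σ : 1
  show LinearMap.toMatrix (Algebra.TensorProduct.basis B b) (Algebra.TensorProduct.basis B b)
    ((ρ.ρ σ).baseChange B) = (LinearMap.toMatrix b b (ρ.ρ σ)).map φ
  exact LinearMap.toMatrix_baseChange B (ρ.ρ σ) b b

/-- Base change of the representation attached to matrices is attached to the mapped matrices. -/
theorem baseChangeAlong_ofMatrix_isEquiv (M : GQ →* Matrix (Fin 2) (Fin 2) A)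
    (hM : IsAdicContinuousMat M) (φ : A →+* B) (hφ : IsLocalHom φ) :
    (ofMatrix (mapMat φ M) (mapMat_isAdicContinuous φ hφ hM)).IsEquiv
      ((ofMatrix M hM).baseChangeAlong φ hφ) := by
  letI : Algebra A B := φ.toAlgebra
  have h := toMatrix_baseChangeAlong (ofMatrix M hM) (Pi.basisFun A (Fin 2)) φ hφ
  have h2 := ofMatrix_toMatrix_isEquiv ((ofMatrix M hM).baseChangeAlong φ hφ)
    (Algebra.TensorProduct.basis B (Pi.basisFun A (Fin 2)))
  have h3 : toMatrix ((ofMatrix M hM).baseChangeAlong φ hφ)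
      (Algebra.TensorProduct.basis B (Pi.basisFun A (Fin 2))) = mapMat φ M := by
    rw [h]
    congr 1
    exact toMatrix_ofMatrix M hM
  convert h2 using 2
  exact h3.symm

end BaseChange

end Fermat.Agent.S53.MatrixRep
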