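import Mathlib

set_option autoImplicit false
set_option linter.unusedSectionVars false
set_option linter.overlappingInstances false

namespace Fermat.Agent.S53.NFHensel

open IsLocalRing Matrix

/-- Normalisation data for a residual `2 × 2` matrix representation. -/
structure NormData (G : Type*) (k : Type*) [Group G] [Field k] where
  rbar : G →* Matrix (Fin 2) (Fin 2) k
  g0 : G
  g1 : G
  i : Fin 2
  j : Fin 2
  h00 : rbar g0 0 0 = 0
  h10 : rbar g0 1 0 = 1
  hcomm : (rbar g0 * rbar g1 - rbar g1 * rbar g0) i j ≠ 0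

section Centraliser

variable {A : Type*} [CommRing A]

/-- The centraliser of a matrix whose first column is `e₂` consists of `α + β C`. -/
theorem eq_add_smul_of_commute {C X : Matrix (Fin 2) (Fin 2) A} (h00 : C 0 0 = 0) (h10 : C 1 0 = 1)
    (h : X * C = C * X) : X = Matrix.scalar (Fin 2) (X 0 0) + X 1 0 • C := by
  have e00 := congrFun (congrFun h 0) 0
  have e10 := congrFun (congrFun h 1) 0
  simp only [Matrix.mul_apply, Fin.sum_univ_two, h00, h10] at e00 e10
  ext a b
  fin_cases a <;> fin_cases b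
  · simp [Matrix.scalar, h00]
  · simp [Matrix.scalar]; linear_combination e00
  · simp [Matrix.scalar, h10]
  · simp [Matrix.scalar]; linear_combination e10

/-- Two matrices with first column `e₂` that are conjugate are equal. -/
theorem eq_of_conj_of_firstCol {C C' : Matrix (Fin 2) (Fin 2) A} (P : (Matrix (Fin 2) (Fin 2) A)ˣ)
    (h00 : C 0 0 = 0) (h10 : C 1 0 = 1) (h00' : C' 0 0 = 0) (h10' : C' 1 0 = 1)
    (h : (P : Matrix (Fin 2) (Fin 2) A) * C = C' * P) : C = C' := by
  have hC' : C' = (P : Matrix (Fin 2) (Fin 2) A) * C * ((P⁻¹ : (Matrix (Fin 2) (Fin 2) A)ˣ) : Matrix _ _ A) := by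
    rw [h, mul_assoc, Units.mul_inv, mul_one]
  have htr : C'.trace = C.trace := by
    rw [hC', Matrix.trace_mul_cycle, Units.inv_mul, one_mul]
  have hdet : C'.det = C.det := by
    rw [hC', Matrix.det_mul, Matrix.det_mul, mul_comm, ← mul_assoc, ← Matrix.det_mul, Units.inv_mul,
      Matrix.det_one, one_mul]
  simp only [Matrix.trace_fin_two, Matrix.det_fin_two, h00, h10, h00', h10'] at htr hdet
  ext a b
  fin_cases a <;> fin_cases b
  · simp [h00, h00']
  · simp; linear_combination hdet
  · simp [h10, h10']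
  · simp; linear_combination (-1 : A) * htr

end Centraliser

section Identities

variable {A : Type*} [CommRing A]

theorem conj_key_identity (α β : A) (C M : Matrix (Fin 2) (Fin 2) A) :
    (α • (1 : Matrix (Fin 2) (Fin 2) A) + β • C) * M * adjugate (α • (1 : Matrix (Fin 2) (Fin 2) A) + β • C) =
      (α * α) • M + (α * β) • ((C * M - M * C) + trace C • M) + (β * β) • (C * M * adjugate C) := by
  ext a b
  fin_cases a <;> fin_cases b <;>
    simp [Matrix.mul_apply, Fin.sum_univ_two, Matrix.adjugate_fin_two, Matrix.trace_fin_two] <;> ring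

theorem det_smul_one_add_smul (α β : A) (C : Matrix (Fin 2) (Fin 2) A) :
    det (α • (1 : Matrix (Fin 2) (Fin 2) A) + β • C) = α * α + α * β * trace C + β * β * det C := by
  simp [Matrix.det_fin_two, Matrix.trace_fin_two]
  ring

end Identities

section NormLift

variable {G : Type*} [Group G] {A : Type*} [CommRing A] [IsLocalRing A]

/-- A normalised lift of the residual matrix representation `D.rbar`. -/
structure IsNormLift (D : NormData G (ResidueField A)) (c : A)
    (r : G →* Matrix (Fin 2) (Fin 2) A) : Prop where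
  lift : ∀ g, (r g).map (residue A) = D.rbar g
  h00 : r D.g0 0 0 = 0
  h10 : r D.g0 1 0 = 1
  hc : r D.g1 D.i D.j = c

theorem isUnit_comm_entry {D : NormData G (ResidueField A)}
    {r : G →* Matrix (Fin 2) (Fin 2) A} (hr : ∀ g, (r g).map (residue A) = D.rbar g) :
    IsUnit ((r D.g0 * r D.g1 - r D.g1 * r D.g0) D.i D.j) := by
  have h : residue A ((r D.g0 * r D.g1 - r D.g1 * r D.g0) D.i D.j) =
      (D.rbar D.g0 * D.rbar D.g1 - D.rbar D.g1 * D.rbar D.g0) D.i D.j := by
    rw [← hr D.g0, ← hr D.g1]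
    simp [Matrix.mul_apply, Fin.sum_univ_two]
  by_contra hu
  have h0 : residue A ((r D.g0 * r D.g1 - r D.g1 * r D.g0) D.i D.j) = 0 :=
    (residue_eq_zero_iff _).mpr hu
  exact D.hcomm (h ▸ h0)

/-- Uniqueness of normalised lifts in their conjugacy class. -/
theorem IsNormLift.unique {D : NormData G (ResidueField A)} {c : A}
    {r r' : G →* Matrix (Fin 2) (Fin 2) A} (hr : IsNormLift D c r) (hr' : IsNormLift D c r')
    (P : (Matrix (Fin 2) (Fin 2) A)ˣ)
    (hP : ∀ g, (P : Matrix (Fin 2) (Fin 2) A) * r g = r' g * P) :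
    r = r' ∧ (P : Matrix (Fin 2) (Fin 2) A) = Matrix.scalar (Fin 2) ((P : Matrix (Fin 2) (Fin 2) A) 0 0) := by
  set X : Matrix (Fin 2) (Fin 2) A := (P : Matrix (Fin 2) (Fin 2) A) with hX
  set C := r D.g0 with hC
  set M := r D.g1 with hM
  have hCC' : C = r' D.g0 := eq_of_conj_of_firstCol P hr.h00 hr.h10 hr'.h00 hr'.h10 (hP D.g0)
  have hcomm : X * C = C * X := by rw [hP D.g0, ← hCC']
  have hXform : X = X 0 0 • (1 : Matrix (Fin 2) (Fin 2) A) + X 1 0 • C := by
    refine (eq_add_smul_of_commute hr.h00 hr.h10 hcomm).trans ?_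
    ext a b
    simp [Matrix.scalar, Matrix.one_apply, Matrix.diagonal, hC]
  set α := X 0 0 with hα
  set β := X 1 0 with hβ
  -- the key equation
  have hkey : X * M * adjugate X = det X • r' D.g1 := by
    rw [hP D.g1, mul_assoc, Matrix.mul_adjugate, Matrix.mul_smul, mul_one]
  have hentry := congrFun (congrFun hkey D.i) D.j
  rw [hXform, conj_key_identity, det_smul_one_add_smul] at hentry
  simp only [Matrix.add_apply, Matrix.smul_apply, smul_eq_mul, hr'.hc] at hentry
  have hMc : M D.i D.j = c := hr.hc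
  rw [hMc] at hentry
  set κ := (C * M - M * C) D.i D.j with hκ
  have hκu : IsUnit κ := isUnit_comm_entry hr.lift
  set t := (C * M * adjugate C) D.i D.j with ht
  have hβeq : β * (α * κ + β * (t - c * det C)) = 0 := by linear_combination hentry
  -- α is a unit, β is in the maximal ideal
  have hdetu : IsUnit (det X) := (Matrix.isUnit_iff_isUnit_det X).mp P.isUnit
  have hβm : β ∈ maximalIdeal A := by
    -- reduce the commutation with `r g1`
    by_contra hβu
    have hβu' : IsUnit β := by
      by_contra h; exact hβu ((mem_maximalIdeal _).mpr h)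
    have h1 := hP D.g1
    have h2 : X * M - M * X = β • (C * M - M * C) := by
      conv_lhs => rw [hXform]
      simp only [add_mul, mul_add, smul_mul_assoc, mul_smul_comm, one_mul, mul_one, smul_sub]
      abel
    have h3 : (X * M - M * X).map (residue A) = 0 := by
      have hXM : (X * M).map (residue A) = X.map (residue A) * D.rbar D.g1 := by
        rw [Matrix.map_mul, hr.lift]
      have hMX : (M * X).map (residue A) = D.rbar D.g1 * X.map (residue A) := by
        rw [Matrix.map_mul, hr.lift]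
      have hPM : (X * M).map (residue A) = D.rbar D.g1 * X.map (residue A) := by
        rw [h1, Matrix.map_mul, hr'.lift]
      rw [Matrix.map_sub (f := residue A) (by intro a b; exact map_sub _ a b), hPM, hMX, sub_self]
    have h4 := congrFun (congrFun h3 D.i) D.j
    rw [h2] at h4
    simp only [Matrix.map_apply, Matrix.smul_apply, smul_eq_mul, Matrix.zero_apply, map_mul] at h4
    have : IsUnit (residue A β * residue A κ) := (hβu'.map _).mul (hκu.map _)
    exact this.ne_zero h4
  have hαu : IsUnit α := by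
    by_contra hα'
    have hαm : α ∈ maximalIdeal A := (mem_maximalIdeal _).mpr hα'
    have : det X ∈ maximalIdeal A := by
      rw [hXform, det_smul_one_add_smul]
      exact Ideal.add_mem _ (Ideal.add_mem _ (Ideal.mul_mem_left _ _ hαm)
        (Ideal.mul_mem_right _ _ (Ideal.mul_mem_right _ _ hαm)))
        (Ideal.mul_mem_right _ _ (Ideal.mul_mem_right _ _ hβm))
    exact (mem_maximalIdeal _).mp this hdetu
  have hu : IsUnit (α * κ + β * (t - c * det C)) := by
    by_contra h
    have hm : α * κ + β * (t - c * det C) ∈ maximalIdeal A := (mem_maximalIdeal _).mpr h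
    have : α * κ ∈ maximalIdeal A := by
      have := Ideal.sub_mem _ hm (Ideal.mul_mem_right (t - c * det C) _ hβm)
      simpa using this
    exact (mem_maximalIdeal _).mp this (hαu.mul hκu)
  have hβ0 : β = 0 := by
    exact hu.mul_left_eq_zero.mp hβeq
  have hXs : X = α • (1 : Matrix (Fin 2) (Fin 2) A) := by
    rw [hXform, hβ0, zero_smul, add_zero]
  refine ⟨?_, ?_⟩
  · ext g : 1
    have h1 := hP g
    rw [hXs] at h1
    simp only [smul_mul_assoc, one_mul, mul_smul_comm, mul_one] at h1
    have : α • r g = α • r' g := h1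
    have h2 := congrArg (fun Y => (hαu.unit⁻¹ : Aˣ).1 • Y) this
    simpa [smul_smul] using h2
  · rw [hXs]
    ext a b
    simp [Matrix.scalar, Matrix.one_apply, Matrix.diagonal]

end NormLift

section Existence

variable {G : Type*} [Group G] {A : Type*} [CommRing A] [IsLocalRing A]

/-- Conjugation of a matrix representation by an invertible matrix. -/
def conjHom (P : (Matrix (Fin 2) (Fin 2) A)ˣ) (r : G →* Matrix (Fin 2) (Fin 2) A) :
    G →* Matrix (Fin 2) (Fin 2) A where
  toFun g := (P : Matrix (Fin 2) (Fin 2) A) * r g *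
    ((P⁻¹ : (Matrix (Fin 2) (Fin 2) A)ˣ) : Matrix (Fin 2) (Fin 2) A)
  map_one' := by simp
  map_mul' g h := by
    simp only [map_mul]
    calc (P : Matrix (Fin 2) (Fin 2) A) * (r g * r h) * ((P⁻¹ : (Matrix (Fin 2) (Fin 2) A)ˣ) : Matrix _ _ A)
        = (P : Matrix (Fin 2) (Fin 2) A) * r g *
            (((P⁻¹ : (Matrix (Fin 2) (Fin 2) A)ˣ) : Matrix _ _ A) * (P : Matrix (Fin 2) (Fin 2) A)) * r h *
            ((P⁻¹ : (Matrix (Fin 2) (Fin 2) A)ˣ) : Matrix _ _ A) := by
          rw [Units.inv_mul, mul_one]; simp only [mul_assoc]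
      _ = _ := by simp only [mul_assoc]

@[simp]
theorem conjHom_apply (P : (Matrix (Fin 2) (Fin 2) A)ˣ) (r : G →* Matrix (Fin 2) (Fin 2) A) (g : G) :
    conjHom P r g = (P : Matrix (Fin 2) (Fin 2) A) * r g *
      ((P⁻¹ : (Matrix (Fin 2) (Fin 2) A)ˣ) : Matrix (Fin 2) (Fin 2) A) := rfl

theorem conjHom_mul (P Q : (Matrix (Fin 2) (Fin 2) A)ˣ) (r : G →* Matrix (Fin 2) (Fin 2) A) :
    conjHom P (conjHom Q r) = conjHom (P * Q) r := by
  ext g : 1
  simp only [conjHom_apply, Units.val_mul, _root_.mul_inv_rev, mul_assoc]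

theorem conjHom_mul_self (P : (Matrix (Fin 2) (Fin 2) A)ˣ) (r : G →* Matrix (Fin 2) (Fin 2) A) (g : G) :
    conjHom P r g * (P : Matrix (Fin 2) (Fin 2) A) = (P : Matrix (Fin 2) (Fin 2) A) * r g := by
  rw [conjHom_apply, mul_assoc, Units.inv_mul, mul_one]

/-- The reduction of an invertible matrix, as a unit. -/
noncomputable def redUnit (P : (Matrix (Fin 2) (Fin 2) A)ˣ) :
    (Matrix (Fin 2) (Fin 2) (ResidueField A))ˣ :=
  Units.map (RingHom.mapMatrix (residue A)).toMonoidHom P

theorem redUnit_val (P : (Matrix (Fin 2) (Fin 2) A)ˣ) :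
    ((redUnit P : (Matrix (Fin 2) (Fin 2) (ResidueField A))ˣ) : Matrix _ _ _) =
      (P : Matrix (Fin 2) (Fin 2) A).map (residue A) := rfl

theorem redUnit_inv_val (P : (Matrix (Fin 2) (Fin 2) A)ˣ) :
    (((redUnit P)⁻¹ : (Matrix (Fin 2) (Fin 2) (ResidueField A))ˣ) : Matrix _ _ _) =
      ((P⁻¹ : (Matrix (Fin 2) (Fin 2) A)ˣ) : Matrix (Fin 2) (Fin 2) A).map (residue A) := by
  rw [redUnit, ← map_inv]; rfl

theorem map_conjHom (P : (Matrix (Fin 2) (Fin 2) A)ˣ) (r : G →* Matrix (Fin 2) (Fin 2) A) (g : G) :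
    (conjHom P r g).map (residue A) =
      ((redUnit P : (Matrix (Fin 2) (Fin 2) (ResidueField A))ˣ) : Matrix _ _ _) * (r g).map (residue A) *
        (((redUnit P)⁻¹ : (Matrix (Fin 2) (Fin 2) (ResidueField A))ˣ) : Matrix _ _ _) := by
  rw [conjHom_apply, Matrix.map_mul, Matrix.map_mul, redUnit_val, redUnit_inv_val]

theorem map_conjHom_of_red_eq_one {P : (Matrix (Fin 2) (Fin 2) A)ˣ}
    (hP : (P : Matrix (Fin 2) (Fin 2) A).map (residue A) = 1)
    (r : G →* Matrix (Fin 2) (Fin 2) A) (g : G) :
    (conjHom P r g).map (residue A) = (r g).map (residue A) := by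
  have h1 : redUnit P = 1 := Units.ext (by rw [redUnit_val, hP]; rfl)
  rw [map_conjHom, h1]
  simp only [inv_one, Units.val_one, one_mul, mul_one]

/-- Quadratic Hensel: a root in the maximal ideal of `f0 + f1 b + f2 b²` when `f0 ∈ 𝔪`, `f1` a unit. -/
theorem exists_root_quadratic [HenselianLocalRing A] (f0 f1 f2 : A) (h0 : f0 ∈ maximalIdeal A)
    (h1 : IsUnit f1) : ∃ b ∈ maximalIdeal A, f0 + f1 * b + f2 * b * b = 0 := by
  classical
  let p : Polynomial A := Polynomial.X ^ 2 + Polynomial.C f1 * Polynomial.X + Polynomial.C (f0 * f2)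
  have hp : p.Monic := by
    have : p = Polynomial.X ^ 2 + (Polynomial.C f1 * Polynomial.X + Polynomial.C (f0 * f2)) := by
      simp only [p, add_assoc]
    rw [this]
    apply Polynomial.monic_X_pow_add
    exact lt_of_le_of_lt Polynomial.degree_linear_le (by norm_num)
  have he : p.eval (-f1) = f0 * f2 := by simp [p]; ring
  have hd : p.derivative.eval (-f1) = -f1 := by
    simp [p, Polynomial.derivative_pow]; ring
  obtain ⟨e, hroot, hmem⟩ := HenselianLocalRing.is_henselian p hp (-f1)
    (by rw [he]; exact Ideal.mul_mem_right _ _ h0) (by rw [hd]; exact h1.neg)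
  have heq : e * e + f1 * e + f0 * f2 = 0 := by
    have := hroot
    simp only [Polynomial.IsRoot, p, Polynomial.eval_add, Polynomial.eval_pow, Polynomial.eval_X,
      Polynomial.eval_mul, Polynomial.eval_C] at this
    linear_combination this
  have heu : IsUnit e := by
    by_contra h
    have hem : e ∈ maximalIdeal A := (mem_maximalIdeal _).mpr h
    have : f1 ∈ maximalIdeal A := by
      have := Ideal.sub_mem _ hmem hem
      simpa using this
    exact (mem_maximalIdeal _).mp this h1
  obtain ⟨u, rfl⟩ := heu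
  refine ⟨f0 * (u⁻¹ : Aˣ), Ideal.mul_mem_right _ _ h0, ?_⟩
  have hu : (u : A) * (u⁻¹ : Aˣ) = 1 := Units.mul_inv u
  linear_combination (f0 * (u⁻¹ : Aˣ) * (u⁻¹ : Aˣ)) * heq +
    (-(f0 * ((u : A) * (u⁻¹ : Aˣ) + 1) + f0 * f1 * (u⁻¹ : Aˣ))) * hu

end Existence

section ExistenceMain

variable {G : Type*} [Group G] {A : Type*} [CommRing A] [IsLocalRing A]

theorem exists_unit_lift (Q : (Matrix (Fin 2) (Fin 2) (ResidueField A))ˣ) :
    ∃ P : (Matrix (Fin 2) (Fin 2) A)ˣ,
      (P : Matrix (Fin 2) (Fin 2) A).map (residue A) = (Q : Matrix _ _ _) := by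
  choose f hf using fun a b => residue_surjective ((Q : Matrix (Fin 2) (Fin 2) (ResidueField A)) a b)
  let P0 : Matrix (Fin 2) (Fin 2) A := Matrix.of f
  have hmap : P0.map (residue A) = (Q : Matrix _ _ _) := by
    ext a b; simp [P0, hf]
  have hdet : IsUnit P0.det := by
    have h1 : residue A P0.det = (Q : Matrix (Fin 2) (Fin 2) (ResidueField A)).det := by
      rw [← hmap]; exact RingHom.map_det (residue A) P0
    have h2 : IsUnit (Q : Matrix (Fin 2) (Fin 2) (ResidueField A)).det :=
      (Matrix.isUnit_iff_isUnit_det _).mp Q.isUnit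
    exact isUnit_of_map_unit (residue A) _ (h1 ▸ h2)
  exact ⟨((Matrix.isUnit_iff_isUnit_det P0).mpr hdet).unit, hmap⟩

theorem red_inv_eq_one {P : (Matrix (Fin 2) (Fin 2) A)ˣ}
    (hP : (P : Matrix (Fin 2) (Fin 2) A).map (residue A) = 1) :
    ((P⁻¹ : (Matrix (Fin 2) (Fin 2) A)ˣ) : Matrix (Fin 2) (Fin 2) A).map (residue A) = 1 := by
  have h1 : redUnit P = 1 := Units.ext (by rw [redUnit_val, hP]; rfl)
  rw [← redUnit_inv_val, h1]; simp

/-- Step 2: make `r g0` have first column `e₂`, by a conjugation reducing to the identity. -/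
theorem exists_conj_firstCol {D : NormData G (ResidueField A)}
    (r : G →* Matrix (Fin 2) (Fin 2) A) (hr : ∀ g, (r g).map (residue A) = D.rbar g) :
    ∃ U : (Matrix (Fin 2) (Fin 2) A)ˣ, (U : Matrix (Fin 2) (Fin 2) A).map (residue A) = 1 ∧
      conjHom U r D.g0 0 0 = 0 ∧ conjHom U r D.g0 1 0 = 1 := by
  set C := r D.g0 with hC
  have ha : residue A (C 0 0) = 0 := by
    have := congrFun (congrFun (hr D.g0) 0) 0
    simpa [D.h00] using this
  have hc : residue A (C 1 0) = 1 := by
    have := congrFun (congrFun (hr D.g0) 1) 0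
    simpa [D.h10] using this
  let P1 : Matrix (Fin 2) (Fin 2) A := !![1, C 0 0; 0, C 1 0]
  have hdet : IsUnit P1.det := by
    have : P1.det = C 1 0 := by simp [P1, Matrix.det_fin_two]
    rw [this]
    exact isUnit_of_map_unit (residue A) _ (by rw [hc]; exact isUnit_one)
  let P1u : (Matrix (Fin 2) (Fin 2) A)ˣ := ((Matrix.isUnit_iff_isUnit_det P1).mpr hdet).unit
  have hP1u : (P1u : Matrix (Fin 2) (Fin 2) A) = P1 := rfl
  have hred : (P1u : Matrix (Fin 2) (Fin 2) A).map (residue A) = 1 := by
    rw [hP1u]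
    ext a b
    fin_cases a <;> fin_cases b <;> simp [P1, ha, hc]
  refine ⟨P1u⁻¹, red_inv_eq_one hred, ?_⟩
  have hcol : ∀ b, (C * P1) b 0 = P1 b 1 := by
    intro b
    fin_cases b <;> simp [P1, Matrix.mul_apply, Fin.sum_univ_two]
  have hfirst : ∀ a, (conjHom P1u⁻¹ r D.g0) a 0 = (1 : Matrix (Fin 2) (Fin 2) A) a 1 := by
    intro a
    have e1 : conjHom P1u⁻¹ r D.g0 =
        ((P1u⁻¹ : (Matrix (Fin 2) (Fin 2) A)ˣ) : Matrix (Fin 2) (Fin 2) A) * (C * P1) := by
      rw [conjHom_apply, inv_inv, hP1u, mul_assoc]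
    have e2 := congrFun (congrFun (Units.inv_mul P1u) a) 1
    rw [hP1u, Matrix.mul_apply] at e2
    rw [e1, Matrix.mul_apply]
    simp only [hcol]
    exact e2
  exact ⟨by simpa using hfirst 0, by simpa using hfirst 1⟩

/-- Step 3: adjust the `(i,j)` entry of `r g1` by a conjugation commuting with `r g0`. -/
theorem exists_conj_entry [HenselianLocalRing A] {D : NormData G (ResidueField A)} (c : A)
    (hc : residue A c = D.rbar D.g1 D.i D.j)
    (r : G →* Matrix (Fin 2) (Fin 2) A) (hr : ∀ g, (r g).map (residue A) = D.rbar g) :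
    ∃ U : (Matrix (Fin 2) (Fin 2) A)ˣ, (U : Matrix (Fin 2) (Fin 2) A).map (residue A) = 1 ∧
      conjHom U r D.g0 = r D.g0 ∧ conjHom U r D.g1 D.i D.j = c := by
  set C := r D.g0 with hC
  set M := r D.g1 with hM
  set κ := (C * M - M * C) D.i D.j with hκ
  have hκu : IsUnit κ := isUnit_comm_entry hr
  set t := (C * M * adjugate C) D.i D.j with ht
  have hf0 : M D.i D.j - c ∈ maximalIdeal A := by
    rw [← residue_eq_zero_iff, map_sub, hc, ← hr D.g1, Matrix.map_apply]
    exact sub_self _
  have hf1 : IsUnit (κ + trace C * (M D.i D.j - c)) := by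
    by_contra h
    have hm : κ + trace C * (M D.i D.j - c) ∈ maximalIdeal A := (mem_maximalIdeal _).mpr h
    have : κ ∈ maximalIdeal A := by
      have := Ideal.sub_mem _ hm (Ideal.mul_mem_left _ (trace C) hf0)
      simpa using this
    exact (mem_maximalIdeal _).mp this hκu
  obtain ⟨b, hbm, hb⟩ := exists_root_quadratic (M D.i D.j - c) (κ + trace C * (M D.i D.j - c))
    (t - c * det C) hf0 hf1
  let u : Matrix (Fin 2) (Fin 2) A := (1 : A) • (1 : Matrix (Fin 2) (Fin 2) A) + b • C
  have hdetu : det u = 1 + b * trace C + b * b * det C := by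
    simp only [u]; rw [det_smul_one_add_smul]; ring
  have hdetu' : IsUnit (det u) := by
    by_contra h
    have hm : det u ∈ maximalIdeal A := (mem_maximalIdeal _).mpr h
    have h1 : (1 : A) ∈ maximalIdeal A := by
      have h2 : b * trace C + b * b * det C ∈ maximalIdeal A :=
        Ideal.add_mem _ (Ideal.mul_mem_right _ _ hbm) (Ideal.mul_mem_right _ _ (Ideal.mul_mem_right _ _ hbm))
      have := Ideal.sub_mem _ hm h2
      rw [hdetu] at this
      have h3 : (1 : A) + b * trace C + b * b * det C - (b * trace C + b * b * det C) = 1 := by ring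
      rwa [h3] at this
    exact (Ideal.ne_top_iff_one _).mp (maximalIdeal.isMaximal A).ne_top h1
  let U : (Matrix (Fin 2) (Fin 2) A)ˣ := ((Matrix.isUnit_iff_isUnit_det u).mpr hdetu').unit
  have hU : (U : Matrix (Fin 2) (Fin 2) A) = u := rfl
  have hbres : residue A b = 0 := (residue_eq_zero_iff _).mpr hbm
  have hred : (U : Matrix (Fin 2) (Fin 2) A).map (residue A) = 1 := by
    rw [hU]
    ext a' b'
    simp [u, Matrix.one_apply, hbres]
  have hcommu : u * C = C * u := by
    simp only [u, add_mul, mul_add, smul_mul_assoc, mul_smul_comm, one_mul, mul_one]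
  refine ⟨U, hred, ?_, ?_⟩
  · rw [conjHom_apply, hU, hcommu, mul_assoc, ← hU, Units.mul_inv, mul_one]
  · have h1 := conjHom_mul_self U r D.g1
    have h2 : conjHom U r D.g1 * (u * adjugate u) = u * M * adjugate u := by
      rw [← mul_assoc, ← hU, h1]
    rw [Matrix.mul_adjugate, Matrix.mul_smul, mul_one] at h2
    have h3 := congrFun (congrFun h2 D.i) D.j
    simp only [u] at h3
    rw [conj_key_identity, det_smul_one_add_smul] at h3
    simp only [Matrix.add_apply, Matrix.smul_apply, smul_eq_mul] at h3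
    have h4 : (1 * 1 + 1 * b * trace C + b * b * det C) * (conjHom U r D.g1 D.i D.j - c) = 0 := by
      linear_combination h3 + hb
    have h5 : IsUnit ((1 : A) * 1 + 1 * b * trace C + b * b * det C) := by
      have : (1 : A) * 1 + 1 * b * trace C + b * b * det C = det u := by rw [hdetu]; ring
      rw [this]; exact hdetu'
    have := h5.mul_right_eq_zero.mp h4
    exact sub_eq_zero.mp this

/-- Existence of a normalised lift in every conjugacy class of lifts. -/
theorem exists_normLift_conj [HenselianLocalRing A] (D : NormData G (ResidueField A)) (c : A)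
    (hc : residue A c = D.rbar D.g1 D.i D.j) (r : G →* Matrix (Fin 2) (Fin 2) A)
    (Q : (Matrix (Fin 2) (Fin 2) (ResidueField A))ˣ)
    (hQ : ∀ g, (Q : Matrix (Fin 2) (Fin 2) (ResidueField A)) * (r g).map (residue A) = D.rbar g * Q) :
    ∃ P : (Matrix (Fin 2) (Fin 2) A)ˣ, IsNormLift D c (conjHom P r) := by
  obtain ⟨P0, hP0⟩ := exists_unit_lift Q
  have hr0 : ∀ g, (conjHom P0 r g).map (residue A) = D.rbar g := by
    intro g
    rw [map_conjHom]
    have hQ' : redUnit P0 = Q := Units.ext (by rw [redUnit_val, hP0])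
    rw [hQ', hQ g, mul_assoc, Units.mul_inv, mul_one]
  obtain ⟨U1, hU1, h00, h10⟩ := exists_conj_firstCol (D := D) (conjHom P0 r) hr0
  have hr1 : ∀ g, (conjHom U1 (conjHom P0 r) g).map (residue A) = D.rbar g := by
    intro g; rw [map_conjHom_of_red_eq_one hU1, hr0]
  obtain ⟨U2, hU2, hg0, hg1⟩ := exists_conj_entry c hc (conjHom U1 (conjHom P0 r)) hr1
  refine ⟨U2 * (U1 * P0), ?_⟩
  rw [← conjHom_mul, ← conjHom_mul]
  refine ⟨fun g => ?_, ?_, ?_, hg1⟩
  · rw [map_conjHom_of_red_eq_one hU2, hr1]
  · rw [hg0]; exact h00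
  · rw [hg0]; exact h10

/-- A complete local ring is Henselian. -/
theorem henselianLocalRing_of_isAdicComplete (A : Type*) [CommRing A] [IsLocalRing A]
    [IsAdicComplete (maximalIdeal A) A] : HenselianLocalRing A where
  is_henselian f hf a₀ h₁ h₂ :=
    HenselianRing.is_henselian (I := maximalIdeal A) f hf a₀ h₁ (h₂.map _)

end ExistenceMain

end Fermat.Agent.S53.NFHensel
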