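import Mathlib.LinearAlgebra.Matrix.NonsingularInverse
import Mathlib.LinearAlgebra.Matrix.Notation
import Mathlib.RingTheory.LocalRing.MaximalIdeal.Basic
import Mathlib.RingTheory.Henselian
import Mathlib.Tactic.LinearCombination
import Mathlib.Tactic.FinCases

set_option autoImplicit false

namespace Fermat.Agent.S53.NF

open Matrix IsLocalRing

section Unique

variable {A : Type*} [CommRing A]

/-- If `B N = N' B` with `B` invertible and both `N`, `N'` have first column `e₂`, then
`N' = N` and `B = α + β N` where `(α, β)` is the first column of `B`. -/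
theorem companion_intertwiner (N N' B : Matrix (Fin 2) (Fin 2) A)
    (hN : N 0 0 = 0 ∧ N 1 0 = 1) (hN' : N' 0 0 = 0 ∧ N' 1 0 = 1)
    (hB : IsUnit B.det) (h0 : B * N = N' * B) :
    N' = N ∧ B = B 0 0 • (1 : Matrix (Fin 2) (Fin 2) A) + B 1 0 • N := by
  have e00 := congrFun (congrFun h0 0) 0
  have e01 := congrFun (congrFun h0 0) 1
  have e10 := congrFun (congrFun h0 1) 0
  have e11 := congrFun (congrFun h0 1) 1
  simp only [Matrix.mul_apply, Fin.sum_univ_two, hN.1, hN.2, hN'.1, hN'.2, mul_zero, mul_one,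
    zero_mul, one_mul, zero_add] at e00 e01 e10 e11
  -- `B = α + β N'`
  have hB' : B = B 0 0 • (1 : Matrix (Fin 2) (Fin 2) A) + B 1 0 • N' := by
    ext a b
    fin_cases a <;> fin_cases b <;>
      simp [hN'.1, hN'.2, e00, e10] <;> ring
  -- `B (N - N') = 0`
  have hkey : B * (N - N') = 0 := by
    rw [mul_sub, h0]
    conv_lhs => rw [hB']
    simp only [Matrix.mul_add, Matrix.add_mul, Matrix.mul_smul, Matrix.smul_mul, Matrix.mul_one,
      Matrix.one_mul]
    abel
  have hNN : N - N' = 0 := by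
    have hinv : Invertible B := Matrix.invertibleOfIsUnitDet B hB
    have := congrArg (fun X => ⅟B * X) hkey
    simpa [← Matrix.mul_assoc] using this
  have hNeq : N' = N := (sub_eq_zero.mp hNN).symm
  exact ⟨hNeq, by rw [← hNeq]; exact hB'⟩


/-- Uniqueness of the normal form: an intertwiner between two normalised pairs `(N, M1)`,
`(N', M1')` that agree modulo the maximal ideal is a scalar matrix. -/
theorem normalForm_unique [IsLocalRing A] (N N' M1 M1' B : Matrix (Fin 2) (Fin 2) A)
    (hN : N 0 0 = 0 ∧ N 1 0 = 1) (hN' : N' 0 0 = 0 ∧ N' 1 0 = 1)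
    (hB : IsUnit B.det) (h0 : B * N = N' * B) (h1 : B * M1 = M1' * B)
    (i j : Fin 2) (hij : M1 i j = M1' i j)
    (hres : ∀ a b, M1' a b - M1 a b ∈ maximalIdeal A)
    (hu : IsUnit ((N * M1 - M1 * N) i j)) :
    N' = N ∧ ∃ α : A, IsUnit α ∧ B = α • (1 : Matrix (Fin 2) (Fin 2) A) := by
  obtain ⟨hNeq, hBform⟩ := companion_intertwiner N N' B hN hN' hB h0
  refine ⟨hNeq, ?_⟩
  set α := B 0 0 with hα
  set β := B 1 0 with hβ
  set Δ := M1' - M1 with hΔ
  set K := N * M1 - M1 * N with hK
  -- key identity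
  have key : β • K = Δ * B := by
    have h1' : (α • (1 : Matrix (Fin 2) (Fin 2) A) + β • N) * M1
        = M1' * (α • (1 : Matrix (Fin 2) (Fin 2) A) + β • N) := by
      rw [← hBform]; exact h1
    have : Δ * B = Δ * (α • (1 : Matrix (Fin 2) (Fin 2) A) + β • N) := by rw [← hBform]
    rw [this, hΔ, hK]
    simp only [Matrix.mul_add, Matrix.add_mul, Matrix.mul_smul, Matrix.smul_mul, Matrix.mul_one,
      Matrix.one_mul, Matrix.sub_mul, smul_sub] at h1' ⊢
    have e : β • (N * M1) = α • M1' + β • (M1' * N) - α • M1 := by rw [← h1']; abel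
    rw [e]; abel
  -- `β ∈ m`
  have hβm : β ∈ maximalIdeal A := by
    have h := congrFun (congrFun key i) j
    simp only [Matrix.smul_apply, smul_eq_mul, Matrix.mul_apply, Fin.sum_univ_two] at h
    have hmem : β * K i j ∈ maximalIdeal A := by
      rw [h]
      exact Ideal.add_mem _ (Ideal.mul_mem_right _ _ (hres i 0)) (Ideal.mul_mem_right _ _ (hres i 1))
    by_contra hβu
    have hβunit : IsUnit β := by
      rwa [IsLocalRing.mem_maximalIdeal, mem_nonunits_iff, not_not] at hβu
    exact (IsLocalRing.mem_maximalIdeal _).mp hmem (hβunit.mul hu)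
  -- `α` is a unit
  have hB11 : B 1 1 = α + β * N 1 1 := by
    have := congrFun (congrFun hBform 1) 1
    simpa using this
  have hαu : IsUnit α := by
    by_contra hαn
    have hαm : α ∈ maximalIdeal A := by
      rwa [IsLocalRing.mem_maximalIdeal, mem_nonunits_iff]
    have : B.det ∈ maximalIdeal A := by
      rw [Matrix.det_fin_two]
      exact Ideal.sub_mem _ (Ideal.mul_mem_right _ _ hαm) (Ideal.mul_mem_left _ _ hβm)
    exact (IsLocalRing.mem_maximalIdeal _).mp this hB
  -- multiply key by adjugate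
  have key2 : β • (K * B.adjugate) = B.det • Δ := by
    have := congrArg (fun X => X * B.adjugate) key
    simp only [Matrix.smul_mul, Matrix.mul_assoc, Matrix.mul_adjugate, Matrix.mul_smul,
      Matrix.mul_one] at this
    exact this
  have hadj : B.adjugate = α • (1 : Matrix (Fin 2) (Fin 2) A) + β • N.adjugate := by
    conv_lhs => rw [hBform]
    rw [Matrix.adjugate_fin_two, Matrix.adjugate_fin_two]
    ext a b
    fin_cases a <;> fin_cases b <;> simp [hN.1, hN.2]
  have h := congrFun (congrFun key2 i) j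
  have hΔij : Δ i j = 0 := by rw [hΔ, Matrix.sub_apply, hij, sub_self]
  rw [Matrix.smul_apply, Matrix.smul_apply, hΔij, smul_zero, hadj] at h
  simp only [Matrix.mul_add, Matrix.mul_smul, Matrix.mul_one, Matrix.add_apply, Matrix.smul_apply,
    smul_eq_mul] at h
  -- `h : β * (α * K i j + β * (K * N.adjugate) i j) = 0`
  have hunit : IsUnit (α * K i j + β * (K * N.adjugate) i j) := by
    by_contra hn
    have hm : α * K i j + β * (K * N.adjugate) i j ∈ maximalIdeal A := by
      rwa [IsLocalRing.mem_maximalIdeal, mem_nonunits_iff]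
    have hm2 : α * K i j ∈ maximalIdeal A := by
      have := Ideal.sub_mem _ hm (Ideal.mul_mem_right ((K * N.adjugate) i j) _ hβm)
      simpa using this
    exact (IsLocalRing.mem_maximalIdeal _).mp hm2 (hαu.mul hu)
  have hβ0 : β = 0 := by
    exact hunit.mul_left_eq_zero.mp h
  refine ⟨α, hαu, ?_⟩
  rw [hBform, hβ0, zero_smul, add_zero]


/-- Function version of uniqueness: two normalised matrix families that are conjugate and agree
modulo the maximal ideal at `g1` are equal. -/
theorem normalForm_eq [IsLocalRing A] {G : Type*} (M M' : G → Matrix (Fin 2) (Fin 2) A)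
    (B : Matrix (Fin 2) (Fin 2) A) (g0 g1 : G) (i j : Fin 2)
    (hN : M g0 0 0 = 0 ∧ M g0 1 0 = 1) (hN' : M' g0 0 0 = 0 ∧ M' g0 1 0 = 1)
    (hB : IsUnit B.det) (hBM : ∀ g, B * M g = M' g * B)
    (hij : M g1 i j = M' g1 i j)
    (hres : ∀ a b, M' g1 a b - M g1 a b ∈ maximalIdeal A)
    (hu : IsUnit ((M g0 * M g1 - M g1 * M g0) i j)) : M' = M := by
  obtain ⟨-, α, hα, rfl⟩ := normalForm_unique (M g0) (M' g0) (M g1) (M' g1) B hN hN' hB
    (hBM g0) (hBM g1) i j hij hres hu
  funext g
  have h := hBM g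
  simp only [Matrix.smul_mul, Matrix.mul_smul, Matrix.one_mul, Matrix.mul_one] at h
  obtain ⟨u, rfl⟩ := hα
  have := congrArg (fun X => (↑u⁻¹ : A) • X) h
  simpa [smul_smul] using this.symm

end Unique

section Exists

variable {A : Type*} [CommRing A] [IsLocalRing A]

/-- A quadratic `c0 + c1 β + c2 β²` with `c0 ∈ m` and `c1` a unit has a root in `m`
over a Henselian local ring. -/
theorem exists_root_quadratic [HenselianRing A (maximalIdeal A)]
    (c0 c1 c2 : A) (h0 : c0 ∈ maximalIdeal A) (h1 : IsUnit c1) :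
    ∃ β ∈ maximalIdeal A, c0 + c1 * β + c2 * β ^ 2 = 0 := by
  classical
  let f : Polynomial A := Polynomial.X ^ 2 + Polynomial.C c1 * Polynomial.X + Polynomial.C (c0 * c2)
  have hfm : f.Monic := by
    have : f = Polynomial.X ^ 2 + (Polynomial.C c1 * Polynomial.X + Polynomial.C (c0 * c2)) := by
      simp only [f]; ring
    rw [this]
    apply Polynomial.monic_X_pow_add
    refine lt_of_le_of_lt (Polynomial.degree_add_le _ _) ?_
    refine max_lt ?_ ?_
    · refine lt_of_le_of_lt (Polynomial.degree_C_mul_X_le _) (by norm_num)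
    · refine lt_of_le_of_lt Polynomial.degree_C_le (by norm_num)
  have hev : f.eval (-c1) ∈ maximalIdeal A := by
    have : f.eval (-c1) = c0 * c2 := by simp [f]; ring
    rw [this]; exact Ideal.mul_mem_right _ _ h0
  have hder : IsUnit (Ideal.Quotient.mk (maximalIdeal A) (f.derivative.eval (-c1))) := by
    have : f.derivative.eval (-c1) = -c1 := by
      simp [f, Polynomial.derivative_pow]; ring
    rw [this]
    exact (h1.neg).map _
  obtain ⟨δ, hδroot, hδ⟩ := HenselianRing.is_henselian f hfm (-c1) hev hder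
  have hδu : IsUnit δ := by
    by_contra hn
    have hm : δ ∈ maximalIdeal A := by rwa [IsLocalRing.mem_maximalIdeal, mem_nonunits_iff]
    have : c1 ∈ maximalIdeal A := by
      have := Ideal.sub_mem _ hδ hm
      simpa using this
    exact (IsLocalRing.mem_maximalIdeal _).mp this h1
  obtain ⟨u, rfl⟩ := hδu
  have hroot : (u : A) ^ 2 + c1 * u + c0 * c2 = 0 := by
    have := hδroot
    simpa [f, Polynomial.IsRoot] using this
  refine ⟨c0 * ↑u⁻¹, Ideal.mul_mem_right _ _ h0, ?_⟩
  have huv : (u : A) * ↑u⁻¹ = 1 := Units.mul_inv u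
  linear_combination (c0 * (↑u⁻¹ : A) ^ 2) * hroot
    + (-c0 * (1 + ↑u⁻¹ * u) - c1 * c0 * ↑u⁻¹) * huv


/-- Conjugation by a matrix congruent to `1` does not change the reduction. -/
theorem conj_map_residue (C : (Matrix (Fin 2) (Fin 2) A)ˣ)
    (hC : C.val.map (residue A) = 1) (X : Matrix (Fin 2) (Fin 2) A) :
    (C⁻¹.val * X * C.val).map (residue A) = X.map (residue A) := by
  have h1 : (residue A).mapMatrix C.val = 1 := hC
  have h2 : (residue A).mapMatrix C⁻¹.val = 1 := by
    have := congrArg (residue A).mapMatrix (Units.inv_mul C)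
    rw [map_mul, h1, mul_one, map_one] at this
    exact this
  have : (residue A).mapMatrix (C⁻¹.val * X * C.val)
      = (residue A).mapMatrix X := by
    rw [map_mul, map_mul, h1, h2, one_mul, mul_one]
  exact this

theorem sub_mem_of_map_residue_eq {X Y : Matrix (Fin 2) (Fin 2) A}
    (h : X.map (residue A) = Y.map (residue A)) (a b : Fin 2) :
    X a b - Y a b ∈ maximalIdeal A := by
  have := congrFun (congrFun h a) b
  simp only [Matrix.map_apply] at this
  rw [← IsLocalRing.residue_eq_zero_iff, map_sub, this, sub_self]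

theorem isUnit_of_sub_mem {x y : A} (h : x - y ∈ maximalIdeal A) (hy : IsUnit y) : IsUnit x := by
  by_contra hn
  have hm : x ∈ maximalIdeal A := by rwa [IsLocalRing.mem_maximalIdeal, mem_nonunits_iff]
  have : y ∈ maximalIdeal A := by
    have := Ideal.sub_mem _ hm h
    simpa using this
  exact (IsLocalRing.mem_maximalIdeal _).mp this hy

/-- Stage 1: conjugate so that the first column of `N` becomes `e₂`. -/
theorem exists_conj_first_col (N : Matrix (Fin 2) (Fin 2) A)
    (h00 : N 0 0 ∈ maximalIdeal A) (h10 : N 1 0 - 1 ∈ maximalIdeal A) :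
    ∃ C : (Matrix (Fin 2) (Fin 2) A)ˣ,
      C.val.map (residue A) = 1 ∧
      (C⁻¹.val * N * C.val) 0 0 = 0 ∧
      (C⁻¹.val * N * C.val) 1 0 = 1 := by
  have hu : IsUnit (N 1 0) := isUnit_of_sub_mem h10 isUnit_one
  obtain ⟨u, hu'⟩ := hu
  have huv : N 1 0 * (↑u⁻¹ : A) = 1 := by rw [← hu']; exact Units.mul_inv u
  have hvu : (↑u⁻¹ : A) * N 1 0 = 1 := by rw [mul_comm]; exact huv
  let C1 : Matrix (Fin 2) (Fin 2) A := !![1, N 0 0; 0, N 1 0]
  let D1 : Matrix (Fin 2) (Fin 2) A := !![1, -(N 0 0 * ↑u⁻¹); 0, ↑u⁻¹]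
  have c00 : C1 0 0 = 1 := rfl
  have c01 : C1 0 1 = N 0 0 := rfl
  have c10 : C1 1 0 = 0 := rfl
  have c11 : C1 1 1 = N 1 0 := rfl
  have d00 : D1 0 0 = 1 := rfl
  have d01 : D1 0 1 = -(N 0 0 * ↑u⁻¹) := rfl
  have d10 : D1 1 0 = 0 := rfl
  have d11 : D1 1 1 = ↑u⁻¹ := rfl
  have hCD : C1 * D1 = 1 := by
    ext a b
    fin_cases a <;> fin_cases b <;>
      simp only [Fin.zero_eta, Fin.mk_one, Matrix.mul_apply, Fin.sum_univ_two, c00, c01, c10, c11,
        d00, d01, d10, d11, Matrix.one_apply_eq, Matrix.one_apply_ne, ne_eq, one_ne_zero,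
        zero_ne_one, not_false_eq_true, Fin.isValue]
    · ring
    · ring
    · ring
    · linear_combination huv
  have hDC : D1 * C1 = 1 := by
    ext a b
    fin_cases a <;> fin_cases b <;>
      simp only [Fin.zero_eta, Fin.mk_one, Matrix.mul_apply, Fin.sum_univ_two, c00, c01, c10, c11,
        d00, d01, d10, d11, Matrix.one_apply_eq, Matrix.one_apply_ne, ne_eq, one_ne_zero,
        zero_ne_one, not_false_eq_true, Fin.isValue]
    · ring
    · linear_combination (-(N 0 0)) * hvu
    · ring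
    · linear_combination hvu
  refine ⟨⟨C1, D1, hCD, hDC⟩, ?_, ?_, ?_⟩
  · ext a b
    fin_cases a <;> fin_cases b <;>
      simp only [Fin.zero_eta, Fin.mk_one, Matrix.map_apply, c00, c01, c10, c11,
        Matrix.one_apply_eq, Matrix.one_apply_ne, ne_eq, one_ne_zero,
        zero_ne_one, not_false_eq_true, Fin.isValue, map_one, map_zero]
    · exact (IsLocalRing.residue_eq_zero_iff _).mpr h00
    · have := (IsLocalRing.residue_eq_zero_iff _).mpr h10
      rw [map_sub, map_one, sub_eq_zero] at this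
      exact this
  · show (D1 * N * C1) 0 0 = 0
    simp only [Matrix.mul_apply, Fin.sum_univ_two, c00, c10, d00, d01]
    linear_combination (-(N 0 0)) * hvu
  · show (D1 * N * C1) 1 0 = 1
    simp only [Matrix.mul_apply, Fin.sum_univ_two, c00, c10, d10, d11]
    linear_combination hvu

omit [IsLocalRing A] in
theorem adjugate_fin_two_eq (N : Matrix (Fin 2) (Fin 2) A) :
    N.adjugate = N.trace • (1 : Matrix (Fin 2) (Fin 2) A) - N := by
  rw [Matrix.adjugate_fin_two]
  ext a b
  fin_cases a <;> fin_cases b <;> simp [Matrix.trace_fin_two]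

/-- Stage 2: conjugate by `1 + β N` to fix the `(i, j)` entry of `M1`. -/
theorem exists_conj_entry [HenselianRing A (maximalIdeal A)] (N M1 : Matrix (Fin 2) (Fin 2) A)
    (i j : Fin 2) (τ : A) (hτ : M1 i j - τ ∈ maximalIdeal A)
    (hu : IsUnit ((N * M1 - M1 * N) i j)) :
    ∃ C : (Matrix (Fin 2) (Fin 2) A)ˣ,
      C.val.map (residue A) = 1 ∧ C⁻¹.val * N * C.val = N ∧
      (C⁻¹.val * M1 * C.val) i j = τ := by
  set t := N.trace with ht
  set d := N.det with hd
  set adjN := N.adjugate with hadjN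
  have hadj : adjN = t • (1 : Matrix (Fin 2) (Fin 2) A) - N := adjugate_fin_two_eq N
  set K := (N * M1 - M1 * N) i j with hK
  have hc1 : IsUnit (t * (M1 i j - τ) - K) := by
    refine isUnit_of_sub_mem (y := -K) ?_ hu.neg
    have : t * (M1 i j - τ) - K - -K = t * (M1 i j - τ) := by ring
    rw [this]
    exact Ideal.mul_mem_left _ _ hτ
  obtain ⟨β, hβ, hroot⟩ := exists_root_quadratic (M1 i j - τ) (t * (M1 i j - τ) - K)
    ((adjN * M1 * N) i j - τ * d) hτ hc1
  set e := 1 + β * t + β ^ 2 * d with he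
  have heu : IsUnit e := by
    refine isUnit_of_sub_mem (y := 1) ?_ isUnit_one
    have : e - 1 = β * (t + β * d) := by rw [he]; ring
    rw [this]; exact Ideal.mul_mem_right _ _ hβ
  obtain ⟨eu, heu'⟩ := heu
  have hev : e * (↑eu⁻¹ : A) = 1 := by rw [← heu']; exact Units.mul_inv eu
  have hve : (↑eu⁻¹ : A) * e = 1 := by rw [mul_comm]; exact hev
  let C2 : Matrix (Fin 2) (Fin 2) A := 1 + β • N
  let D2 : Matrix (Fin 2) (Fin 2) A := 1 + β • adjN
  have hNadj : N * adjN = d • (1 : Matrix (Fin 2) (Fin 2) A) := Matrix.mul_adjugate N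
  have hadjN' : adjN * N = d • (1 : Matrix (Fin 2) (Fin 2) A) := Matrix.adjugate_mul N
  have hsum : adjN + N = t • (1 : Matrix (Fin 2) (Fin 2) A) := by rw [hadj]; abel
  have hDC : D2 * C2 = e • (1 : Matrix (Fin 2) (Fin 2) A) := by
    simp only [C2, D2, Matrix.add_mul, Matrix.mul_add, Matrix.one_mul, Matrix.mul_one,
      Matrix.smul_mul, Matrix.mul_smul, hadjN']
    rw [he, add_smul, add_smul, one_smul, mul_smul β t, ← hsum, pow_two, mul_assoc, mul_smul,
      mul_smul, smul_add, smul_add]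
    abel
  have hCD : C2 * D2 = e • (1 : Matrix (Fin 2) (Fin 2) A) := by
    simp only [C2, D2, Matrix.add_mul, Matrix.mul_add, Matrix.one_mul, Matrix.mul_one,
      Matrix.smul_mul, Matrix.mul_smul, hNadj]
    rw [he, add_smul, add_smul, one_smul, mul_smul β t, ← hsum, pow_two, mul_assoc, mul_smul,
      mul_smul, smul_add, smul_add]
    abel
  have hCinv : C2 * ((↑eu⁻¹ : A) • D2) = 1 := by
    rw [Matrix.mul_smul, hCD, smul_smul, hve, one_smul]
  have hinvC : ((↑eu⁻¹ : A) • D2) * C2 = 1 := by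
    rw [Matrix.smul_mul, hDC, smul_smul, hve, one_smul]
  refine ⟨⟨C2, (↑eu⁻¹ : A) • D2, hCinv, hinvC⟩, ?_, ?_, ?_⟩
  · ext a b
    have hβ0 : residue A β = 0 := (IsLocalRing.residue_eq_zero_iff _).mpr hβ
    simp only [C2, Matrix.map_apply, Matrix.add_apply, Matrix.smul_apply, smul_eq_mul, map_add,
      map_mul, hβ0, zero_mul, add_zero]
    by_cases hab : a = b
    · subst hab; simp
    · simp [Matrix.one_apply_ne hab]
  · show ((↑eu⁻¹ : A) • D2) * N * C2 = N
    have hcomm : D2 * N = N * D2 := by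
      simp only [D2, Matrix.add_mul, Matrix.mul_add, Matrix.one_mul, Matrix.mul_one,
        Matrix.smul_mul, Matrix.mul_smul, hNadj, hadjN']
    rw [Matrix.smul_mul, Matrix.smul_mul, hcomm, Matrix.mul_assoc, hDC, Matrix.mul_smul,
      Matrix.mul_one, smul_smul, hve, one_smul]
  · show (((↑eu⁻¹ : A) • D2) * M1 * C2) i j = τ
    have hexp : D2 * M1 * C2 = M1 + β • (adjN * M1 + M1 * N) + (β ^ 2) • (adjN * M1 * N) := by
      simp only [C2, D2, Matrix.add_mul, Matrix.mul_add, Matrix.one_mul, Matrix.mul_one,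
        Matrix.smul_mul, Matrix.mul_smul, smul_smul, smul_add, pow_two]
      abel
    rw [Matrix.smul_mul, Matrix.smul_mul, hexp]
    have hentry : (adjN * M1) i j = t * M1 i j - (N * M1) i j := by
      rw [hadj, Matrix.sub_mul, Matrix.smul_mul, Matrix.one_mul, Matrix.sub_apply,
        Matrix.smul_apply, smul_eq_mul]
    simp only [Matrix.smul_apply, Matrix.add_apply, smul_eq_mul, hentry]
    have hKval : K = (N * M1) i j - (M1 * N) i j := by rw [hK, Matrix.sub_apply]
    rw [hKval] at hroot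
    have : M1 i j + β * (t * M1 i j - (N * M1) i j + (M1 * N) i j)
        + β ^ 2 * (adjN * M1 * N) i j = τ * e := by
      rw [he]; linear_combination hroot
    rw [this, mul_comm τ e, ← mul_assoc, hve, one_mul]

/-- Existence of the normal form over a Henselian local ring. -/
theorem exists_normalForm [HenselianRing A (maximalIdeal A)] (N M1 : Matrix (Fin 2) (Fin 2) A)
    (i j : Fin 2) (τ : A)
    (h00 : N 0 0 ∈ maximalIdeal A) (h10 : N 1 0 - 1 ∈ maximalIdeal A)
    (hτ : M1 i j - τ ∈ maximalIdeal A)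
    (hu : IsUnit ((N * M1 - M1 * N) i j)) :
    ∃ C : (Matrix (Fin 2) (Fin 2) A)ˣ,
      C.val.map (residue A) = 1 ∧
      (C⁻¹.val * N * C.val) 0 0 = 0 ∧ (C⁻¹.val * N * C.val) 1 0 = 1 ∧
      (C⁻¹.val * M1 * C.val) i j = τ := by
  obtain ⟨C1, hC1, hC1a, hC1b⟩ := exists_conj_first_col N h00 h10
  set N₁ := C1⁻¹.val * N * C1.val with hN₁
  set M₁ := C1⁻¹.val * M1 * C1.val with hM₁
  have hinv : C1.val * C1⁻¹.val = 1 := Units.mul_inv C1
  have hcomm : N₁ * M₁ - M₁ * N₁ = C1⁻¹.val * (N * M1 - M1 * N) * C1.val := by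
    rw [hN₁, hM₁, Matrix.mul_sub, Matrix.sub_mul]
    congr 1
    · calc C1⁻¹.val * N * C1.val * (C1⁻¹.val * M1 * C1.val)
          = C1⁻¹.val * N * (C1.val * C1⁻¹.val) * M1 * C1.val := by
            simp only [Matrix.mul_assoc]
        _ = C1⁻¹.val * (N * M1) * C1.val := by
            rw [hinv, Matrix.mul_one]; simp only [Matrix.mul_assoc]
    · calc C1⁻¹.val * M1 * C1.val * (C1⁻¹.val * N * C1.val)
          = C1⁻¹.val * M1 * (C1.val * C1⁻¹.val) * N * C1.val := by
            simp only [Matrix.mul_assoc]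
        _ = C1⁻¹.val * (M1 * N) * C1.val := by
            rw [hinv, Matrix.mul_one]; simp only [Matrix.mul_assoc]
  have hu₁ : IsUnit ((N₁ * M₁ - M₁ * N₁) i j) := by
    rw [hcomm]
    exact isUnit_of_sub_mem
      (sub_mem_of_map_residue_eq (conj_map_residue C1 hC1 (N * M1 - M1 * N)) i j) hu
  have hτ₁ : M₁ i j - τ ∈ maximalIdeal A := by
    have h := sub_mem_of_map_residue_eq (conj_map_residue C1 hC1 M1) i j
    have : M₁ i j - τ = (M₁ i j - M1 i j) + (M1 i j - τ) := by ring
    rw [this]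
    exact Ideal.add_mem _ h hτ
  obtain ⟨C2, hC2, hC2N, hC2M⟩ := exists_conj_entry N₁ M₁ i j τ hτ₁ hu₁
  refine ⟨C1 * C2, ?_, ?_, ?_, ?_⟩
  · rw [Units.val_mul, Matrix.map_mul, hC1, hC2, Matrix.one_mul]
  · have : (C1 * C2)⁻¹.val * N * (C1 * C2).val = C2⁻¹.val * N₁ * C2.val := by
      rw [_root_.mul_inv_rev, Units.val_mul, Units.val_mul, hN₁]
      simp only [Matrix.mul_assoc]
    rw [this, hC2N]; exact hC1a
  · have : (C1 * C2)⁻¹.val * N * (C1 * C2).val = C2⁻¹.val * N₁ * C2.val := by
      rw [_root_.mul_inv_rev, Units.val_mul, Units.val_mul, hN₁]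
      simp only [Matrix.mul_assoc]
    rw [this, hC2N]; exact hC1b
  · have : (C1 * C2)⁻¹.val * M1 * (C1 * C2).val = C2⁻¹.val * M₁ * C2.val := by
      rw [_root_.mul_inv_rev, Units.val_mul, Units.val_mul, hM₁]
      simp only [Matrix.mul_assoc]
    rw [this]; exact hC2M

end Exists

end Fermat.Agent.S53.NF
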