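import Mathlib.LinearAlgebra.Eigenspace.Triangularizable
import Mathlib.LinearAlgebra.TensorProduct.Basis
import Mathlib.LinearAlgebra.Matrix.ToLin
import Mathlib.LinearAlgebra.Dimension.Constructions
import Mathlib.LinearAlgebra.FiniteDimensional.Lemmas
import Mathlib.RingTheory.TensorProduct.Basic
import Mathlib.FieldTheory.IsAlgClosed.Basic

set_option autoImplicit false

namespace Fermat.Agent.S53.NF

open scoped TensorProduct
open Module

section Choice

variable {k : Type*} [Field k] {V : Type*} [AddCommGroup V] [Module k V]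
variable {G : Type*} [Monoid G] (ρ : G →* Module.End k V)
variable (K : Type*) [Field K] [Algebra k K]

theorem one_tmul_eq_zero_iff [Module.Free k V] (v : V) : (1 : K) ⊗ₜ[k] v = 0 ↔ v = 0 := by
  constructor
  · intro h
    let b := Module.Free.chooseBasis k V
    apply b.repr.injective
    ext i
    have := congrArg (fun x => (b.baseChange K).repr x i) h
    simp only [Basis.baseChange_repr_tmul, map_zero, Finsupp.zero_apply] at this
    rw [Algebra.smul_def, mul_one] at this
    simpa using this
  · rintro rfl; exact TensorProduct.tmul_zero _ _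

/-- Absolute irreducibility (in the shape used by the prelude) gives a cyclic vector. -/
theorem exists_cyclic_vector (hV : Module.finrank k V = 2)
    (habs : ∀ W : Submodule K (K ⊗[k] V),
      (∀ g, ∀ x ∈ W, (ρ g).baseChange K x ∈ W) → W = ⊥ ∨ W = ⊤) :
    ∃ (v : V) (g0 : G), LinearIndependent k ![v, ρ g0 v] := by
  classical
  have : Module.Finite k V := Module.finite_of_finrank_eq_succ hV
  by_contra hcon
  push Not at hcon
  -- pick a nonzero vector
  have hnt : Nontrivial V := Module.nontrivial_of_finrank_pos (R := k) (by omega)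
  obtain ⟨v₀, hv₀⟩ := exists_ne (0 : V)
  -- every `ρ g v₀` is a multiple of `v₀`
  have hmul : ∀ g, ∃ a : k, ρ g v₀ = a • v₀ := by
    intro g
    have h := hcon v₀ g
    rw [LinearIndependent.pair_iff] at h
    push Not at h
    obtain ⟨s, t, hst, hne⟩ := h
    have ht : t ≠ 0 := by
      intro ht0
      have hs0 : s = 0 := by
        by_contra hs
        rw [ht0, zero_smul, add_zero] at hst
        exact hv₀ ((smul_eq_zero.mp hst).resolve_left hs)
      exact hne hs0 ht0
    refine ⟨-(t⁻¹ * s), ?_⟩
    have : t • ρ g v₀ = -(s • v₀) := by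
      rw [eq_neg_iff_add_eq_zero, add_comm]; exact hst
    calc ρ g v₀ = t⁻¹ • (t • ρ g v₀) := by rw [smul_smul, inv_mul_cancel₀ ht, one_smul]
      _ = -(t⁻¹ * s) • v₀ := by rw [this, smul_neg, smul_smul, neg_smul]
  let W : Submodule K (K ⊗[k] V) := Submodule.span K {(1 : K) ⊗ₜ[k] v₀}
  have hstab : ∀ g, ∀ x ∈ W, (ρ g).baseChange K x ∈ W := by
    intro g x hx
    obtain ⟨c, rfl⟩ := Submodule.mem_span_singleton.mp hx
    obtain ⟨a, ha⟩ := hmul g
    rw [map_smul, LinearMap.baseChange_tmul, ha, TensorProduct.tmul_smul]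
    refine Submodule.smul_mem _ _ ?_
    rw [← algebraMap_smul K a]
    exact Submodule.smul_mem _ _ (Submodule.mem_span_singleton_self _)
  have hne0 : (1 : K) ⊗ₜ[k] v₀ ≠ 0 := fun h => hv₀ ((one_tmul_eq_zero_iff K v₀).mp h)
  rcases habs W hstab with hW | hW
  · have : (1 : K) ⊗ₜ[k] v₀ ∈ W := Submodule.mem_span_singleton_self _
    rw [hW, Submodule.mem_bot] at this
    exact hne0 this
  · have h1 : Module.finrank K W = 1 := finrank_span_singleton hne0
    have h2 : Module.finrank K (K ⊗[k] V) = 2 := by rw [Module.finrank_baseChange, hV]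
    rw [hW, finrank_top, h2] at h1
    omega

/-- Absolute irreducibility gives an element not commuting with `ρ g0` when `v` is cyclic
for `ρ g0`. -/
theorem exists_noncommuting [IsAlgClosed K] (hV : Module.finrank k V = 2)
    (habs : ∀ W : Submodule K (K ⊗[k] V),
      (∀ g, ∀ x ∈ W, (ρ g).baseChange K x ∈ W) → W = ⊥ ∨ W = ⊤)
    (v : V) (g0 : G) (hli : LinearIndependent k ![v, ρ g0 v]) :
    ∃ g1, ρ g0 * ρ g1 ≠ ρ g1 * ρ g0 := by
  classical
  have hfin : Module.Finite k V := Module.finite_of_finrank_eq_succ hV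
  by_contra hcon
  push Not at hcon
  have h2 : Module.finrank K (K ⊗[k] V) = 2 := by rw [Module.finrank_baseChange, hV]
  have : Module.Finite K (K ⊗[k] V) := Module.finite_of_finrank_eq_succ h2
  have : Nontrivial (K ⊗[k] V) := Module.nontrivial_of_finrank_pos (R := K) (by omega)
  let T : Module.End K (K ⊗[k] V) := (ρ g0).baseChange K
  obtain ⟨μ, hμ⟩ := Module.End.exists_eigenvalue T
  let E := T.eigenspace μ
  have hstab : ∀ g, ∀ x ∈ E, (ρ g).baseChange K x ∈ E := by
    intro g x hx
    rw [Module.End.mem_eigenspace_iff] at hx ⊢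
    have hc : T * (ρ g).baseChange K = (ρ g).baseChange K * T := by
      show (ρ g0).baseChange K * (ρ g).baseChange K = (ρ g).baseChange K * (ρ g0).baseChange K
      rw [← LinearMap.baseChange_mul, ← LinearMap.baseChange_mul, hcon g]
    calc T ((ρ g).baseChange K x) = (T * (ρ g).baseChange K) x := rfl
      _ = ((ρ g).baseChange K * T) x := by rw [hc]
      _ = (ρ g).baseChange K (T x) := rfl
      _ = μ • (ρ g).baseChange K x := by rw [hx, map_smul]
  rcases habs E hstab with hE | hE
  · exact hμ hE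
  · let b : Basis (Fin 2) k V :=
      basisOfLinearIndependentOfCardEqFinrank hli (by simp [hV])
    have hb0 : b 0 = v := by simp [b]
    have hb1 : b 1 = ρ g0 v := by simp [b]
    have hmem : (1 : K) ⊗ₜ[k] v ∈ E := by rw [hE]; exact Submodule.mem_top
    rw [Module.End.mem_eigenspace_iff] at hmem
    have hT : T ((1 : K) ⊗ₜ[k] v) = (1 : K) ⊗ₜ[k] (ρ g0 v) := LinearMap.baseChange_tmul _ _ _
    rw [hT, TensorProduct.smul_tmul', smul_eq_mul, mul_one, ← hb1, ← hb0] at hmem
    have := congrArg (fun x => (b.baseChange K).repr x 1) hmem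
    simp only [Basis.baseChange_repr_tmul, Basis.repr_self, Finsupp.single_apply] at this
    simp at this

/-- Choice of the normalising data `(b, g0, g1, i, j)` for an absolutely irreducible
two-dimensional representation. -/
theorem exists_normalizing_elements [IsAlgClosed K] (hV : Module.finrank k V = 2)
    (habs : ∀ W : Submodule K (K ⊗[k] V),
      (∀ g, ∀ x ∈ W, (ρ g).baseChange K x ∈ W) → W = ⊥ ∨ W = ⊤) :
    ∃ (b : Basis (Fin 2) k V) (g0 g1 : G) (i j : Fin 2),
      LinearMap.toMatrix b b (ρ g0) 0 0 = 0 ∧ LinearMap.toMatrix b b (ρ g0) 1 0 = 1 ∧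
      (LinearMap.toMatrix b b (ρ g0) * LinearMap.toMatrix b b (ρ g1)
        - LinearMap.toMatrix b b (ρ g1) * LinearMap.toMatrix b b (ρ g0)) i j ≠ 0 := by
  classical
  obtain ⟨v, g0, hli⟩ := exists_cyclic_vector ρ K hV habs
  obtain ⟨g1, hg1⟩ := exists_noncommuting ρ K hV habs v g0 hli
  let b : Basis (Fin 2) k V :=
    basisOfLinearIndependentOfCardEqFinrank hli (by simp [hV])
  have hb0 : b 0 = v := by simp [b]
  have hb1 : b 1 = ρ g0 v := by simp [b]
  have hcol : ∀ a, LinearMap.toMatrix b b (ρ g0) a 0 = if a = 1 then 1 else 0 := by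
    intro a
    rw [LinearMap.toMatrix_apply, hb0, ← hb1, Basis.repr_self, Finsupp.single_apply]
    simp [eq_comm]
  have hne : LinearMap.toMatrix b b (ρ g0) * LinearMap.toMatrix b b (ρ g1)
      - LinearMap.toMatrix b b (ρ g1) * LinearMap.toMatrix b b (ρ g0) ≠ 0 := by
    intro h
    apply hg1
    apply (LinearMap.toMatrix b b).injective
    rw [LinearMap.toMatrix_mul, LinearMap.toMatrix_mul]
    exact sub_eq_zero.mp h
  have : ∃ i j, (LinearMap.toMatrix b b (ρ g0) * LinearMap.toMatrix b b (ρ g1)
      - LinearMap.toMatrix b b (ρ g1) * LinearMap.toMatrix b b (ρ g0)) i j ≠ 0 := by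
    by_contra hall
    push Not at hall
    exact hne (Matrix.ext hall)
  obtain ⟨i, j, hij⟩ := this
  exact ⟨b, g0, g1, i, j, by simpa using hcol 0, by simpa using hcol 1, hij⟩

end Choice

end Fermat.Agent.S53.NF
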