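import Fermat.Prelude.Def_GaloisRep_Residual
import Fermat.Agent.S53.NormalFormChoice

set_option autoImplicit false

namespace Fermat.Agent.S53.NF

open Module

/-- Normalising data for an absolutely irreducible residual Galois representation. -/
theorem exists_normalizing_elements_residual {k : Type} [Field k] (ρbar : ResidualGaloisRep k)
    (habs : ρbar.IsAbsolutelyIrreducible) :
    ∃ (b : Basis (Fin 2) k ρbar.V)
      (g0 g1 : AlgebraicClosure ℚ ≃ₐ[ℚ] AlgebraicClosure ℚ) (i j : Fin 2),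
      LinearMap.toMatrix b b (ρbar.ρ g0) 0 0 = 0 ∧ LinearMap.toMatrix b b (ρbar.ρ g0) 1 0 = 1 ∧
      (LinearMap.toMatrix b b (ρbar.ρ g0) * LinearMap.toMatrix b b (ρbar.ρ g1)
        - LinearMap.toMatrix b b (ρbar.ρ g1) * LinearMap.toMatrix b b (ρbar.ρ g0)) i j ≠ 0 :=
  exists_normalizing_elements ρbar.ρ (AlgebraicClosure k) ρbar.finrank_eq habs

end Fermat.Agent.S53.NF
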