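import Fermat.Agent.S53.Defs
import Fermat.Agent.S53.CompleteNoeth

set_option autoImplicit false

/-!
The ambient complete Noetherian local `𝒪`-algebra `PS 𝒪 ι` ("power series in `ι` over `𝒪`"),
implemented as the adic completion of `MvPolynomial ι 𝒪` at the maximal ideal `(m_𝒪, X_i)`.
-/

namespace Fermat.Agent.S53

open IsLocalRing

set_option linter.unusedSectionVars false

noncomputable section

section Defs

variable (𝒪 : Type) [CommRing 𝒪] [IsLocalRing 𝒪] (ι : Type)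

/-- The residue map of the polynomial ring. -/
def psRes : MvPolynomial ι 𝒪 →+* ResidueField 𝒪 :=
  (residue 𝒪).comp MvPolynomial.constantCoeff

lemma psRes_surjective : Function.Surjective (psRes 𝒪 ι) := by
  intro y
  obtain ⟨x, rfl⟩ := residue_surjective (R := 𝒪) y
  exact ⟨MvPolynomial.C x, by simp [psRes]⟩

/-- The maximal ideal `(m_𝒪, X_i)` of the polynomial ring. -/
def psIdeal : Ideal (MvPolynomial ι 𝒪) := RingHom.ker (psRes 𝒪 ι)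

instance psIdeal_isMaximal : (psIdeal 𝒪 ι).IsMaximal :=
  RingHom.ker_isMaximal_of_surjective _ (psRes_surjective 𝒪 ι)

lemma X_mem_psIdeal (i : ι) : (MvPolynomial.X i : MvPolynomial ι 𝒪) ∈ psIdeal 𝒪 ι := by
  simp [psIdeal, psRes, RingHom.mem_ker]

lemma C_mem_psIdeal_iff (a : 𝒪) :
    (MvPolynomial.C a : MvPolynomial ι 𝒪) ∈ psIdeal 𝒪 ι ↔ a ∈ maximalIdeal 𝒪 := by
  simp [psIdeal, psRes, RingHom.mem_ker]

/-- The ambient ring. -/
def PS : Type := AdicCompletion (psIdeal 𝒪 ι) (MvPolynomial ι 𝒪)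

instance : CommRing (PS 𝒪 ι) :=
  inferInstanceAs (CommRing (AdicCompletion (psIdeal 𝒪 ι) (MvPolynomial ι 𝒪)))

instance : Algebra (MvPolynomial ι 𝒪) (PS 𝒪 ι) :=
  inferInstanceAs (Algebra (MvPolynomial ι 𝒪) (AdicCompletion (psIdeal 𝒪 ι) (MvPolynomial ι 𝒪)))

instance : Algebra 𝒪 (PS 𝒪 ι) :=
  inferInstanceAs (Algebra 𝒪 (AdicCompletion (psIdeal 𝒪 ι) (MvPolynomial ι 𝒪)))

instance : IsScalarTower 𝒪 (MvPolynomial ι 𝒪) (PS 𝒪 ι) :=
  IsScalarTower.of_algebraMap_eq fun _ => rfl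

/-- The extended maximal ideal. -/
def psMax : Ideal (PS 𝒪 ι) := (psIdeal 𝒪 ι).map (algebraMap (MvPolynomial ι 𝒪) (PS 𝒪 ι))

end Defs

section Noeth

variable (𝒪 : Type) [CommRing 𝒪] [IsLocalRing 𝒪] [IsNoetherianRing 𝒪] (ι : Type) [Finite ι]

lemma psIdeal_fg : (psIdeal 𝒪 ι).FG :=
  (isNoetherianRing_iff_ideal_fg (MvPolynomial ι 𝒪)).mp inferInstance _

lemma psMax_fg : (psMax 𝒪 ι).FG := (psIdeal_fg 𝒪 ι).map _

instance psMax_isMaximal : (psMax 𝒪 ι).IsMaximal :=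
  AdicCompletion.isMaximal_map_of_le (psIdeal 𝒪 ι) (psIdeal 𝒪 ι) le_rfl (psIdeal_fg 𝒪 ι)

instance psMax_isAdicComplete : IsAdicComplete (psMax 𝒪 ι) (PS 𝒪 ι) :=
  AdicCompletion.isAdicComplete_self (psIdeal 𝒪 ι) (psIdeal_fg 𝒪 ι)

instance : IsLocalRing (PS 𝒪 ι) := isLocalRing_of_isAdicComplete_maximal (psMax 𝒪 ι)

lemma maximalIdeal_PS : maximalIdeal (PS 𝒪 ι) = psMax 𝒪 ι :=
  (IsLocalRing.eq_maximalIdeal (psMax_isMaximal 𝒪 ι)).symm

instance : IsAdicComplete (maximalIdeal (PS 𝒪 ι)) (PS 𝒪 ι) := by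
  rw [maximalIdeal_PS]; infer_instance

instance : IsNoetherianRing (PS 𝒪 ι) := by
  have : IsNoetherianRing (PS 𝒪 ι ⧸ psMax 𝒪 ι) := by
    let _ := Ideal.Quotient.field (psMax 𝒪 ι)
    infer_instance
  exact isNoetherianRing_of_isAdicComplete (psMax 𝒪 ι) (psMax_fg 𝒪 ι)

end Noeth

section A

variable (𝒪 : Type) [CommRing 𝒪] [IsLocalRing 𝒪] [IsNoetherianRing 𝒪] (ι : Type) [Finite ι]

lemma ac_evalₐ_eq_zero_iff (n : ℕ)
    (s : AdicCompletion (psIdeal 𝒪 ι) (MvPolynomial ι 𝒪)) :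
    AdicCompletion.evalₐ (psIdeal 𝒪 ι) n s = 0 ↔
      s ∈ ((psIdeal 𝒪 ι).map (algebraMap (MvPolynomial ι 𝒪)
        (AdicCompletion (psIdeal 𝒪 ι) (MvPolynomial ι 𝒪)))) ^ n := by
  have h1 : AdicCompletion.evalₐ (psIdeal 𝒪 ι) n s = 0 ↔
      s ∈ (AdicCompletion.eval (psIdeal 𝒪 ι) (MvPolynomial ι 𝒪) n).ker := by
    rw [LinearMap.mem_ker]
    have h : (psIdeal 𝒪 ι ^ n • ⊤ : Ideal (MvPolynomial ι 𝒪)) = psIdeal 𝒪 ι ^ n := by
      ext x; simp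
    rw [← AdicCompletion.factor_eval_eq_evalₐ (psIdeal 𝒪 ι) s (le_of_eq h)]
    have hinj : Function.Injective (Ideal.Quotient.factor (le_of_eq h)) := by
      rw [RingHom.injective_iff_ker_eq_bot, Ideal.Quotient.factor_ker]
      exact Ideal.map_mk_eq_bot_of_le (le_of_eq h.symm)
    exact map_eq_zero_iff _ hinj
  rw [h1, ← AdicCompletion.pow_smul_top_eq_ker_eval (psIdeal_fg 𝒪 ι), Ideal.smul_top_eq_map,
    Submodule.restrictScalars_mem, Ideal.map_pow]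

/-- The projection `PS → Q ⧸ 𝔫 ^ n`. -/
def psProj (n : ℕ) : PS 𝒪 ι →ₐ[𝒪] MvPolynomial ι 𝒪 ⧸ psIdeal 𝒪 ι ^ n :=
  (AdicCompletion.evalₐ (psIdeal 𝒪 ι) n).restrictScalars 𝒪

lemma psProj_algebraMap (n : ℕ) (q : MvPolynomial ι 𝒪) :
    psProj 𝒪 ι n (algebraMap (MvPolynomial ι 𝒪) (PS 𝒪 ι) q) = Ideal.Quotient.mk _ q :=
  AdicCompletion.evalₐ_of (psIdeal 𝒪 ι) n q

lemma psProj_surjective (n : ℕ) : Function.Surjective (psProj 𝒪 ι n) :=
  AdicCompletion.surjective_evalₐ (psIdeal 𝒪 ι) n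

lemma psProj_eq_zero_iff (n : ℕ) (s : PS 𝒪 ι) : psProj 𝒪 ι n s = 0 ↔ s ∈ psMax 𝒪 ι ^ n :=
  ac_evalₐ_eq_zero_iff 𝒪 ι n s

lemma exists_sub_mem_pow (n : ℕ) (s : PS 𝒪 ι) :
    ∃ q : MvPolynomial ι 𝒪, s - algebraMap (MvPolynomial ι 𝒪) (PS 𝒪 ι) q ∈ psMax 𝒪 ι ^ n := by
  obtain ⟨q, hq⟩ := Ideal.Quotient.mk_surjective (psProj 𝒪 ι n s)
  refine ⟨q, ?_⟩
  rw [← psProj_eq_zero_iff, map_sub, psProj_algebraMap, hq, sub_self]

lemma sub_C_constantCoeff_mem (q : MvPolynomial ι 𝒪) :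
    q - MvPolynomial.C (MvPolynomial.constantCoeff q) ∈ psIdeal 𝒪 ι := by
  simp [psIdeal, psRes, RingHom.mem_ker]

instance : IsResAlg 𝒪 (PS 𝒪 ι) where
  isLocalHom := by
    apply ((IsLocalRing.local_hom_TFAE (algebraMap 𝒪 (PS 𝒪 ι))).out 0 2).mpr
    rw [Ideal.map_le_iff_le_comap]
    intro a ha
    rw [Ideal.mem_comap, maximalIdeal_PS, IsScalarTower.algebraMap_apply 𝒪 (MvPolynomial ι 𝒪)]
    exact Ideal.mem_map_of_mem _ ((C_mem_psIdeal_iff 𝒪 ι a).mpr ha)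
  residue_surjective := by
    intro y
    obtain ⟨s, rfl⟩ := residue_surjective y
    obtain ⟨q, hq⟩ := exists_sub_mem_pow 𝒪 ι 1 s
    rw [pow_one] at hq
    refine ⟨MvPolynomial.constantCoeff q, ?_⟩
    show residue _ (algebraMap 𝒪 (PS 𝒪 ι) (MvPolynomial.constantCoeff q)) = residue _ s
    rw [eq_comm, ← sub_eq_zero, ← map_sub, residue_eq_zero_iff, maximalIdeal_PS,
      IsScalarTower.algebraMap_apply 𝒪 (MvPolynomial ι 𝒪)]
    have h2 := Ideal.mem_map_of_mem (algebraMap (MvPolynomial ι 𝒪) (PS 𝒪 ι))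
      (sub_C_constantCoeff_mem 𝒪 ι q)
    rw [map_sub] at h2
    have := (psMax 𝒪 ι).add_mem hq h2
    simpa [psMax, MvPolynomial.algebraMap_eq] using this

end A

section B

/-- Algebra homs between residually trivial local `𝒪`-algebras are local. -/
theorem isLocalHom_of_isResAlg {𝒪 : Type} [CommRing 𝒪] [IsLocalRing 𝒪]
    {B A : Type} [CommRing B] [IsLocalRing B] [Algebra 𝒪 B] [IsResAlg 𝒪 B]
    [CommRing A] [IsLocalRing A] [Algebra 𝒪 A] [IsResAlg 𝒪 A] (f : B →ₐ[𝒪] A) :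
    IsLocalHom (f : B →+* A) := by
  have hsurj : Function.Surjective ((resK 𝒪 A : A →+* ResidueField 𝒪).comp (f : B →+* A)) := by
    intro y
    obtain ⟨x, rfl⟩ := residue_surjective (R := 𝒪) y
    refine ⟨algebraMap 𝒪 B x, ?_⟩
    show resK 𝒪 A (f (algebraMap 𝒪 B x)) = residue 𝒪 x
    rw [f.commutes]
    exact (resK 𝒪 A).commutes x
  have hmax := RingHom.ker_isMaximal_of_surjective _ hsurj
  have hker := IsLocalRing.eq_maximalIdeal hmax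
  apply ((IsLocalRing.local_hom_TFAE (f : B →+* A)).out 0 3).mpr
  intro b hb
  rw [← hker, RingHom.mem_ker] at hb
  rw [Ideal.mem_comap]
  exact (resK_eq_zero_iff 𝒪 A _).mp hb

variable {𝒪 : Type} [CommRing 𝒪] [IsLocalRing 𝒪] [IsNoetherianRing 𝒪] {ι : Type} [Finite ι]

/-- The variables. -/
def PS.X (i : ι) : PS 𝒪 ι := algebraMap (MvPolynomial ι 𝒪) (PS 𝒪 ι) (MvPolynomial.X i)

theorem PS.X_mem (i : ι) : (PS.X (𝒪 := 𝒪) i) ∈ maximalIdeal (PS 𝒪 ι) := by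
  rw [maximalIdeal_PS]
  exact Ideal.mem_map_of_mem _ (X_mem_psIdeal 𝒪 ι i)

variable {A : Type} [CommRing A] [IsLocalRing A] [Algebra 𝒪 A] [IsResAlg 𝒪 A] [IsArtinianRing A]

omit [IsNoetherianRing 𝒪] [Finite ι] [IsArtinianRing A] in
lemma resK_aeval (x : ι → A) (hx : ∀ i, x i ∈ maximalIdeal A) (q : MvPolynomial ι 𝒪) :
    resK 𝒪 A (MvPolynomial.aeval x q) = psRes 𝒪 ι q := by
  have : ((resK 𝒪 A : A →+* ResidueField 𝒪).comp
      (MvPolynomial.aeval x : MvPolynomial ι 𝒪 →ₐ[𝒪] A) : MvPolynomial ι 𝒪 →+* _) =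
      psRes 𝒪 ι := by
    apply MvPolynomial.ringHom_ext
    · intro a
      show resK 𝒪 A (MvPolynomial.aeval x (MvPolynomial.C a)) = psRes 𝒪 ι (MvPolynomial.C a)
      rw [MvPolynomial.aeval_C]
      simp only [psRes, RingHom.comp_apply, MvPolynomial.constantCoeff_C]
      exact (resK 𝒪 A).commutes a
    · intro i
      show resK 𝒪 A (MvPolynomial.aeval x (MvPolynomial.X i)) = psRes 𝒪 ι (MvPolynomial.X i)
      rw [MvPolynomial.aeval_X, (resK_eq_zero_iff 𝒪 A _).mpr (hx i)]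
      simp [psRes]
  exact RingHom.congr_fun this q

omit [IsNoetherianRing 𝒪] [Finite ι] [IsArtinianRing A] in
lemma aeval_mem_maximalIdeal (x : ι → A) (hx : ∀ i, x i ∈ maximalIdeal A)
    {q : MvPolynomial ι 𝒪} (hq : q ∈ psIdeal 𝒪 ι) : MvPolynomial.aeval x q ∈ maximalIdeal A := by
  rw [← resK_eq_zero_iff 𝒪 A, resK_aeval x hx]
  exact hq

omit [IsNoetherianRing 𝒪] [Finite ι] [IsArtinianRing A] in
lemma aeval_mem_pow (x : ι → A) (hx : ∀ i, x i ∈ maximalIdeal A) (n : ℕ)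
    {q : MvPolynomial ι 𝒪} (hq : q ∈ psIdeal 𝒪 ι ^ n) :
    MvPolynomial.aeval x q ∈ maximalIdeal A ^ n := by
  have h1 : (psIdeal 𝒪 ι).map (MvPolynomial.aeval x : MvPolynomial ι 𝒪 →ₐ[𝒪] A) ≤
      maximalIdeal A := by
    rw [Ideal.map_le_iff_le_comap]
    intro q hq
    exact aeval_mem_maximalIdeal x hx hq
  have h2 := Ideal.mem_map_of_mem (MvPolynomial.aeval x : MvPolynomial ι 𝒪 →ₐ[𝒪] A) hq
  rw [Ideal.map_pow] at h2
  exact Ideal.pow_right_mono h1 n h2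

omit [IsNoetherianRing 𝒪] [Finite ι] [Algebra 𝒪 A] [IsResAlg 𝒪 A] in
variable (A) in
lemma exists_maximalIdeal_pow_eq_bot : ∃ n : ℕ, maximalIdeal A ^ n = ⊥ := by
  have h := IsArtinianRing.isNilpotent_jacobson_bot (R := A)
  rw [IsLocalRing.jacobson_eq_maximalIdeal ⊥ bot_ne_top] at h
  obtain ⟨n, hn⟩ := h
  exact ⟨n, hn⟩

variable (A) in
/-- A nilpotency exponent of the maximal ideal. -/
def nilExp : ℕ := (exists_maximalIdeal_pow_eq_bot A).choose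

omit [IsNoetherianRing 𝒪] [Finite ι] [Algebra 𝒪 A] [IsResAlg 𝒪 A] in
variable (A) in
lemma maximalIdeal_pow_nilExp : maximalIdeal A ^ nilExp A = ⊥ :=
  (exists_maximalIdeal_pow_eq_bot A).choose_spec

/-- Evaluation at elements of the maximal ideal of an Artinian local `𝒪`-algebra. -/
def PS.eval (x : ι → A) (hx : ∀ i, x i ∈ maximalIdeal A) : PS 𝒪 ι →ₐ[𝒪] A :=
  (Ideal.Quotient.liftₐ (psIdeal 𝒪 ι ^ nilExp A) (MvPolynomial.aeval x) (fun q hq => by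
    have := aeval_mem_pow x hx (nilExp A) hq
    rwa [maximalIdeal_pow_nilExp, Ideal.mem_bot] at this)).comp (psProj 𝒪 ι (nilExp A))

theorem PS.eval_algebraMap (x : ι → A) (hx : ∀ i, x i ∈ maximalIdeal A) (q : MvPolynomial ι 𝒪) :
    PS.eval (𝒪 := 𝒪) x hx (algebraMap (MvPolynomial ι 𝒪) (PS 𝒪 ι) q) = MvPolynomial.aeval x q := by
  unfold PS.eval
  rw [AlgHom.comp_apply, psProj_algebraMap]
  rfl

theorem PS.eval_X (x : ι → A) (hx : ∀ i, x i ∈ maximalIdeal A) (i : ι) :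
    PS.eval (𝒪 := 𝒪) x hx (PS.X i) = x i := by
  rw [PS.X, PS.eval_algebraMap, MvPolynomial.aeval_X]

/-- Two `𝒪`-algebra homs to an Artinian local algebra agreeing on the variables are equal. -/
theorem PS.algHom_ext {f g : PS 𝒪 ι →ₐ[𝒪] A} (h : ∀ i : ι, f (PS.X i) = g (PS.X i)) : f = g := by
  have hpoly : ∀ q : MvPolynomial ι 𝒪, f (algebraMap _ (PS 𝒪 ι) q) = g (algebraMap _ (PS 𝒪 ι) q) := by
    have : f.comp (IsScalarTower.toAlgHom 𝒪 (MvPolynomial ι 𝒪) (PS 𝒪 ι)) =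
        g.comp (IsScalarTower.toAlgHom 𝒪 (MvPolynomial ι 𝒪) (PS 𝒪 ι)) := by
      apply MvPolynomial.algHom_ext
      intro i
      exact h i
    intro q
    exact AlgHom.congr_fun this q
  have hpow : ∀ (u : PS 𝒪 ι →ₐ[𝒪] A) (t : PS 𝒪 ι), t ∈ psMax 𝒪 ι ^ nilExp A → u t = 0 := by
    intro u t ht
    have hloc : IsLocalHom (u : PS 𝒪 ι →+* A) := isLocalHom_of_isResAlg u
    have h1 : (maximalIdeal (PS 𝒪 ι)).map (u : PS 𝒪 ι →+* A) ≤ maximalIdeal A :=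
      ((IsLocalRing.local_hom_TFAE (u : PS 𝒪 ι →+* A)).out 0 2).mp hloc
    rw [← maximalIdeal_PS] at ht
    have h2 := Ideal.mem_map_of_mem (u : PS 𝒪 ι →+* A) ht
    rw [Ideal.map_pow] at h2
    have h3 := Ideal.pow_right_mono h1 (nilExp A) h2
    rwa [maximalIdeal_pow_nilExp, Ideal.mem_bot] at h3
  ext s
  obtain ⟨q, hq⟩ := exists_sub_mem_pow 𝒪 ι (nilExp A) s
  have hf := hpow f _ hq
  have hg := hpow g _ hq
  rw [map_sub, sub_eq_zero] at hf hg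
  rw [hf, hg, hpoly]

theorem PS.range_eval (x : ι → A) (hx : ∀ i, x i ∈ maximalIdeal A) :
    (PS.eval (𝒪 := 𝒪) x hx).range = Algebra.adjoin 𝒪 (Set.range x) := by
  rw [Algebra.adjoin_range_eq_range_aeval]
  apply le_antisymm
  · rintro _ ⟨s, rfl⟩
    obtain ⟨q, hq⟩ := Ideal.Quotient.mk_surjective (psProj 𝒪 ι (nilExp A) s)
    refine ⟨q, ?_⟩
    show MvPolynomial.aeval x q = PS.eval (𝒪 := 𝒪) x hx s
    unfold PS.eval
    rw [AlgHom.comp_apply, ← hq]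
    rfl
  · rintro _ ⟨q, rfl⟩
    exact ⟨algebraMap _ _ q, PS.eval_algebraMap x hx q⟩

end B

end

end Fermat.Agent.S53
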