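import Fermat.Agent.S53.Defs

set_option autoImplicit false

/-!
Quotients of complete Noetherian local rings by proper ideals are complete Noetherian local.
-/

namespace Fermat.Agent.S53

open IsLocalRing

set_option linter.unusedSectionVars false

section QuotCNL

variable {R : Type*} [CommRing R] [IsLocalRing R] (J : Ideal R) [IsLocalRing (R ⧸ J)]

/-- The maximal ideal of a local quotient is the image of the maximal ideal. -/
theorem quot_maximalIdeal_eq_map :
    maximalIdeal (R ⧸ J) = (maximalIdeal R).map (Ideal.Quotient.mk J) :=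
  (IsLocalRing.map_maximalIdeal_of_surjective (Ideal.Quotient.mk J)
    Ideal.Quotient.mk_surjective).symm

theorem quot_maximalIdeal_pow_eq_map (n : ℕ) :
    maximalIdeal (R ⧸ J) ^ n = (maximalIdeal R ^ n).map (Ideal.Quotient.mk J) := by
  rw [quot_maximalIdeal_eq_map, Ideal.map_pow]

theorem quot_mk_mem_maximalIdeal_pow_iff (n : ℕ) (x : R) :
    Ideal.Quotient.mk J x ∈ maximalIdeal (R ⧸ J) ^ n ↔ x ∈ maximalIdeal R ^ n ⊔ J := by
  rw [quot_maximalIdeal_pow_eq_map,
    Ideal.mem_map_iff_of_surjective _ Ideal.Quotient.mk_surjective]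
  constructor
  · rintro ⟨y, hy, hxy⟩
    have : x - y ∈ J := by
      rw [← Ideal.Quotient.eq]; exact hxy.symm
    have hx : x = y + (x - y) := by ring
    rw [hx]
    exact Ideal.add_mem _ (Ideal.mem_sup_left hy) (Ideal.mem_sup_right this)
  · intro hx
    obtain ⟨y, hy, z, hz, rfl⟩ := Submodule.mem_sup.mp hx
    refine ⟨y, hy, ?_⟩
    rw [map_add, Ideal.Quotient.eq_zero_iff_mem.mpr hz, add_zero]

/-- A quotient of a precomplete ring is precomplete (for the image ideal). -/
theorem quot_isPrecomplete [IsPrecomplete (maximalIdeal R) R] :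
    IsPrecomplete (maximalIdeal (R ⧸ J)) (R ⧸ J) := by
  refine ⟨fun f hf => ?_⟩
  -- differences lie in the image of `m ^ n`
  have hdiff : ∀ n, ∃ d : R, d ∈ maximalIdeal R ^ n ∧
      Ideal.Quotient.mk J d = f (n + 1) - f n := by
    intro n
    have h1 : f n ≡ f (n + 1) [SMOD (maximalIdeal (R ⧸ J) ^ n • ⊤ : Submodule (R ⧸ J) (R ⧸ J))] :=
      hf (Nat.le_succ n)
    have h2 : f (n + 1) - f n ∈ maximalIdeal (R ⧸ J) ^ n := by
      have := (SModEq.sub_mem.mp h1.symm)
      simpa using this
    rw [quot_maximalIdeal_pow_eq_map,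
      Ideal.mem_map_iff_of_surjective _ Ideal.Quotient.mk_surjective] at h2
    exact h2
  choose d hd hdf using hdiff
  obtain ⟨g0, hg0⟩ := Ideal.Quotient.mk_surjective (f 0)
  -- the lifted sequence
  let g : ℕ → R := fun n => g0 + ∑ i ∈ Finset.range n, d i
  have hg : ∀ n, Ideal.Quotient.mk J (g n) = f n := by
    intro n
    induction n with
    | zero => simp [g, hg0]
    | succ n ih =>
      have : g (n + 1) = g n + d n := by
        simp only [g, Finset.sum_range_succ]; ring
      rw [this, map_add, ih, hdf]; ring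
  have hgc : ∀ {m n}, m ≤ n → g m ≡ g n [SMOD (maximalIdeal R ^ m • ⊤ : Submodule R R)] := by
    intro m n hmn
    rw [SModEq.sub_mem]
    have : g m - g n = -∑ i ∈ Finset.Ico m n, d i := by
      simp only [g]
      rw [Finset.sum_Ico_eq_sub _ hmn]; ring
    rw [this]
    refine Submodule.neg_mem _ (Submodule.sum_mem _ fun i hi => ?_)
    rw [smul_eq_mul, Ideal.mul_top]
    exact Ideal.pow_le_pow_right (Finset.mem_Ico.mp hi).1 (hd i)
  obtain ⟨L, hL⟩ := IsPrecomplete.prec' (I := maximalIdeal R) g hgc
  refine ⟨Ideal.Quotient.mk J L, fun n => ?_⟩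
  rw [SModEq.sub_mem, smul_eq_mul, Ideal.mul_top, ← hg n, ← map_sub,
    quot_maximalIdeal_pow_eq_map]
  have := hL n
  rw [SModEq.sub_mem, smul_eq_mul, Ideal.mul_top] at this
  exact Ideal.mem_map_of_mem _ this

/-- A proper quotient of a complete Noetherian local ring is complete. -/
theorem quot_isAdicComplete [IsNoetherianRing R] [IsAdicComplete (maximalIdeal R) R] :
    IsAdicComplete (maximalIdeal (R ⧸ J)) (R ⧸ J) :=
  { toIsHausdorff := inferInstance
    toIsPrecomplete := quot_isPrecomplete J }

end QuotCNL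

end Fermat.Agent.S53
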