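import Fermat.Agent.S53.Defs
import Fermat.Agent.S53.Schur

set_option autoImplicit false

/-!
Linear algebra of the absolutely irreducible residual representation.  OWNER: helper14.
-/

namespace Fermat.Agent.S53

open IsLocalRing
open scoped TensorProduct

noncomputable section

section Field

variable {k : Type} [Field k]

/-- An absolutely irreducible residual representation has no stable line. -/
theorem not_forall_smul_of_absIrr (ρ : ResidualGaloisRep k) (habs : ρ.IsAbsolutelyIrreducible)
    (v : ρ.V) (hv : v ≠ 0) : ¬ ∀ σ : GQ, ∃ a : k, ρ.ρ σ v = a • v := by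
  intro hall
  let K := AlgebraicClosure k
  have hrank : Module.finrank K (K ⊗[k] ρ.V) = 2 := by
    rw [Module.finrank_baseChange, ρ.finrank_eq]
  have : Module.Finite K (K ⊗[k] ρ.V) := Module.Finite.base_change k K ρ.V
  set w : K ⊗[k] ρ.V := (1 : K) ⊗ₜ[k] v with hw
  have hw0 : w ≠ 0 := by
    intro h0
    let b : Module.Basis (Fin 2) k ρ.V := Module.finBasisOfFinrankEq k ρ.V ρ.finrank_eq
    have hrepr : ∀ i, (Algebra.TensorProduct.basis K b).repr w i = algebraMap k K (b.repr v i) := by
      intro i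
      rw [hw, Algebra.TensorProduct.basis_repr_tmul]
      simp
    apply hv
    apply b.repr.injective
    ext i
    have := hrepr i
    rw [h0] at this
    simp only [map_zero, Finsupp.coe_zero, Pi.zero_apply] at this
    have h2 : algebraMap k K (b.repr v i) = 0 := this.symm
    simpa using h2
  have hstab : ∀ σ : GQ, ∀ x ∈ Submodule.span K {w},
      (ρ.baseChange K).ρ σ x ∈ Submodule.span K {w} := by
    intro σ x hx
    obtain ⟨c, rfl⟩ := Submodule.mem_span_singleton.mp hx
    obtain ⟨a, ha⟩ := hall σ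
    have e1 : (ρ.baseChange K).ρ σ (c • w) = (ρ.ρ σ).baseChange K (c • w) := rfl
    have e2 : (ρ.ρ σ).baseChange K (c • w) = (c * algebraMap k K a) • w := by
      rw [hw, map_smul, LinearMap.baseChange_tmul, ha, TensorProduct.tmul_smul,
        ← algebraMap_smul K a ((1 : K) ⊗ₜ[k] v), smul_smul]
    rw [e1, e2]
    exact Submodule.smul_mem _ _ (Submodule.mem_span_singleton_self _)
  rcases habs (Submodule.span K {w}) hstab with hbot | htop
  · exact hw0 ((Submodule.span_singleton_eq_bot).mp hbot)
  · have h1 : Module.finrank K (Submodule.span K {w}) ≤ 1 := by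
      have := finrank_span_le_card (R := K) ({w} : Set (K ⊗[k] ρ.V))
      simpa using this
    rw [htop, finrank_top, hrank] at h1
    omega

end Field

/-- Existence of normalisation data: a basis `(v, ρbar g0 v)`, Schur's lemma for `rbar`,
an element `g1` not commuting with `g0`, a position `(i0, j0)` witnessing it, a lift `c0`. -/
theorem exists_normDatum {𝒪 : Type} [CommRing 𝒪] [IsLocalRing 𝒪]
    (ρbar : ResidualGaloisRep (ResidueField 𝒪)) (habs : ρbar.IsAbsolutelyIrreducible) :
    Nonempty (NormDatum 𝒪 ρbar) := by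
  classical
  set k := ResidueField 𝒪 with hk
  have : Module.Finite k ρbar.V := inferInstance
  have hnt : Nontrivial ρbar.V :=
    Module.nontrivial_of_finrank_pos (R := k) (by rw [ρbar.finrank_eq]; norm_num)
  obtain ⟨v, hv⟩ := exists_ne (0 : ρbar.V)
  -- a cyclic vector
  have hex : ∃ g0 : GQ, ∀ a : k, ρbar.ρ g0 v ≠ a • v := by
    by_contra hcon
    push Not at hcon
    exact not_forall_smul_of_absIrr ρbar habs v hv hcon
  obtain ⟨g0, hg0⟩ := hex
  set C := ρbar.ρ g0 with hC
  have hli : LinearIndependent k ![v, C v] := by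
    rw [LinearIndependent.pair_iff' hv]
    intro a
    exact fun h => hg0 a h.symm
  have hcard : Fintype.card (Fin 2) = Module.finrank k ρbar.V := by
    rw [ρbar.finrank_eq]; rfl
  set b : Module.Basis (Fin 2) k ρbar.V := basisOfLinearIndependentOfCardEqFinrank hli hcard with hb
  have hb0 : b 0 = v := by rw [hb, coe_basisOfLinearIndependentOfCardEqFinrank]; rfl
  have hb1 : b 1 = C v := by rw [hb, coe_basisOfLinearIndependentOfCardEqFinrank]; rfl
  set rbar : GQ →* M2 k :=
    (LinearMap.toMatrixAlgEquiv b).toAlgHom.toRingHom.toMonoidHom.comp ρbar.ρ with hrbar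
  have rbar_eq : ∀ σ, rbar σ = LinearMap.toMatrix b b (ρbar.ρ σ) := fun σ => rfl
  have h00 : rbar g0 0 0 = 0 := by
    rw [rbar_eq, LinearMap.toMatrix_apply, hb0, ← hC, ← hb1]
    simp
  have h10 : rbar g0 1 0 = 1 := by
    rw [rbar_eq, LinearMap.toMatrix_apply, hb0, ← hC, ← hb1]
    simp
  -- Schur in matrix form
  have hschur : ∀ T : M2 k, (∀ σ, T * rbar σ = rbar σ * T) →
      ∃ c : k, T = Matrix.scalar (Fin 2) c := by
    intro T hT
    set f : Module.End k ρbar.V := Matrix.toLin b b T with hf
    have hfT : LinearMap.toMatrix b b f = T := LinearMap.toMatrix_toLin b b T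
    have hcomm : ∀ σ, f ∘ₗ ρbar.ρ σ = ρbar.ρ σ ∘ₗ f := by
      intro σ
      apply (LinearMap.toMatrix b b).injective
      rw [LinearMap.toMatrix_comp b b b, LinearMap.toMatrix_comp b b b, hfT, ← rbar_eq]
      exact hT σ
    obtain ⟨c, hc⟩ := Schur.residual_schur ρbar habs f hcomm
    refine ⟨c, ?_⟩
    rw [← hfT, hc, map_smul, LinearMap.toMatrix_one]
    ext i j
    simp [Matrix.scalar, Matrix.smul_apply, Matrix.one_apply, Matrix.diagonal_apply]
  -- an element not commuting with `g0`
  have hex1 : ∃ g1 : GQ, rbar g1 * rbar g0 - rbar g0 * rbar g1 ≠ 0 := by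
    by_contra hcon
    push Not at hcon
    have hT : ∀ σ, rbar g0 * rbar σ = rbar σ * rbar g0 := fun σ =>
      (sub_eq_zero.mp (hcon σ)).symm
    obtain ⟨c, hc⟩ := hschur (rbar g0) hT
    have : rbar g0 1 0 = 0 := by
      rw [hc]
      simp [Matrix.scalar]
    rw [h10] at this
    exact one_ne_zero this
  obtain ⟨g1, hg1⟩ := hex1
  have hexij : ∃ i0 j0 : Fin 2, (rbar g1 * rbar g0 - rbar g0 * rbar g1) i0 j0 ≠ 0 := by
    by_contra hcon
    push Not at hcon
    apply hg1
    ext i j
    exact hcon i j
  obtain ⟨i0, j0, hij⟩ := hexij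
  obtain ⟨c0, hc0⟩ := residue_surjective (R := 𝒪) (rbar g1 i0 j0)
  exact ⟨{ b := b, rbar := rbar, rbar_eq := rbar_eq, g0 := g0, g1 := g1, i0 := i0, j0 := j0,
           c0 := c0, rbar_g0_00 := h00, rbar_g0_10 := h10, comm_ne := hij, c0_spec := hc0,
           schur := hschur }⟩

end

end Fermat.Agent.S53
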