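import Fermat.Agent.S53.TangentCore
import Fermat.Agent.S53.TestAlg2

set_option autoImplicit false

/-!
Finiteness of the set of normalised `𝒟`-lifts to the dual numbers, from `TangentFinite`.
(The supporting lemmas live in `TangentCore.lean`, namespace `Fermat.Agent.S53.Tangent`.)
-/

namespace Fermat.Agent.S53

open IsLocalRing

set_option linter.unusedSectionVars false

noncomputable section

variable {𝒪 : Type} [CommRing 𝒪] [IsLocalRing 𝒪]
  {ρbar : ResidualGaloisRep (ResidueField 𝒪)} (N : NormDatum 𝒪 ρbar)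
  {𝒟 : ∀ ⦃A : Type⦄ [CommRing A] [IsLocalRing A] [Algebra 𝒪 A], GaloisRepAdic A → Prop}

/-- The set of normalised `𝒟`-lifts over `k[ε]` (with the algebra structure of `TangentFinite`). -/
def DualLifts : Type :=
  letI := dualAlgebra 𝒪
  haveI := dual_isResAlg 𝒪
  {M : GQ →* M2 (DualNumber (ResidueField 𝒪)) //
    IsNormDLift N 𝒟 (DualNumber (ResidueField 𝒪)) M}

/-- The class in the tangent space of a normalised `𝒟`-lift over `k[ε]`. -/
def dualLiftClass (M : DualLifts N (𝒟 := 𝒟)) : Tangent.TangentQuot 𝒪 ρbar 𝒟 :=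
  letI := dualAlgebra 𝒪
  haveI := dual_isResAlg 𝒪
  Quotient.mk _ ⟨ofMat M.1 M.2.1.cont, M.2.2, by
    have h := Tangent.IsNormLift.residual_isEquiv N M.2.1
    rw [Tangent.resMap_dualNumber_eq] at h
    exact h⟩

theorem dualLiftClass_injective :
    Function.Injective (dualLiftClass N (𝒟 := 𝒟)) := by
  let _ := dualAlgebra 𝒪
  have := dual_isResAlg 𝒪
  intro M M' h
  have h1 : (ofMat M.1 M.2.1.cont).IsEquiv (ofMat M'.1 M'.2.1.cont) := Quotient.exact h
  rw [Tangent.ofMat_isEquiv_iff] at h1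
  obtain ⟨P, hP, hc⟩ := h1
  exact Subtype.ext (Tangent.normLift_unique N M.2.1 M'.2.1 P hP hc)

/-- `TangentFinite` implies that there are finitely many normalised `𝒟`-lifts over `k[ε]`
(map a lift to its class; injective by `ofMat_isEquiv_iff` and `normLift_unique`). -/
theorem finite_dualLifts (hfin : GaloisRep.TangentFinite 𝒪 ρbar 𝒟) :
    Finite (DualLifts N (𝒟 := 𝒟)) := by
  have : Finite (Tangent.TangentQuot 𝒪 ρbar 𝒟) := (Tangent.tangentFinite_iff 𝒪 ρbar 𝒟).mp hfin
  exact Finite.of_injective _ (dualLiftClass_injective N (𝒟 := 𝒟))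

end

end Fermat.Agent.S53
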