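import Mathlib
import Fermat.Agent.S53.Defs
import Fermat.Agent.S53.MatrixRep
import Fermat.Agent.S53.ResidualMat

set_option autoImplicit false

namespace Fermat.Agent.S53.Tangent

open IsLocalRing Fermat.Agent.S53

noncomputable section

section Instances

variable (𝒪 : Type) [CommRing 𝒪] [IsLocalRing 𝒪]

/-- The `𝒪`-algebra structure on the dual numbers of the residue field. -/
@[reducible] def dualAlgebra : Algebra 𝒪 (DualNumber (ResidueField 𝒪)) :=
  ((algebraMap (ResidueField 𝒪) (DualNumber (ResidueField 𝒪))).comp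
    (algebraMap 𝒪 (ResidueField 𝒪))).toAlgebra

/-- The algebra structure of the residue field of the dual numbers over `k`. -/
@[reducible] def dualResAlgebra :
    Algebra (ResidueField 𝒪) (ResidueField (DualNumber (ResidueField 𝒪))) :=
  ((IsLocalRing.residue (DualNumber (ResidueField 𝒪))).comp
    (algebraMap (ResidueField 𝒪) (DualNumber (ResidueField 𝒪)))).toAlgebra

end Instances

attribute [local instance] dualAlgebra dualResAlgebra

section Quot

variable (𝒪 : Type) [CommRing 𝒪] [IsLocalRing 𝒪]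
variable (ρbar : ResidualGaloisRep (ResidueField 𝒪))
variable (𝒟 : ∀ ⦃A : Type⦄ [CommRing A] [IsLocalRing A] [Algebra 𝒪 A], GaloisRepAdic A → Prop)

/-- Deformations of type `𝒟` to the dual numbers. -/
def TangentSub : Type 1 :=
  {ρ : GaloisRepAdic (DualNumber (ResidueField 𝒪)) //
    𝒟 ρ ∧ ρ.residual.IsEquiv (ρbar.baseChange (ResidueField (DualNumber (ResidueField 𝒪))))}

/-- Isomorphism of deformations. -/
def tangentSetoid : Setoid (TangentSub 𝒪 ρbar 𝒟) :=
  ⟨fun ρ ρ' => ρ.1.IsEquiv ρ'.1, ⟨fun ρ => ⟨GaloisRepAdic.Equiv.refl ρ.1⟩,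
    fun ⟨e⟩ => ⟨e.symm⟩, fun ⟨e⟩ ⟨e'⟩ => ⟨e.trans e'⟩⟩⟩

/-- The tangent space as a quotient. -/
def TangentQuot : Type 1 := Quotient (tangentSetoid 𝒪 ρbar 𝒟)

theorem tangentFinite_iff :
    GaloisRep.TangentFinite 𝒪 ρbar 𝒟 ↔ Finite (TangentQuot 𝒪 ρbar 𝒟) := Iff.rfl

end Quot

section ResAlgHom

variable {𝒪 : Type} [CommRing 𝒪] [IsLocalRing 𝒪]
variable {A B : Type} [CommRing A] [IsLocalRing A] [Algebra 𝒪 A] [IsResAlg 𝒪 A]
  [CommRing B] [IsLocalRing B] [Algebra 𝒪 B] [IsResAlg 𝒪 B]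

/-- Every element of a residual algebra is congruent to a scalar modulo the maximal ideal. -/
theorem exists_algebraMap_sub_mem (a : A) :
    ∃ x : 𝒪, a - algebraMap 𝒪 A x ∈ maximalIdeal A := by
  obtain ⟨x, hx⟩ := IsResAlg.residue_surjective (𝒪 := 𝒪) (A := A) (residue A a)
  refine ⟨x, ?_⟩
  rw [← residue_eq_zero_iff, map_sub, ← hx]
  simp

/-- An `𝒪`-algebra hom between residual algebras maps the maximal ideal into the maximal
ideal. -/
theorem algHom_mem_maximalIdeal (φ : A →ₐ[𝒪] B) {a : A} (ha : a ∈ maximalIdeal A) :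
    φ a ∈ maximalIdeal B := by
  by_contra hb
  have hu : IsUnit (φ a) := by
    rwa [mem_maximalIdeal, mem_nonunits_iff, not_not] at hb
  -- the kernel of `resK ∘ φ` is a proper ideal
  set ψ : A →+* ResidueField 𝒪 := ((resK 𝒪 B : B →+* ResidueField 𝒪)).comp (φ : A →+* B) with hψ
  have hker : RingHom.ker ψ ≤ maximalIdeal A :=
    IsLocalRing.le_maximalIdeal (RingHom.ker_ne_top ψ)
  -- every `a` is a scalar plus an element of the kernel of ψ
  obtain ⟨x, hx⟩ := IsLocalRing.residue_surjective (R := 𝒪) (resK 𝒪 B (φ a))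
  have hcx : resK 𝒪 B (algebraMap 𝒪 B x) = residue 𝒪 x := (resK 𝒪 B).commutes x
  have h1 : a - algebraMap 𝒪 A x ∈ RingHom.ker ψ := by
    rw [RingHom.mem_ker, hψ, RingHom.comp_apply, map_sub]
    show resK 𝒪 B (φ a - φ (algebraMap 𝒪 A x)) = 0
    rw [map_sub, AlgHom.commutes, sub_eq_zero, hcx]
    exact hx.symm
  have h2 : algebraMap 𝒪 A x ∈ maximalIdeal A := by
    have := Ideal.sub_mem _ ha (hker h1)
    simpa using this
  have h3 : x ∈ maximalIdeal 𝒪 := by
    by_contra hx'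
    have hux : IsUnit x := by rwa [mem_maximalIdeal, mem_nonunits_iff, not_not] at hx'
    exact (mem_maximalIdeal _).mp h2 (hux.map (algebraMap 𝒪 A))
  have h4 : resK 𝒪 B (φ a) = 0 := by
    rw [← hx]
    exact (residue_eq_zero_iff x).mpr h3
  exact hb ((resK_eq_zero_iff 𝒪 B _).mp h4)

theorem algHom_isLocalHom (φ : A →ₐ[𝒪] B) : IsLocalHom (φ : A →+* B) := by
  constructor
  intro a ha
  by_contra hna
  have hm : a ∈ maximalIdeal A := by rwa [mem_maximalIdeal, mem_nonunits_iff]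
  exact (mem_maximalIdeal _).mp (algHom_mem_maximalIdeal φ hm) ha

theorem resK_algHom (φ : A →ₐ[𝒪] B) (a : A) : resK 𝒪 B (φ a) = resK 𝒪 A a := by
  obtain ⟨x, hx⟩ := exists_algebraMap_sub_mem (𝒪 := 𝒪) a
  have h1 : resK 𝒪 A (a - algebraMap 𝒪 A x) = 0 := (resK_eq_zero_iff 𝒪 A _).mpr hx
  have h2 : resK 𝒪 B (φ (a - algebraMap 𝒪 A x)) = 0 :=
    (resK_eq_zero_iff 𝒪 B _).mpr (algHom_mem_maximalIdeal φ hx)
  rw [map_sub, sub_eq_zero] at h1
  rw [map_sub, AlgHom.commutes, map_sub, sub_eq_zero] at h2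
  rw [h1, h2, (resK 𝒪 A).commutes, (resK 𝒪 B).commutes]

theorem algHom_map_maximalIdeal_pow (φ : A →ₐ[𝒪] B) (n : ℕ) {a : A}
    (ha : a ∈ maximalIdeal A ^ n) : φ a ∈ maximalIdeal B ^ n := by
  have hle : (maximalIdeal A).map (φ : A →+* B) ≤ maximalIdeal B :=
    Ideal.map_le_iff_le_comap.mpr fun a ha => algHom_mem_maximalIdeal φ ha
  have : (maximalIdeal A ^ n).map (φ : A →+* B) ≤ maximalIdeal B ^ n := by
    rw [Ideal.map_pow]
    exact Ideal.pow_right_mono hle n
  exact this (Ideal.mem_map_of_mem _ ha)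

theorem MatCont.map (φ : A →ₐ[𝒪] B) {M : GQ →* M2 A} (hM : MatCont M) :
    MatCont (mapMat (φ : A →+* B) M) := by
  intro n
  obtain ⟨L, hL, h⟩ := hM n
  refine ⟨L, hL, fun σ hσ i j => ?_⟩
  have := algHom_map_maximalIdeal_pow φ n (h σ hσ i j)
  have h2 : (mapMat (φ : A →+* B) M σ - 1) i j = φ ((M σ - 1) i j) := by
    rw [Matrix.sub_apply, Matrix.sub_apply, mapMat_apply, map_sub]
    congr 1
    by_cases hij : i = j
    · subst hij; simp
    · simp [Matrix.one_apply_ne hij]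
  rw [h2]
  exact this

variable {ρbar : ResidualGaloisRep (ResidueField 𝒪)}

theorem IsNormLift.map (N : NormDatum 𝒪 ρbar) (φ : A →ₐ[𝒪] B) {M : GQ →* M2 A}
    (hM : IsNormLift N A M) : IsNormLift N B (mapMat (φ : A →+* B) M) where
  cont := MatCont.map φ hM.cont
  res := fun σ i j => by
    rw [mapMat_apply]
    show resK 𝒪 B (φ (M σ i j)) = _
    rw [resK_algHom, hM.res]
  g0_00 := by rw [mapMat_apply, hM.g0_00, map_zero]
  g0_10 := by rw [mapMat_apply, hM.g0_10, map_one]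
  g1_ij := by
    rw [mapMat_apply, hM.g1_ij]
    exact φ.commutes _

end ResAlgHom

section DualNumbers

variable (𝒪 : Type) [CommRing 𝒪] [IsLocalRing 𝒪]

theorem moduleFinite_dualNumber (k : Type) [Field k] : Module.Finite k (DualNumber k) :=
  inferInstanceAs (Module.Finite k (k × k))

theorem isArtinianRing_dualNumber (k : Type) [Field k] : IsArtinianRing (DualNumber k) :=
  haveI := moduleFinite_dualNumber k
  IsArtinianRing.of_finite k _

theorem mem_maximalIdeal_dualNumber {k : Type} [Field k] (x : DualNumber k) :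
    x ∈ maximalIdeal (DualNumber k) ↔ x.fst = 0 := by
  rw [mem_maximalIdeal, mem_nonunits_iff, TrivSqZeroExt.isUnit_iff_isUnit_fst,
    isUnit_iff_ne_zero, not_not]

theorem algebraMap_dualNumber_apply (x : 𝒪) :
    algebraMap 𝒪 (DualNumber (ResidueField 𝒪)) x = TrivSqZeroExt.inl (residue 𝒪 x) := rfl

instance isResAlg_dualNumber : IsResAlg 𝒪 (DualNumber (ResidueField 𝒪)) where
  isLocalHom := by
    constructor
    intro a ha
    rw [algebraMap_dualNumber_apply, TrivSqZeroExt.isUnit_iff_isUnit_fst,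
      TrivSqZeroExt.fst_inl] at ha
    exact (isUnit_map_iff (residue 𝒪) a).mp ha
  residue_surjective := by
    intro y
    obtain ⟨z, rfl⟩ := IsLocalRing.residue_surjective y
    obtain ⟨x, hx⟩ := IsLocalRing.residue_surjective (R := 𝒪) z.fst
    refine ⟨x, ?_⟩
    show residue _ (algebraMap 𝒪 (DualNumber (ResidueField 𝒪)) x) = residue _ z
    rw [← sub_eq_zero, ← map_sub, residue_eq_zero_iff, mem_maximalIdeal_dualNumber,
      algebraMap_dualNumber_apply, TrivSqZeroExt.fst_sub, TrivSqZeroExt.fst_inl, hx, sub_self]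

theorem isArtinianTest_dualNumber :
    GaloisRep.IsArtinianTestAlgebra 𝒪 (DualNumber (ResidueField 𝒪)) where
  isLocalHom := IsResAlg.isLocalHom
  residue_surjective := IsResAlg.residue_surjective
  isArtinian := isArtinianRing_dualNumber _

/-- The two ring homs `k → ResidueField k[ε]` agree. -/
theorem resMap_dualNumber_eq :
    ResidueField.map (algebraMap 𝒪 (DualNumber (ResidueField 𝒪))) =
      (IsLocalRing.residue (DualNumber (ResidueField 𝒪))).comp
        (algebraMap (ResidueField 𝒪) (DualNumber (ResidueField 𝒪))) := by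
  ext y
  obtain ⟨x, rfl⟩ := IsLocalRing.residue_surjective y
  rfl

end DualNumbers

section Dictionary

variable {A B : Type} [CommRing A] [IsLocalRing A] [CommRing B] [IsLocalRing B]

theorem toMatrix_ofMat (M : GQ →* M2 A) (hM : MatCont M) :
    MatrixRep.toMatrix (ofMat M hM) (Pi.basisFun A (Fin 2)) = M := by
  ext σ : 1
  show LinearMap.toMatrix (Pi.basisFun A (Fin 2)) (Pi.basisFun A (Fin 2))
    (Matrix.toLin' (M σ)) = M σ
  rw [LinearMap.toMatrix_eq_toMatrix', LinearMap.toMatrix'_toLin']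

theorem mapMat_eq (φ : A →+* B) (M : GQ →* M2 A) : MatrixRep.mapMat φ M = mapMat φ M := rfl

/-- Base change of `ofMat M` is `ofMat` of the mapped matrices. -/
theorem ofMat_baseChangeAlong (φ : A →+* B) (hφ : IsLocalHom φ) (M : GQ →* M2 A)
    (hM : MatCont M) (hM' : MatCont (mapMat φ M)) :
    ((ofMat M hM).baseChangeAlong φ hφ).IsEquiv (ofMat (mapMat φ M) hM') := by
  letI : Algebra A B := φ.toAlgebra
  rw [MatrixRep.isEquiv_iff_toMatrix _ _
    (Algebra.TensorProduct.basis B (Pi.basisFun A (Fin 2))) (Pi.basisFun B (Fin 2))]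
  have h := MatrixRep.toMatrix_baseChangeAlong (ofMat M hM) (Pi.basisFun A (Fin 2)) φ hφ
  refine ⟨1, by simp, fun σ => ?_⟩
  rw [one_mul, mul_one, toMatrix_ofMat]
  exact (DFunLike.congr_fun h σ).trans (by rw [toMatrix_ofMat]; rfl)

/-- Conjugacy criterion for `ofMat`. -/
theorem ofMat_isEquiv_iff (M M' : GQ →* M2 A) (hM : MatCont M) (hM' : MatCont M') :
    (ofMat M hM).IsEquiv (ofMat M' hM') ↔
      ∃ P : M2 A, IsUnit P.det ∧ ∀ σ, P * M σ = M' σ * P := by
  rw [MatrixRep.isEquiv_iff_toMatrix _ _ (Pi.basisFun A (Fin 2)) (Pi.basisFun A (Fin 2)),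
    toMatrix_ofMat, toMatrix_ofMat]

end Dictionary

section Residual

variable {𝒪 : Type} [CommRing 𝒪] [IsLocalRing 𝒪]
variable {B : Type} [CommRing B] [IsLocalRing B] [Algebra 𝒪 B] [IsResAlg 𝒪 B]
variable {ρbar : ResidualGaloisRep (ResidueField 𝒪)}

/-- A normalised lift has the prescribed residual representation. -/
theorem IsNormLift.residual_isEquiv (N : NormDatum 𝒪 ρbar) {M : GQ →* M2 B}
    (hM : IsNormLift N B M) :
    (ofMat M hM.cont).residual.IsEquiv
      (ρbar.baseChangeAlong (ResidueField.map (algebraMap 𝒪 B))) := by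
  rw [ResidualMat.residual_isEquiv_iff (ofMat M hM.cont) (Pi.basisFun B (Fin 2)) ρbar N.b
    (ResidueField.map (algebraMap 𝒪 B))]
  refine ⟨1, by simp, fun σ => ?_⟩
  rw [one_mul, mul_one, toMatrix_ofMat]
  ext i j
  rw [Matrix.map_apply, Matrix.map_apply, ResidualMat.rtoMatrix_apply, ← N.rbar_eq,
    ← hM.res σ i j, resMap_resK]

end Residual

section Unique

variable {𝒪 : Type} [CommRing 𝒪] [IsLocalRing 𝒪]
variable {B : Type} [CommRing B] [IsLocalRing B] [Algebra 𝒪 B] [IsResAlg 𝒪 B]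
variable {ρbar : ResidualGaloisRep (ResidueField 𝒪)}

theorem isUnit_iff_resK_ne_zero (b : B) : IsUnit b ↔ resK 𝒪 B b ≠ 0 := by
  rw [Ne, resK_eq_zero_iff, mem_maximalIdeal, mem_nonunits_iff, not_not]

/-- Two conjugate normalised lifts are equal. -/
theorem normLift_unique (N : NormDatum 𝒪 ρbar) {M₁ M₂ : GQ →* M2 B}
    (h₁ : IsNormLift N B M₁) (h₂ : IsNormLift N B M₂) (P : M2 B) (hP : IsUnit P.det)
    (hc : ∀ σ, P * M₁ σ = M₂ σ * P) : M₁ = M₂ := by
  set r : B →+* ResidueField 𝒪 := (resK 𝒪 B : B →+* ResidueField 𝒪) with hr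
  have hr1 : ∀ σ, (M₁ σ).map r = N.rbar σ := fun σ => by
    ext i j; exact h₁.res σ i j
  have hr2 : ∀ σ, (M₂ σ).map r = N.rbar σ := fun σ => by
    ext i j; exact h₂.res σ i j
  -- the reduction of `P` commutes with `rbar`, hence is scalar
  have hPbar : ∀ σ, P.map r * N.rbar σ = N.rbar σ * P.map r := fun σ => by
    rw [← hr1 σ, ← Matrix.map_mul, hc σ, Matrix.map_mul, hr2 σ, hr1 σ]
  obtain ⟨c, hcs⟩ := N.schur (P.map r) hPbar
  have hu2 : r (P 1 0) = 0 := by
    have := congrFun (congrFun hcs 1) 0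
    simpa [Matrix.map_apply, Matrix.scalar_apply] using this
  have hu1 : r (P 0 0) = c := by
    have := congrFun (congrFun hcs 0) 0
    simpa [Matrix.map_apply, Matrix.scalar_apply] using this
  have hu1' : r (P 1 1) = c := by
    have := congrFun (congrFun hcs 1) 1
    simpa [Matrix.map_apply, Matrix.scalar_apply] using this
  have hu01 : r (P 0 1) = 0 := by
    have := congrFun (congrFun hcs 0) 1
    simpa [Matrix.map_apply, Matrix.scalar_apply] using this
  have hdet : r P.det = c * c := by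
    rw [Matrix.det_fin_two, map_sub, map_mul, map_mul, hu1, hu1', hu01, hu2]
    ring
  have hc0 : c ≠ 0 := by
    intro h0
    have : r P.det = 0 := by rw [hdet, h0, mul_zero]
    exact (isUnit_iff_resK_ne_zero (𝒪 := 𝒪) P.det).mp hP this
  have hunit1 : IsUnit (P 0 0) :=
    (isUnit_iff_resK_ne_zero (𝒪 := 𝒪) (P 0 0)).mpr (by rw [show resK 𝒪 B (P 0 0) = c from hu1]; exact hc0)
  -- second column of `P` from the relation at `g0`
  have hg0 := hc N.g0
  have e00 := congrFun (congrFun hg0 0) 0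
  have e10 := congrFun (congrFun hg0 1) 0
  simp only [Matrix.mul_apply, Fin.sum_univ_two, h₁.g0_00, h₁.g0_10, h₂.g0_00, h₂.g0_10,
    mul_zero, mul_one, zero_add, zero_mul] at e00 e10
  -- e00 : P 0 1 = M₂ g0 0 1 * P 1 0 ; e10 : P 1 1 = P 0 0 + M₂ g0 1 1 * P 1 0
  -- the relation at `g1`, entry (i0, j0)
  have hg1 := hc N.g1
  have hPform : P = P 0 0 • (1 : M2 B) + P 1 0 • M₂ N.g0 := by
    ext i j
    fin_cases i <;> fin_cases j <;>
      simp [Matrix.add_apply, Matrix.smul_apply, h₂.g0_00, h₂.g0_10, e00, e10, mul_comm]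
  have hkey : P 1 0 * ((M₂ N.g0 * M₁ N.g1 - M₂ N.g1 * M₂ N.g0) N.i0 N.j0) = 0 := by
    have h := congrFun (congrFun hg1 N.i0) N.j0
    rw [hPform] at h
    simp only [Matrix.add_mul, Matrix.mul_add, Matrix.smul_mul, Matrix.mul_smul, Matrix.one_mul,
      Matrix.mul_one, Matrix.add_apply, Matrix.smul_apply, smul_eq_mul, h₁.g1_ij, h₂.g1_ij] at h
    rw [Matrix.sub_apply, mul_sub]
    linear_combination h
  have hcomm_unit : IsUnit ((M₂ N.g0 * M₁ N.g1 - M₂ N.g1 * M₂ N.g0) N.i0 N.j0) := by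
    rw [isUnit_iff_resK_ne_zero (𝒪 := 𝒪)]
    have : resK 𝒪 B ((M₂ N.g0 * M₁ N.g1 - M₂ N.g1 * M₂ N.g0) N.i0 N.j0) =
        (N.rbar N.g0 * N.rbar N.g1 - N.rbar N.g1 * N.rbar N.g0) N.i0 N.j0 := by
      have h := congrFun (congrFun (show ((M₂ N.g0 * M₁ N.g1 - M₂ N.g1 * M₂ N.g0).map r) =
          N.rbar N.g0 * N.rbar N.g1 - N.rbar N.g1 * N.rbar N.g0 by
        rw [Matrix.map_sub (f := r) (map_sub r), Matrix.map_mul, Matrix.map_mul, hr1, hr2, hr2]) N.i0) N.j0
      exact h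
    rw [this]
    intro h0
    apply N.comm_ne
    rw [Matrix.sub_apply] at h0 ⊢
    rw [sub_eq_zero] at h0 ⊢
    exact h0.symm
  have hP10 : P 1 0 = 0 := by
    rcases hcomm_unit with ⟨u, hu⟩
    rw [← hu] at hkey
    exact (Units.mul_left_eq_zero u).mp hkey
  have hPs : P = P 0 0 • (1 : M2 B) := by
    rw [hPform, hP10, zero_smul, add_zero]
    rw [hP10, zero_smul, add_zero] at hPform
    simp
  ext σ : 1
  have h := hc σ
  rw [hPs, Matrix.smul_mul, Matrix.mul_smul, Matrix.one_mul, Matrix.mul_one] at h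
  rcases hunit1 with ⟨u, hu⟩
  rw [← hu] at h
  have := congrArg (fun X : M2 B => ((u⁻¹ : Bˣ) : B) • X) h
  simpa [smul_smul] using this

end Unique

section TangentClass

variable {𝒪 : Type} [CommRing 𝒪] [IsLocalRing 𝒪]
variable {ρbar : ResidualGaloisRep (ResidueField 𝒪)}
variable {𝒟 : ∀ ⦃A : Type⦄ [CommRing A] [IsLocalRing A] [Algebra 𝒪 A], GaloisRepAdic A → Prop}
variable {A : Type} [CommRing A] [IsLocalRing A] [Algebra 𝒪 A] [IsResAlg 𝒪 A]

theorem isArtinianTest_of_isResAlg [IsArtinianRing A] : GaloisRep.IsArtinianTestAlgebra 𝒪 A where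
  isLocalHom := IsResAlg.isLocalHom
  residue_surjective := IsResAlg.residue_surjective
  isArtinian := inferInstance

/-- Pushing a normalised `𝒟`-lift forward along an algebra hom of Artinian residual algebras. -/
theorem IsNormDLift.map (h𝒟 : GaloisRep.IsDeformationCondition 𝒪 𝒟) (N : NormDatum 𝒪 ρbar)
    {B : Type} [CommRing B] [IsLocalRing B] [Algebra 𝒪 B] [IsResAlg 𝒪 B]
    [IsArtinianRing A] [IsArtinianRing B] (φ : A →ₐ[𝒪] B) {M : GQ →* M2 A}
    (hM : IsNormDLift N 𝒟 A M) : IsNormDLift N 𝒟 B (mapMat (φ : A →+* B) M) := by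
  obtain ⟨hN, hD⟩ := hM
  refine ⟨IsNormLift.map N φ hN, ?_⟩
  have hφ : IsLocalHom (φ : A →+* B) := algHom_isLocalHom φ
  have h1 := h𝒟.baseChangeAlong (isArtinianTest_of_isResAlg (𝒪 := 𝒪) (A := A))
    (isArtinianTest_of_isResAlg (𝒪 := 𝒪) (A := B)) φ hφ hD
  exact h𝒟.of_isEquiv (isArtinianTest_of_isResAlg (𝒪 := 𝒪) (A := B))
    (ofMat_baseChangeAlong (φ : A →+* B) hφ M hN.cont (IsNormLift.map N φ hN).cont) h1

variable [IsArtinianRing A]

/-- The tangent vector attached to an algebra hom to the dual numbers. -/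
def tangentClass (h𝒟 : GaloisRep.IsDeformationCondition 𝒪 𝒟) (N : NormDatum 𝒪 ρbar)
    {M : GQ →* M2 A} (hM : IsNormDLift N 𝒟 A M)
    (φ : A →ₐ[𝒪] DualNumber (ResidueField 𝒪)) : TangentQuot 𝒪 ρbar 𝒟 :=
  haveI := isArtinianRing_dualNumber (ResidueField 𝒪)
  Quotient.mk _ ⟨ofMat (mapMat (φ : A →+* DualNumber (ResidueField 𝒪)) M)
      (IsNormDLift.map h𝒟 N φ hM).1.cont,
    (IsNormDLift.map h𝒟 N φ hM).2, by
      have h := IsNormLift.residual_isEquiv N (IsNormDLift.map h𝒟 N φ hM).1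
      rw [resMap_dualNumber_eq] at h
      exact h⟩

theorem tangentClass_injective (h𝒟 : GaloisRep.IsDeformationCondition 𝒪 𝒟) (N : NormDatum 𝒪 ρbar)
    {M : GQ →* M2 A} (hM : IsNormDLift N 𝒟 A M)
    (hgen : Algebra.adjoin 𝒪 {a : A | ∃ σ i j, a = M σ i j} = ⊤) :
    Function.Injective (tangentClass h𝒟 N hM) := by
  haveI := isArtinianRing_dualNumber (ResidueField 𝒪)
  intro φ φ' h
  have h1 : (ofMat (mapMat (φ : A →+* DualNumber (ResidueField 𝒪)) M)
      (IsNormDLift.map h𝒟 N φ hM).1.cont).IsEquiv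
      (ofMat (mapMat (φ' : A →+* DualNumber (ResidueField 𝒪)) M)
        (IsNormDLift.map h𝒟 N φ' hM).1.cont) := Quotient.exact h
  rw [ofMat_isEquiv_iff] at h1
  obtain ⟨P, hP, hc⟩ := h1
  have h2 := normLift_unique N (IsNormDLift.map h𝒟 N φ hM).1 (IsNormDLift.map h𝒟 N φ' hM).1 P hP hc
  apply AlgHom.ext_of_adjoin_eq_top hgen
  rintro a ⟨σ, i, j, rfl⟩
  have h3 := congrFun (congrFun (DFunLike.congr_fun h2 σ) i) j
  exact h3

/-- The tangent bound: under `TangentFinite`, the number of `𝒪`-algebra homs to the dual numbers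
from the coefficient ring of a normalised `𝒟`-lift generated by its entries is uniformly
bounded. -/
theorem exists_tangent_bound (h𝒟 : GaloisRep.IsDeformationCondition 𝒪 𝒟)
    (hfin : GaloisRep.TangentFinite 𝒪 ρbar 𝒟) (N : NormDatum 𝒪 ρbar) :
    ∃ n : ℕ, ∀ (A : Type) [CommRing A] [IsLocalRing A] [Algebra 𝒪 A] [IsResAlg 𝒪 A]
      [IsArtinianRing A] (M : GQ →* M2 A), IsNormDLift N 𝒟 A M →
      Algebra.adjoin 𝒪 {a : A | ∃ σ i j, a = M σ i j} = ⊤ →
      Finite (A →ₐ[𝒪] DualNumber (ResidueField 𝒪)) ∧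
        Nat.card (A →ₐ[𝒪] DualNumber (ResidueField 𝒪)) ≤ n := by
  haveI : Finite (TangentQuot 𝒪 ρbar 𝒟) := (tangentFinite_iff 𝒪 ρbar 𝒟).mp hfin
  refine ⟨Nat.card (TangentQuot 𝒪 ρbar 𝒟), ?_⟩
  intro A _ _ _ _ _ M hM hgen
  have hinj := tangentClass_injective h𝒟 N hM hgen
  exact ⟨Finite.of_injective _ hinj, Nat.card_le_card_of_injective _ hinj⟩

end TangentClass

end

end Fermat.Agent.S53.Tangent
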