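import Fermat.Agent.S53.Tangent

/-! `DualLifts` and `finite_dualLifts` live in `Tangent.lean`; this file only re-exports them. -/
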