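import Fermat.Agent.S53.Defs
import Fermat.Agent.S53.Dict
import Fermat.Agent.S53.Dict2
import Fermat.Agent.S53.TestAlg
import Fermat.Agent.S53.TestAlg2
import Fermat.Agent.S53.NormalForm
import Fermat.Agent.S53.NormFunctor

set_option autoImplicit false

/-!
From Artinian-level universality to the universal property over complete Noetherian local
algebras.  OWNER: helper15.
-/

namespace Fermat.Agent.S53

open IsLocalRing

set_option linter.unusedSectionVars false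

noncomputable section

namespace UnivCNL

variable {𝒪 : Type} [CommRing 𝒪] [IsLocalRing 𝒪]
  {ρbar : ResidualGaloisRep (ResidueField 𝒪)} (N : NormDatum 𝒪 ρbar)
  {𝒟 : ∀ ⦃A : Type⦄ [CommRing A] [IsLocalRing A] [Algebra 𝒪 A], GaloisRepAdic A → Prop}

/-- Artinian-level universality of a normalised lift `Mu` over `R`. -/
def ArtUniv (R : Type) [CommRing R] [Algebra 𝒪 R] (Mu : GQ →* M2 R) : Prop :=
  ∀ (A : Type) [CommRing A] [IsLocalRing A] [Algebra 𝒪 A] [IsResAlg 𝒪 A] [IsArtinianRing A]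
    (M : GQ →* M2 A), IsNormDLift N 𝒟 A M → ∃! φ : R →ₐ[𝒪] A, mapMat φ.toRingHom Mu = M

section Quot

variable {A : Type} [CommRing A] [IsLocalRing A] [Algebra 𝒪 A]

/-- The transition maps between the quotients by powers of the maximal ideal. -/
abbrev trans {m n : ℕ} (h : m ≤ n) :
    (A ⧸ maximalIdeal A ^ n) →ₐ[𝒪] (A ⧸ maximalIdeal A ^ m) :=
  Ideal.Quotient.factorₐ 𝒪 (Ideal.pow_le_pow_right h)

theorem trans_comp_mk {m n : ℕ} (h : m ≤ n) :
    (trans (𝒪 := 𝒪) (A := A) h).comp (Ideal.Quotient.mkₐ 𝒪 (maximalIdeal A ^ n)) =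
      Ideal.Quotient.mkₐ 𝒪 (maximalIdeal A ^ m) := by
  ext x; rfl

theorem trans_trans {l m n : ℕ} (h : l ≤ m) (h' : m ≤ n) :
    (trans (𝒪 := 𝒪) (A := A) h).comp (trans h') = trans (h.trans h') := by
  apply AlgHom.ext
  intro x
  obtain ⟨x, rfl⟩ := Ideal.Quotient.mk_surjective x
  rfl

end Quot

section Main

variable (h𝒟 : GaloisRep.IsDeformationCondition 𝒪 𝒟)
  {R : Type} [CommRing R] [IsLocalRing R] [Algebra 𝒪 R] [IsResAlg 𝒪 R]
  {Mu : GQ →* M2 R} (hU : ArtUniv N (𝒟 := 𝒟) R Mu)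
  {A : Type} [CommRing A] [IsLocalRing A] [Algebra 𝒪 A] [IsResAlg 𝒪 A] [IsNoetherianRing A]
  [IsAdicComplete (maximalIdeal A) A]
  {M : GQ →* M2 A} (hM : IsNormLift N A M) (hDM : 𝒟 (ofMat M hM.cont))

/-- The level `n` map. -/
def levelHom (n : ℕ) : R →ₐ[𝒪] A ⧸ maximalIdeal A ^ (n + 1) :=
  (hU (A ⧸ maximalIdeal A ^ (n + 1)) _ (IsNormDLift.quotPow N h𝒟 hM hDM n)).exists.choose

theorem levelHom_spec (n : ℕ) :
    mapMat (levelHom N h𝒟 hU hM hDM n).toRingHom Mu =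
      mapMat (Ideal.Quotient.mk (maximalIdeal A ^ (n + 1))) M :=
  (hU (A ⧸ maximalIdeal A ^ (n + 1)) _ (IsNormDLift.quotPow N h𝒟 hM hDM n)).exists.choose_spec

theorem levelHom_unique (n : ℕ) (ψ : R →ₐ[𝒪] A ⧸ maximalIdeal A ^ (n + 1))
    (hψ : mapMat ψ.toRingHom Mu = mapMat (Ideal.Quotient.mk (maximalIdeal A ^ (n + 1))) M) :
    ψ = levelHom N h𝒟 hU hM hDM n :=
  (hU (A ⧸ maximalIdeal A ^ (n + 1)) _ (IsNormDLift.quotPow N h𝒟 hM hDM n)).unique hψ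
    (levelHom_spec N h𝒟 hU hM hDM n)

theorem levelHom_compat {m n : ℕ} (h : m ≤ n) :
    (trans (𝒪 := 𝒪) (A := A) (Nat.succ_le_succ h)).comp (levelHom N h𝒟 hU hM hDM n) =
      levelHom N h𝒟 hU hM hDM m := by
  apply levelHom_unique
  ext σ i j
  have := congrFun (congrFun (DFunLike.congr_fun (levelHom_spec N h𝒟 hU hM hDM n) σ) i) j
  simp only [mapMat_apply] at this ⊢
  show trans (𝒪 := 𝒪) (A := A) (Nat.succ_le_succ h) ((levelHom N h𝒟 hU hM hDM n) (Mu σ i j)) = _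
  have h2 : (levelHom N h𝒟 hU hM hDM n) (Mu σ i j) =
      Ideal.Quotient.mk (maximalIdeal A ^ (n + 1)) (M σ i j) := this
  rw [h2]
  rfl

end Main

section Lift

variable (h𝒟 : GaloisRep.IsDeformationCondition 𝒪 𝒟)
  {R : Type} [CommRing R] [IsLocalRing R] [Algebra 𝒪 R] [IsResAlg 𝒪 R]
  {Mu : GQ →* M2 R} (hU : ArtUniv N (𝒟 := 𝒟) R Mu)
  {A : Type} [CommRing A] [IsLocalRing A] [Algebra 𝒪 A] [IsResAlg 𝒪 A] [IsNoetherianRing A]
  [IsAdicComplete (maximalIdeal A) A]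
  {M : GQ →* M2 A} (hM : IsNormLift N A M) (hDM : 𝒟 (ofMat M hM.cont))

/-- The compatible family indexed by all `n`. -/
def famHom (n : ℕ) : R →ₐ[𝒪] A ⧸ maximalIdeal A ^ n :=
  (trans (𝒪 := 𝒪) (A := A) (Nat.le_succ n)).comp (levelHom N h𝒟 hU hM hDM n)

theorem famHom_compat {m n : ℕ} (hle : m ≤ n) :
    (Ideal.Quotient.factorₐ 𝒪 (Ideal.pow_le_pow_right hle)).comp (famHom N h𝒟 hU hM hDM n) =
      famHom N h𝒟 hU hM hDM m := by
  show (trans (𝒪 := 𝒪) (A := A) hle).comp ((trans (𝒪 := 𝒪) (A := A) (Nat.le_succ n)).comp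
    (levelHom N h𝒟 hU hM hDM n)) = (trans (𝒪 := 𝒪) (A := A) (Nat.le_succ m)).comp
    (levelHom N h𝒟 hU hM hDM m)
  rw [← levelHom_compat N h𝒟 hU hM hDM hle, ← AlgHom.comp_assoc, ← AlgHom.comp_assoc,
    trans_trans, trans_trans]

/-- The limit map. -/
def limHom : R →ₐ[𝒪] A :=
  IsAdicComplete.liftAlgHom (maximalIdeal A) (famHom N h𝒟 hU hM hDM)
    (fun hle => famHom_compat N h𝒟 hU hM hDM hle)

theorem mk_limHom (n : ℕ) (x : R) :
    Ideal.Quotient.mk (maximalIdeal A ^ (n + 1)) (limHom N h𝒟 hU hM hDM x) =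
      levelHom N h𝒟 hU hM hDM n x := by
  have h1 := IsAdicComplete.mk_liftAlgHom (maximalIdeal A) (famHom N h𝒟 hU hM hDM)
    (fun hle => famHom_compat N h𝒟 hU hM hDM hle) (n + 1) x
  have h2 := DFunLike.congr_fun (levelHom_compat N h𝒟 hU hM hDM (Nat.le_succ n)) x
  exact h1.trans h2

theorem eq_of_forall_mk_eq {a b : A}
    (h : ∀ n : ℕ, Ideal.Quotient.mk (maximalIdeal A ^ (n + 1)) a =
      Ideal.Quotient.mk (maximalIdeal A ^ (n + 1)) b) : a = b := by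
  have h1 : a - b ∈ (⨅ i, maximalIdeal A ^ i : Ideal A) := by
    rw [Ideal.mem_iInf]
    intro i
    have := h i
    rw [Ideal.Quotient.eq] at this
    exact Ideal.pow_le_pow_right (Nat.le_succ i) this
  rw [Ideal.iInf_pow_eq_bot_of_isLocalRing _ (maximalIdeal.isMaximal A).ne_top, Ideal.mem_bot,
    sub_eq_zero] at h1
  exact h1

theorem mapMat_limHom : mapMat (limHom N h𝒟 hU hM hDM).toRingHom Mu = M := by
  ext σ i j
  apply eq_of_forall_mk_eq
  intro n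
  have h1 := mk_limHom N h𝒟 hU hM hDM n (Mu σ i j)
  have h2 := congrFun (congrFun (DFunLike.congr_fun (levelHom_spec N h𝒟 hU hM hDM n) σ) i) j
  simp only [mapMat_apply] at h2 ⊢
  exact h1.trans h2

end Lift

section Universal

variable (h𝒟 : GaloisRep.IsDeformationCondition 𝒪 𝒟)
  {R : Type} [CommRing R] [IsLocalRing R] [Algebra 𝒪 R] [IsResAlg 𝒪 R]
  {Mu : GQ →* M2 R} (hU : ArtUniv N (𝒟 := 𝒟) R Mu)

section

variable {A : Type} [CommRing A] [IsLocalRing A] [Algebra 𝒪 A] [IsResAlg 𝒪 A] [IsNoetherianRing A]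
  [IsAdicComplete (maximalIdeal A) A]
  {M : GQ →* M2 A} (hM : IsNormLift N A M) (hDM : 𝒟 (ofMat M hM.cont))

theorem mk_comp_eq_levelHom (ψ : R →ₐ[𝒪] A) (hψ : mapMat ψ.toRingHom Mu = M) (n : ℕ) :
    (Ideal.Quotient.mkₐ 𝒪 (maximalIdeal A ^ (n + 1))).comp ψ = levelHom N h𝒟 hU hM hDM n := by
  apply levelHom_unique
  rw [← hψ]
  ext σ i j
  rfl

theorem eq_limHom (ψ : R →ₐ[𝒪] A) (hψ : mapMat ψ.toRingHom Mu = M) :
    ψ = limHom N h𝒟 hU hM hDM := by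
  apply IsAdicComplete.algHom_ext (maximalIdeal A)
  intro n
  have h1 := mk_comp_eq_levelHom N h𝒟 hU hM hDM ψ hψ n
  have h2 := mk_comp_eq_levelHom N h𝒟 hU hM hDM (limHom N h𝒟 hU hM hDM)
    (mapMat_limHom N h𝒟 hU hM hDM) n
  have h3 : (Ideal.Quotient.mkₐ 𝒪 (maximalIdeal A ^ (n + 1))).comp ψ =
      (Ideal.Quotient.mkₐ 𝒪 (maximalIdeal A ^ (n + 1))).comp (limHom N h𝒟 hU hM hDM) :=
    h1.trans h2.symm
  have h4 := congrArg (fun χ => (trans (𝒪 := 𝒪) (A := A) (Nat.le_succ n)).comp χ) h3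
  simp only [← AlgHom.comp_assoc, trans_comp_mk] at h4
  exact h4

end

include h𝒟 hU in
theorem universal (hMu : IsNormLift N R Mu)
    (A : Type) [CommRing A] [IsLocalRing A] [IsNoetherianRing A]
    [IsAdicComplete (maximalIdeal A) A] [Algebra 𝒪 A] [IsLocalHom (algebraMap 𝒪 A)]
    (hsurj : Function.Surjective (IsLocalRing.residue A ∘ algebraMap 𝒪 A))
    (ρA : GaloisRepAdic A) (hD : 𝒟 ρA)
    (hres : ρA.residual.IsEquiv
      (ρbar.baseChangeAlong (IsLocalRing.ResidueField.map (algebraMap 𝒪 A)))) :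
    ∃! φ : R →ₐ[𝒪] A, ∃ hφ : IsLocalHom (φ : R →+* A),
      ((ofMat Mu hMu.cont).baseChangeAlong (φ : R →+* A) hφ).IsEquiv ρA := by
  have : IsResAlg 𝒪 A := ⟨inferInstance, hsurj⟩
  -- matrix form of ρA
  obtain ⟨M0, hM0, e0⟩ := exists_ofMat ρA
  have hres0 : (ofMat M0 hM0).residual.IsEquiv
      (ρbar.baseChangeAlong (IsLocalRing.ResidueField.map (algebraMap 𝒪 A))) := by
    obtain ⟨e1⟩ := IsEquiv.residual' e0
    obtain ⟨e2⟩ := hres
    exact ⟨e1.symm.trans e2⟩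
  have hconj0 := (ofMat_residual_isEquiv_iff N hM0).mp hres0
  obtain ⟨M, hMM0, hM⟩ := exists_normLift N hM0 hconj0
  have e1 : ρA.IsEquiv (ofMat M hM.cont) := by
    obtain ⟨e0'⟩ := e0
    obtain ⟨e'⟩ := (ofMat_isEquiv_iff hM0 hM.cont).mpr hMM0
    exact ⟨e0'.trans e'⟩
  have hDM : 𝒟 (ofMat M hM.cont) := D_of_isEquiv_cnl h𝒟 e1 hD
  refine ⟨limHom N h𝒟 hU hM hDM, ?_, ?_⟩
  · have hloc : IsLocalHom ((limHom N h𝒟 hU hM hDM : R →ₐ[𝒪] A) : R →+* A) :=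
      algHom_isLocalHom (limHom N h𝒟 hU hM hDM)
    refine ⟨hloc, ?_⟩
    obtain ⟨f1⟩ := ofMat_baseChangeAlong ((limHom N h𝒟 hU hM hDM : R →ₐ[𝒪] A) : R →+* A) hloc
      hMu.cont
    have hmap : mapMat ((limHom N h𝒟 hU hM hDM : R →ₐ[𝒪] A) : R →+* A) Mu = M :=
      mapMat_limHom N h𝒟 hU hM hDM
    obtain ⟨f2⟩ : (ofMat (mapMat ((limHom N h𝒟 hU hM hDM : R →ₐ[𝒪] A) : R →+* A) Mu)
        (hMu.cont.map _ hloc)).IsEquiv (ofMat M hM.cont) := by
      rw [ofMat_isEquiv_iff, hmap]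
      exact MatConj.refl M
    obtain ⟨e1'⟩ := e1
    exact ⟨(f1.trans f2).trans e1'.symm⟩
  · rintro ψ ⟨hψloc, hψ⟩
    apply eq_limHom
    have hN' : IsNormLift N A (mapMat ψ.toRingHom Mu) := IsNormLift.map N ψ hMu
    apply normLift_unique N hN' hM
    obtain ⟨f1⟩ := ofMat_baseChangeAlong (ψ : R →+* A) hψloc hMu.cont
    obtain ⟨hψ'⟩ := hψ
    obtain ⟨e1'⟩ := e1
    have : (ofMat (mapMat (ψ : R →+* A) Mu) (hMu.cont.map _ hψloc)).IsEquiv (ofMat M hM.cont) :=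
      ⟨(f1.symm.trans hψ').trans e1'⟩
    exact (ofMat_isEquiv_iff _ _).mp this

end Universal

section Assemble

theorem mapMat_resK_eq {R : Type} [CommRing R] [IsLocalRing R] [Algebra 𝒪 R] [IsResAlg 𝒪 R]
    {Mu : GQ →* M2 R} (hMu : IsNormLift N R Mu) : mapMat (resK 𝒪 R).toRingHom Mu = N.rbar := by
  ext σ i j
  exact hMu.res σ i j

theorem residual_isEquiv {R : Type} [CommRing R] [IsLocalRing R] [Algebra 𝒪 R] [IsResAlg 𝒪 R]
    {Mu : GQ →* M2 R} (hMu : IsNormLift N R Mu) :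
    (ofMat Mu hMu.cont).residual.IsEquiv
      (ρbar.baseChangeAlong (IsLocalRing.ResidueField.map (algebraMap 𝒪 R))) := by
  rw [ofMat_residual_isEquiv_iff N hMu.cont, mapMat_resK_eq N hMu]
  exact MatConj.refl _

end Assemble

end UnivCNL

/-- Final assembly: a normalised `𝒟`-lift over a complete Noetherian local `𝒪`-algebra with residue
field `k` which is universal among Artinian test algebras gives `DeformationRingData`. -/
theorem nonempty_deformationRingData_of_artUniv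
    {𝒪 : Type} [CommRing 𝒪] [IsDomain 𝒪] [IsDiscreteValuationRing 𝒪]
    [IsAdicComplete (IsLocalRing.maximalIdeal 𝒪) 𝒪]
    {ρbar : ResidualGaloisRep (IsLocalRing.ResidueField 𝒪)} (N : NormDatum 𝒪 ρbar)
    {𝒟 : ∀ ⦃A : Type⦄ [CommRing A] [IsLocalRing A] [Algebra 𝒪 A], GaloisRepAdic A → Prop}
    (h𝒟 : GaloisRep.IsDeformationCondition 𝒪 𝒟) (habs : ρbar.IsAbsolutelyIrreducible)
    (R : Type) [CommRing R] [IsLocalRing R] [IsNoetherianRing R]
    [IsAdicComplete (IsLocalRing.maximalIdeal R) R] [Algebra 𝒪 R] [IsResAlg 𝒪 R]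
    (Mu : GQ →* M2 R) (hMu : IsNormLift N R Mu) (hDu : 𝒟 (ofMat Mu hMu.cont))
    (hU : UnivCNL.ArtUniv N (𝒟 := 𝒟) R Mu) :
    Nonempty (GaloisRep.DeformationRingData 𝒪 ρbar 𝒟) :=
  ⟨{ R := R
     residue_surjective := IsResAlg.residue_surjective
     absIrr := habs
     ρ := ofMat Mu hMu.cont
     isOfType := hDu
     residual_isEquiv := UnivCNL.residual_isEquiv N hMu
     universal := fun A _ _ _ _ _ _ hsurj ρA hD hres =>
       UnivCNL.universal N h𝒟 hU hMu A hsurj ρA hD hres }⟩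

/-- Skeleton-v5 form of the final assembly (same statement, hypotheses unfolded and in the
skeleton's order). -/
theorem nonempty_deformationRingData_of_univ
    {𝒪 : Type} [CommRing 𝒪] [IsDomain 𝒪] [IsDiscreteValuationRing 𝒪]
    [IsAdicComplete (IsLocalRing.maximalIdeal 𝒪) 𝒪] [Finite (IsLocalRing.ResidueField 𝒪)]
    {ρbar : ResidualGaloisRep (IsLocalRing.ResidueField 𝒪)} (N : NormDatum 𝒪 ρbar)
    {𝒟 : ∀ ⦃A : Type⦄ [CommRing A] [IsLocalRing A] [Algebra 𝒪 A], GaloisRepAdic A → Prop}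
    (habs : ρbar.IsAbsolutelyIrreducible)
    (h𝒟 : GaloisRep.IsDeformationCondition 𝒪 𝒟)
    (R : Type) [CommRing R] [IsLocalRing R] [IsNoetherianRing R]
    [IsAdicComplete (maximalIdeal R) R] [Algebra 𝒪 R] [IsResAlg 𝒪 R]
    (Mu : GQ →* M2 R) (hMu : IsNormLift N R Mu) (hD : 𝒟 (ofMat Mu hMu.cont))
    (hU : ∀ (A : Type) [CommRing A] [IsLocalRing A] [Algebra 𝒪 A] [IsResAlg 𝒪 A]
      [IsArtinianRing A] (M : GQ →* M2 A), IsNormDLift N 𝒟 A M →
      ∃! φ : R →ₐ[𝒪] A, mapMat φ.toRingHom Mu = M) :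
    Nonempty (GaloisRep.DeformationRingData 𝒪 ρbar 𝒟) :=
  nonempty_deformationRingData_of_artUniv N h𝒟 habs R Mu hMu hD hU

end

end Fermat.Agent.S53
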